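import Fermat.Agent.BR.Inst.Interface
import Fermat.Agent.INJ.Inst.Fricke
import Fermat.Agent.S24.FFGen

/-!
# BR / Inst : [LV] levels and [ALP] properties of the Atkin-Lehner involution
-/

set_option autoImplicit false
set_option synthInstance.maxHeartbeats 400000

noncomputable section

namespace Fermat.Agent.BR.Inst

open AlgebraicCurve ModularCurve IntermediateField Polynomial
open Fermat.Agent Fermat.Agent.INJ Fermat.Agent.INJ.Inst

theorem ALP_Vq_algebraMap (d : ℕ) (c : Qb) :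
    S28.Vq Qb d (algebraMap Qb (LaurentSeries Qb) c) = algebraMap Qb (LaurentSeries Qb) c := by
  by_cases hd : d = 0
  · rw [S28.Vq, dif_pos hd]; rfl
  · have : NeZero d := ⟨hd⟩
    rw [S28.Vq_eq, algebraMap_laurentSeries_eq_single, qExpand_single, mul_zero]

theorem ALP_Vq_jd {m d : ℕ} (hm : m ≠ 0) (hd : d ≠ 0) :
    S28.Vq Qb m (S28.jd Qb d) = S28.jd Qb (m * d) := by
  rw [S28.jd, S28.jd, S28.tower_Vq_Vq Qb hm hd]

/-- Induction principle for the elements of `modularFunctionFieldBar N`. -/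
theorem ALP_induction (N : ℕ) [NeZero N] (p : LaurentSeries Qb → Prop)
    (hj : ∀ d, d ∣ N → p (S28.jd Qb d))
    (hc : ∀ c : Qb, p (algebraMap Qb (LaurentSeries Qb) c))
    (hadd : ∀ x y, p x → p y → p (x + y)) (hmul : ∀ x y, p x → p y → p (x * y))
    (hinv : ∀ x, p x → p x⁻¹) (x : LaurentSeries Qb) (hx : x ∈ modularFunctionFieldBar N) :
    p x := by
  rw [S24.modularFunctionFieldBar_eq_adjoin] at hx
  induction hx using IntermediateField.adjoin_induction with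
  | mem x hx =>
    obtain ⟨d, hd, hdN, rfl⟩ := hx
    have := fricke_coe_jBar N d hdN
    rw [show S24.jBarSeries d = S28.jd Qb d from this]
    exact hj d hdN
  | algebraMap c => exact hc c
  | add x y _ _ hx hy => exact hadd x y hx hy
  | inv x _ hx => exact hinv x hx
  | mul x y _ _ hx hy => exact hmul x y hx hy

theorem stmt_Levels : Stmt_Levels := by
  intro M Q _ x hx
  have hMQ : M * Q ≠ 0 := NeZero.ne _
  have hM : M ≠ 0 := fun h => hMQ (by rw [h, zero_mul])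
  have hQ : Q ≠ 0 := fun h => hMQ (by rw [h, mul_zero])
  have : NeZero M := ⟨hM⟩
  refine ALP_induction M
    (fun x => x ∈ modularFunctionFieldBar (M * Q) ∧ S28.Vq Qb Q x ∈ modularFunctionFieldBar (M * Q))
    ?_ ?_ ?_ ?_ ?_ x hx
  · intro d hd
    have hd0 : d ≠ 0 := fun h => hM (by rw [h] at hd; exact Nat.eq_zero_of_zero_dvd hd)
    refine ⟨jd_mem_bar hMQ (hd.trans (Nat.dvd_mul_right M Q)), ?_⟩
    rw [ALP_Vq_jd hQ hd0]
    exact jd_mem_bar hMQ (by rw [mul_comm M Q]; exact Nat.mul_dvd_mul_left Q hd)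
  · intro c
    refine ⟨IntermediateField.algebraMap_mem _ c, ?_⟩
    rw [ALP_Vq_algebraMap]
    exact IntermediateField.algebraMap_mem _ c
  · rintro x y ⟨h1, h2⟩ ⟨h3, h4⟩
    exact ⟨add_mem h1 h3, by rw [map_add]; exact add_mem h2 h4⟩
  · rintro x y ⟨h1, h2⟩ ⟨h3, h4⟩
    exact ⟨mul_mem h1 h3, by rw [map_mul]; exact mul_mem h2 h4⟩
  · rintro x ⟨h1, h2⟩
    exact ⟨inv_mem h1, by rw [map_inv₀]; exact inv_mem h2⟩

/-- Two ring homomorphisms out of `FL N` which agree on the constants and on the `j(q^d)`, `d ∣ N`,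
are equal. -/
theorem ALP_ext (N : ℕ) [NeZero N] {R : Type*} [DivisionRing R] (f g : FL N →+* R)
    (hc : ∀ c : Qb, f (algebraMap Qb (FL N) c) = g (algebraMap Qb (FL N) c))
    (hj : ∀ d, d ∣ N → ∀ x : FL N, (x : LaurentSeries Qb) = S28.jd Qb d → f x = g x) : f = g := by
  ext x
  have main : ∃ hz : x.1 ∈ modularFunctionFieldBar N, f ⟨x.1, hz⟩ = g ⟨x.1, hz⟩ := by
    refine ALP_induction N
      (fun z => ∃ hz : z ∈ modularFunctionFieldBar N, f ⟨z, hz⟩ = g ⟨z, hz⟩) ?_ ?_ ?_ ?_ ?_ x.1 x.2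
    all_goals clear x
    · intro d hd
      exact ⟨jd_mem_bar (NeZero.ne N) hd, hj d hd _ rfl⟩
    · intro c
      exact ⟨IntermediateField.algebraMap_mem _ c, hc c⟩
    · rintro x y ⟨hx, ex⟩ ⟨hy, ey⟩
      refine ⟨add_mem hx hy, ?_⟩
      have : (⟨x + y, add_mem hx hy⟩ : FL N) = ⟨x, hx⟩ + ⟨y, hy⟩ := rfl
      rw [this, map_add, map_add, ex, ey]
    · rintro x y ⟨hx, ex⟩ ⟨hy, ey⟩
      refine ⟨mul_mem hx hy, ?_⟩
      have : (⟨x * y, mul_mem hx hy⟩ : FL N) = ⟨x, hx⟩ * ⟨y, hy⟩ := rfl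
      rw [this, map_mul, map_mul, ex, ey]
    · rintro x ⟨hx, ex⟩
      refine ⟨inv_mem hx, ?_⟩
      have : (⟨x⁻¹, inv_mem hx⟩ : FL N) = (⟨x, hx⟩ : FL N)⁻¹ := rfl
      rw [this, map_inv₀, map_inv₀, ex]
  obtain ⟨_, h⟩ := main
  exact h

theorem ALP_gal_algebraMap (N : ℕ) (σ : ES.Mid.GQ) (c : Qb) :
    ES.Mid.gal N σ (algebraMap Qb (FL N) c) = algebraMap Qb (FL N) (σ c) := by
  apply Subtype.ext
  rw [ES.Mid.coe_gal]
  show coeffMap (σ : Qb →+* Qb) (algebraMap Qb (LaurentSeries Qb) c) =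
    algebraMap Qb (LaurentSeries Qb) (σ c)
  rw [algebraMap_laurentSeries_eq_single, algebraMap_laurentSeries_eq_single, coeffMap_single]
  rfl

theorem ALP_gal_jd (N : ℕ) (σ : ES.Mid.GQ) (d : ℕ) (x : FL N)
    (hx : (x : LaurentSeries Qb) = S28.jd Qb d) : ES.Mid.gal N σ x = x := by
  apply Subtype.ext
  rw [ES.Mid.coe_gal, hx, coeffMap_jd]

section

variable (M Q : ℕ) [NeZero (M * Q)]

theorem ALP_key (W : FL (M * Q) ≃ₐ[Qb] FL (M * Q)) (hAL : IsAL M Q W) (n : ℕ) (hn : n ∣ M * Q)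
    (x : FL (M * Q)) (hx : (x : LaurentSeries Qb) = S28.jd Qb n) :
    ∃ (n' : ℕ) (y : FL (M * Q)), (y : LaurentSeries Qb) = S28.jd Qb n' ∧ W x = y ∧ W y = x := by
  have hMQ : M * Q ≠ 0 := NeZero.ne _
  have hQ : Q ≠ 0 := fun h => hMQ (by rw [h, mul_zero])
  obtain ⟨d, e, hd, he, rfl⟩ := (Nat.dvd_mul).1 hn
  have hdvd : d * (Q / e) ∣ M * Q := Nat.mul_dvd_mul hd (Nat.div_dvd_of_dvd he)
  refine ⟨d * (Q / e), ⟨S28.jd Qb (d * (Q / e)), jd_mem_bar hMQ hdvd⟩, rfl, ?_, ?_⟩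
  · exact hAL d e hd he _ _ hx rfl
  · refine hAL d (Q / e) hd (Nat.div_dvd_of_dvd he) _ _ rfl ?_
    rw [Nat.div_div_self he hQ, hx]

theorem ALP_invol (W : FL (M * Q) ≃ₐ[Qb] FL (M * Q)) (hAL : IsAL M Q W) (x : FL (M * Q)) :
    W (W x) = x := by
  have h : ((W : FL (M * Q) →+* FL (M * Q)).comp (W : FL (M * Q) →+* FL (M * Q))) =
      RingHom.id _ := by
    refine ALP_ext (M * Q) _ _ ?_ ?_
    · intro c
      rw [RingHom.comp_apply, RingHom.id_apply, RingHom.coe_coe, AlgEquiv.commutes,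
        AlgEquiv.commutes]
    · intro n hn x hx
      obtain ⟨n', y, -, h1, h2⟩ := ALP_key M Q W hAL n hn x hx
      rw [RingHom.comp_apply, RingHom.id_apply, RingHom.coe_coe, h1, h2]
  have := DFunLike.congr_fun h x
  rwa [RingHom.comp_apply, RingHom.id_apply, RingHom.coe_coe] at this

theorem ALP_comm (W : FL (M * Q) ≃ₐ[Qb] FL (M * Q)) (hAL : IsAL M Q W) (σ : ES.Mid.GQ)
    (x : FL (M * Q)) : W (ES.Mid.gal (M * Q) σ x) = ES.Mid.gal (M * Q) σ (W x) := by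
  have h : ((W : FL (M * Q) →+* FL (M * Q)).comp
      (ES.Mid.gal (M * Q) σ : FL (M * Q) →+* FL (M * Q))) =
      (ES.Mid.gal (M * Q) σ : FL (M * Q) →+* FL (M * Q)).comp
        (W : FL (M * Q) →+* FL (M * Q)) := by
    refine ALP_ext (M * Q) _ _ ?_ ?_
    · intro c
      rw [RingHom.comp_apply, RingHom.comp_apply, RingHom.coe_coe, RingHom.coe_coe,
        ALP_gal_algebraMap, AlgEquiv.commutes, AlgEquiv.commutes, ALP_gal_algebraMap]
    · intro n hn x hx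
      obtain ⟨n', y, hy, h1, -⟩ := ALP_key M Q W hAL n hn x hx
      rw [RingHom.comp_apply, RingHom.comp_apply, RingHom.coe_coe, RingHom.coe_coe,
        ALP_gal_jd _ σ n x hx, h1, ALP_gal_jd _ σ n' y hy]
  have := DFunLike.congr_fun h x
  rwa [RingHom.comp_apply, RingHom.comp_apply, RingHom.coe_coe, RingHom.coe_coe] at this

/-- the inclusion `FL M → FL (M Q)`. -/
def ALP_i : FL M →+* FL (M * Q) where
  toFun := fun x => ⟨x.1, (stmt_Levels M Q x.1 x.2).1⟩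
  map_one' := rfl
  map_mul' := fun _ _ => rfl
  map_zero' := rfl
  map_add' := fun _ _ => rfl

/-- `q ↦ q ^ Q` as a map `FL M → FL (M Q)`. -/
def ALP_v : FL M →+* FL (M * Q) where
  toFun := fun x => ⟨S28.Vq Qb Q x.1, (stmt_Levels M Q x.1 x.2).2⟩
  map_one' := Subtype.ext (map_one (S28.Vq Qb Q))
  map_mul' := fun x y => Subtype.ext (map_mul (S28.Vq Qb Q) x.1 y.1)
  map_zero' := Subtype.ext (map_zero (S28.Vq Qb Q))
  map_add' := fun x y => Subtype.ext (map_add (S28.Vq Qb Q) x.1 y.1)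

theorem ALP_coe_i (x : FL M) : ((ALP_i M Q x : FL (M * Q)) : LaurentSeries Qb) = x.1 := by
  obtain ⟨z, hz⟩ := x
  rfl

theorem ALP_coe_v (x : FL M) :
    ((ALP_v M Q x : FL (M * Q)) : LaurentSeries Qb) = S28.Vq Qb Q x.1 := rfl

theorem ALP_coe_algebraMap (N : ℕ) (c : Qb) :
    ((algebraMap Qb (FL N) c : FL N) : LaurentSeries Qb) = algebraMap Qb (LaurentSeries Qb) c :=
  rfl

theorem ALP_W_i (W : FL (M * Q) ≃ₐ[Qb] FL (M * Q)) (hAL : IsAL M Q W) :
    (W : FL (M * Q) →+* FL (M * Q)).comp (ALP_i M Q) = ALP_v M Q := by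
  have hMQ : M * Q ≠ 0 := NeZero.ne _
  have hM : M ≠ 0 := fun h => hMQ (by rw [h, zero_mul])
  have hQ : Q ≠ 0 := fun h => hMQ (by rw [h, mul_zero])
  have : NeZero M := ⟨hM⟩
  refine ALP_ext M _ _ ?_ ?_
  · intro c
    have h1 : ALP_i M Q (algebraMap Qb (FL M) c) = algebraMap Qb (FL (M * Q)) c :=
      Subtype.ext (by rw [ALP_coe_i, ALP_coe_algebraMap, ALP_coe_algebraMap])
    have h2 : ALP_v M Q (algebraMap Qb (FL M) c) = algebraMap Qb (FL (M * Q)) c :=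
      Subtype.ext (by rw [ALP_coe_v, ALP_coe_algebraMap, ALP_coe_algebraMap, ALP_Vq_algebraMap])
    rw [RingHom.comp_apply, RingHom.coe_coe, h1, h2, AlgEquiv.commutes]
  · intro d hd x hx
    have hd0 : d ≠ 0 := fun h => hM (by rw [h] at hd; exact Nat.eq_zero_of_zero_dvd hd)
    rw [RingHom.comp_apply, RingHom.coe_coe]
    refine hAL d 1 hd (one_dvd Q) _ _ ?_ ?_
    · rw [ALP_coe_i, mul_one, hx]
    · rw [ALP_coe_v, hx, ALP_Vq_jd hQ hd0, Nat.div_one, mul_comm]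

end

theorem stmt_ALProps : Stmt_ALProps := by
  intro M Q _ W hAL
  refine ⟨ALP_invol M Q W hAL, ALP_comm M Q W hAL, ?_⟩
  intro x y hx hy
  have h3 := DFunLike.congr_fun (ALP_W_i M Q W hAL) (⟨x.1, hx⟩ : FL M)
  rw [RingHom.comp_apply, RingHom.coe_coe] at h3
  have h4 : ALP_i M Q (⟨x.1, hx⟩ : FL M) = x := Subtype.ext (ALP_coe_i M Q _)
  have h5 : ALP_v M Q (⟨x.1, hx⟩ : FL M) = y := Subtype.ext ((ALP_coe_v M Q _).trans hy.symm)
  rw [← h4, ← h5]
  exact h3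

end Fermat.Agent.BR.Inst

end
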