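import Fermat.Agent.BR.Inst.Interface
import Fermat.Agent.S24.FundId
import Fermat.Agent.S24.DegPrincipalCore
import Fermat.Agent.S24.PlaceBasic

/-!
# BR / Inst : [DW], [DP] abstract degrees
-/

set_option autoImplicit false

noncomputable section

namespace Fermat.Agent.BR.Inst

open AlgebraicCurve IntermediateField Polynomial
open Fermat.Agent Fermat.Agent.INJ

theorem stmt_DegW : Stmt_DegW := by
  intro K F _ _ _ W x hfin
  have hmap : K⟮x⟯.map (W : F →ₐ[K] F) = K⟮W x⟯ := by
    rw [IntermediateField.adjoin_map, Set.image_singleton]; rfl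
  let i : K⟮x⟯ ≃+* K⟮W x⟯ :=
    ((IntermediateField.intermediateFieldMap W K⟮x⟯).trans
      (IntermediateField.equivOfEq hmap)).toRingEquiv
  have hc : (algebraMap K⟮W x⟯ F).comp i.toRingHom =
      (W.toRingEquiv).toRingHom.comp (algebraMap K⟮x⟯ F) := by
    ext a
    rfl
  exact ⟨Module.Finite.of_equiv_equiv i W.toRingEquiv hc,
    (Algebra.finrank_eq_of_equiv_equiv i W.toRingEquiv hc).symm⟩

section DP

variable {K F : Type} [Field K] [Field F] [Algebra K F]

theorem DP_mem_of_isInt (v : Place K F) {x y : F} (h : IsInt K x y)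
    (hx : x ∈ v.toValuationSubring) : y ∈ v.toValuationSubring :=
  S24.intRing_le_valuationSubring v hx ⟨y, h⟩

theorem DP_transcendental_of_isInt {x y : F} (hx : Transcendental K x) (h : IsInt K y x) :
    Transcendental K y := by
  intro hy
  apply hx
  have hyI : IsIntegral K y := hy.isIntegral
  have : Algebra.IsIntegral K (Algebra.adjoin K {y}) := by
    rw [← le_integralClosure_iff_isIntegral]
    apply Algebra.adjoin_le
    intro z hz
    rw [Set.mem_singleton_iff] at hz
    rw [hz]; exact hyI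
  exact (isIntegral_trans (R := K) (A := Algebra.adjoin K {y}) x h).isAlgebraic

theorem DP_ord_neg_iff (v : Place K F) {x y : F} (hx0 : x ≠ 0) (hy0 : y ≠ 0)
    (h1 : IsInt K x y) (h2 : IsInt K y x) : v.ord x < 0 ↔ v.ord y < 0 := by
  rw [← not_le, ← not_le, ← S24.mem_iff_ord_nonneg v hx0, ← S24.mem_iff_ord_nonneg v hy0]
  exact not_congr ⟨DP_mem_of_isInt v h1, DP_mem_of_isInt v h2⟩

/-- degree as the sum over the poles. -/
theorem DP_finrank_eq [IsAlgClosed K] [CharZero K] (x : F) (hx : Transcendental K x)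
    [FiniteDimensional K⟮x⟯ F] :
    ∃ hfin : {v : Place K F | v.ord x < 0}.Finite,
      ∑ v ∈ hfin.toFinset, (- v.ord x) = (Module.finrank K⟮x⟯ F : ℤ) := by
  have hx' := S24.transcendental_inv_of_transcendental hx
  have hfd : FiniteDimensional K⟮x⁻¹⟯ F := by
    rw [S24.adjoin_simple_inv_eq]; infer_instance
  have hset : {v : Place K F | v.ord x < 0} = S24.zeroPlaces (K := K) x⁻¹ := by
    ext v
    simp only [S24.zeroPlaces, Set.mem_ofPred_eq, Place.ord_inv]
    omega
  have hfin := S24.zeroPlaces_finite (K := K) x⁻¹ hx'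
  have hsum := S24.sum_ord_zeroPlaces (K := K) x⁻¹ hx'
  refine ⟨hset ▸ hfin, ?_⟩
  have h3 : Module.finrank K⟮x⁻¹⟯ F = Module.finrank K⟮x⟯ F := by
    rw [S24.adjoin_simple_inv_eq]
  rw [← h3, ← hsum]
  apply Finset.sum_congr
  · ext v
    simp only [Set.Finite.mem_toFinset]
    rw [hset]
  · intro v _
    rw [Place.ord_inv]

end DP

theorem stmt_DegProd : Stmt_DegProd := by
  intro K F _ _ _ _ _ x y hx hfin h1 h2
  have hy : Transcendental K y := DP_transcendental_of_isInt hx h2
  have hx0 : x ≠ 0 := by rintro rfl; exact hx (isAlgebraic_zero)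
  have hy0 : y ≠ 0 := by rintro rfl; exact hy (isAlgebraic_zero)
  have hxy0 : x * y ≠ 0 := mul_ne_zero hx0 hy0
  have hfy : FiniteDimensional K⟮y⟯ F :=
    S24.finiteDimensional_adjoin_simple_of_transcendental x hx y hy
  obtain ⟨fx, sx⟩ := DP_finrank_eq x hx
  obtain ⟨fy, sy⟩ := DP_finrank_eq y hy
  have hsetxy : {v : Place K F | v.ord x < 0} = {v : Place K F | v.ord y < 0} := by
    ext v; exact DP_ord_neg_iff v hx0 hy0 h1 h2
  have hsetp : {v : Place K F | v.ord (x * y) < 0} = {v : Place K F | v.ord x < 0} := by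
    ext v
    have := DP_ord_neg_iff v hx0 hy0 h1 h2
    simp only [Set.mem_ofPred_eq, Place.ord_mul v hx0 hy0]
    omega
  -- `x * y` is transcendental
  have hxy : Transcendental K (x * y) := by
    intro halg
    obtain ⟨c, hc⟩ : x * y ∈ (algebraMap K F).range :=
      halg.isIntegral.mem_range_algebraMap_of_minpoly_splits (IsAlgClosed.splits _)
    -- `x` has a pole
    have hpos : (0 : ℤ) < (Module.finrank K⟮x⟯ F : ℤ) := by
      exact_mod_cast Module.finrank_pos
    rw [← sx] at hpos
    obtain ⟨v, hv, -⟩ := Finset.exists_lt_of_sum_lt (s := fx.toFinset) (f := fun _ => (0 : ℤ))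
      (g := fun v : Place K F => - v.ord x) (by simpa using hpos)
    rw [Set.Finite.mem_toFinset, ← hsetp, Set.mem_ofPred_eq, ← hc, S24.ord_algebraMap] at hv
    exact lt_irrefl _ hv
  have hfxy : FiniteDimensional K⟮x * y⟯ F :=
    S24.finiteDimensional_adjoin_simple_of_transcendental x hx _ hxy
  refine ⟨hfxy, ?_⟩
  obtain ⟨fp, sp⟩ := DP_finrank_eq (x * y) hxy
  have : (Module.finrank K⟮x * y⟯ F : ℤ) =
      (Module.finrank K⟮x⟯ F : ℤ) + (Module.finrank K⟮y⟯ F : ℤ) := by
    rw [← sp, ← sx, ← sy]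
    have e1 : fp.toFinset = fx.toFinset := by
      ext v; simp only [Set.Finite.mem_toFinset]; rw [hsetp]
    have e2 : fy.toFinset = fx.toFinset := by
      ext v; simp only [Set.Finite.mem_toFinset]; rw [hsetxy]
    rw [e1, e2, ← Finset.sum_add_distrib]
    apply Finset.sum_congr rfl
    intro v _
    rw [Place.ord_mul v hx0 hy0]; ring
  exact_mod_cast this

end Fermat.Agent.BR.Inst
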