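import Fermat.Agent.BR.Inst.Interface
import Fermat.Agent.INJ.Inst.Tower
import Fermat.Agent.INJ.Inst.ChartS

/-!
# BR / Inst / [DS] : `[FL (M r) : K(j(q^(M r)))] ≤ (r + 1) [FL M : K(j(q^M))]`
-/

set_option autoImplicit false
set_option synthInstance.maxHeartbeats 400000

noncomputable section

namespace Fermat.Agent.BR.Inst

open AlgebraicCurve ModularCurve IntermediateField Polynomial
open Fermat.Agent Fermat.Agent.INJ Fermat.Agent.INJ.Inst

/-- shifting the generator by a constant does not change the field. -/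
theorem DS_adjoin_shift {K L : Type*} [Field K] [Field L] [Algebra K L] (j : L) (c : ℕ) :
    K⟮j - (c : L)⟯ = K⟮j⟯ := by
  apply le_antisymm
  · rw [adjoin_simple_le_iff]
    exact sub_mem (mem_adjoin_simple_self K j) (_root_.natCast_mem _ c)
  · rw [adjoin_simple_le_iff]
    have h := add_mem (mem_adjoin_simple_self K (j - (c : L)))
      (_root_.natCast_mem K⟮j - (c : L)⟯ c)
    rwa [sub_add_cancel] at h

theorem DS_adjoin_eq (N c : ℕ) (s : FL N) (hs : (s : LaurentSeries Qb) = sS N c Qb) :
    Qb⟮(s : LaurentSeries Qb)⟯ = S28.Ej Qb N := by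
  rw [hs, sS, DS_adjoin_shift, S28.Ej]

theorem DS_transcendental (N c : ℕ) [NeZero N] (s : FL N)
    (hs : (s : LaurentSeries Qb) = sS N c Qb) : Transcendental Qb s := by
  intro h
  have h1 := h.algHom (modularFunctionFieldBar N).val
  change IsAlgebraic Qb (s : LaurentSeries Qb) at h1
  rw [hs, sS] at h1
  apply CS.transcendental_jd Qb N
  have h2 : IsAlgebraic Qb (c : LaurentSeries Qb) := by
    rw [← map_natCast (algebraMap Qb (LaurentSeries Qb))]
    exact isAlgebraic_algebraMap _
  have h3 := h1.add h2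
  rwa [sub_add_cancel] at h3

theorem DS_finite (N c : ℕ) [NeZero N] (s : FL N) (hs : (s : LaurentSeries Qb) = sS N c Qb) :
    FiniteDimensional Qb⟮s⟯ (FL N) := by
  have := (S24.finrank_FF_le N).1
  have hj : Transcendental Qb (S24.jF N) := by
    intro h
    have h1 := h.algHom (modularFunctionFieldBar N).val
    change IsAlgebraic Qb (S24.jBarSeries 1) at h1
    have h2 : S24.jBarSeries 1 = S28.jd Qb 1 := by
      rw [S24.jBarSeries, coeffEmb, coeffMap_qExpand, ← jqModC_rat, coeffMap_jqModC, S28.jd,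
        S28.Vq_eq]
    rw [h2] at h1
    exact CS.transcendental_jd Qb 1 h1
  exact S24.finiteDimensional_adjoin_simple_of_transcendental (S24.jF N) hj s
    (DS_transcendental N c s hs)

set_option maxHeartbeats 1000000 in
/-- **[DS]**. -/
theorem stmt_DegS : Stmt_DegS := by
  intro M r c _ _ hr hrM s0 sr hs0 hsr
  have hM : 0 < M := Nat.pos_of_ne_zero (NeZero.ne M)
  have hMr : 0 < M * r := Nat.pos_of_ne_zero (NeZero.ne (M * r))
  have hfin0 := DS_finite M c s0 hs0
  have hfinr := DS_finite (M * r) c sr hsr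
  refine ⟨hfinr, ?_⟩
  obtain ⟨ι, hι, b, hb1, hb2, hb3⟩ :=
    Tower.towerDataK Qb M hM (by exact_mod_cast (NeZero.ne M))
  -- (i) lower bound at level `M`
  have hlow : Fintype.card ι ≤ Module.finrank Qb⟮s0⟯ (FL M) := by
    let v : ι → FL M := fun i => ⟨S28.cZ Qb (b i), CS.cZ_mem_bar (hb1 i)⟩
    have hli : LinearIndependent Qb⟮s0⟯ v := by
      apply CS.linearIndependent_of_ambient (modularFunctionFieldBar M) s0 v
      rw [DS_adjoin_eq M c s0 hs0]
      exact hb3
    exact hli.fintype_card_le_finrank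
  -- (ii) upper bound at level `M * r`
  have hup : Module.finrank Qb⟮sr⟯ (FL (M * r)) ≤ Fintype.card (Fin (S28.stepDeg r M) × ι) := by
    refine CS.finrank_le_card_of_span (modularFunctionFieldBar (M * r)) sr
      (fun x => S28.cZ Qb (S28.nextFam r M b x)) ?_
    intro y hy
    have hspan : ∀ x ∈ S28.Kf ℚ (M * r), x ∈ Submodule.span (S28.Ej ℚ (M * r))
        (Set.range fun i => S28.cZ ℚ (S28.nextFam r M b i)) := by
      have h := S28.wp8 S28.wp5 r M hr hM (fun r hr _ => S28.FN7.hasModPoly ℚ hr) ι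
        (fun i => S28.cZ ℚ (b i)) hb2
      have he : (fun x => S28.cZ ℚ (S28.nextFam r M b x)) =
          S28.nextFam r M (fun i => S28.cZ ℚ (b i)) :=
        funext fun x => S28.tower_coeffMap_nextFam _ r M b x
      rw [he]
      exact h
    have h := Tower.mem_SQ_of_mem_bar (S28.nextFam r M b) hspan hMr
      (S28.tower_nextFam_mem_ZJ hr.ne_zero hM hb1) hy
    rw [DS_adjoin_eq (M * r) c sr hsr]
    exact h
  have hstep : S28.stepDeg r M = r + 1 := by rw [S28.stepDeg, if_neg hrM]
  rw [Fintype.card_prod, Fintype.card_fin, hstep] at hup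
  exact hup.trans (Nat.mul_le_mul_left _ hlow)

end Fermat.Agent.BR.Inst

end
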