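import Fermat.Agent.BR.Inst.Interface
import Fermat.Agent.S28.Tower

/-!
# BR / Inst, package [FK] : Frobenius on `k(j(q^d) : d ∣ M)`, `char k = r`
-/

set_option autoImplicit false
set_option synthInstance.maxHeartbeats 400000

noncomputable section

namespace Fermat.Agent.BR.Inst

open AlgebraicCurve ModularCurve IntermediateField Polynomial
open Fermat.Agent Fermat.Agent.INJ Fermat.Agent.INJ.Inst

/-- coefficients of the `ℓ`-th power of a power series in characteristic `ℓ`. -/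
theorem FK_coeff_pow_char {k : Type*} [CommRing k] (ℓ : ℕ) (hℓ : ℓ.Prime) [CharP k ℓ]
    (f : PowerSeries k) (N : ℕ) :
    PowerSeries.coeff N (f ^ ℓ) = if ℓ ∣ N then PowerSeries.coeff (N / ℓ) f ^ ℓ else 0 := by
  have : Fact ℓ.Prime := ⟨hℓ⟩
  have h : PowerSeries.map (frobenius k ℓ) (PowerSeries.expand ℓ hℓ.ne_zero f) = f ^ ℓ :=
    MvPowerSeries.map_frobenius_expand ℓ hℓ.ne_zero
  rw [← h, PowerSeries.coeff_map, PowerSeries.coeff_expand]
  split_ifs
  · rfl
  · exact map_zero _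

/-- `x ^ ℓ = x^{(ℓ)}(q ^ ℓ)` for Laurent series in characteristic `ℓ`. -/
theorem FK_frobSeries {k : Type*} [CommRing k] (ℓ : ℕ) [NeZero ℓ] (hℓ : ℓ.Prime) [CharP k ℓ]
    (x x' : LaurentSeries k) (hx : ∀ n, x'.coeff n = x.coeff n ^ ℓ) :
    x ^ ℓ = qExpand k ℓ x' := by
  have hℓpos : (0 : ℤ) < (ℓ : ℤ) := by exact_mod_cast hℓ.pos
  have e : x ^ ℓ = HahnSeries.single (ℓ • x.order) (1 : k) *
      HahnSeries.ofPowerSeries ℤ k (x.powerSeriesPart ^ ℓ) := by
    conv_lhs => rw [← LaurentSeries.single_order_mul_powerSeriesPart x]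
    rw [mul_pow, HahnSeries.single_pow, one_pow, map_pow]
  ext n
  rw [e, HahnSeries.coeff_single_mul, one_mul, PowerSeries.coeff_coe, FK_coeff_pow_char ℓ hℓ]
  by_cases hdvd : (ℓ : ℤ) ∣ n
  · obtain ⟨j, rfl⟩ := hdvd
    rw [ModularCurve.qExpand_coeff_mul, hx]
    have e1 : (ℓ : ℤ) * j - ℓ • x.order = (ℓ : ℤ) * (j - x.order) := by
      rw [nsmul_eq_mul]; ring
    rw [e1]
    by_cases hj : j < x.order
    · rw [if_pos (mul_neg_of_pos_of_neg hℓpos (sub_neg.mpr hj)),
        HahnSeries.coeff_eq_zero_of_lt_order hj, zero_pow hℓ.ne_zero]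
    · obtain ⟨i, hi⟩ := Int.eq_ofNat_of_zero_le (sub_nonneg.mpr (not_lt.mp hj))
      rw [hi, if_neg (not_lt.mpr (by positivity))]
      have e2 : ((ℓ : ℤ) * (i : ℤ)).natAbs = ℓ * i := by
        rw [← Nat.cast_mul, Int.natAbs_natCast]
      rw [e2, if_pos (dvd_mul_right ℓ i), Nat.mul_div_cancel_left _ hℓ.pos,
        LaurentSeries.powerSeriesPart_coeff, ← hi]
      congr 2
      ring
  · rw [ModularCurve.qExpand_coeff_of_not_dvd ℓ x' hdvd]
    split_ifs with h1 h2
    · rfl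
    · exfalso
      apply hdvd
      have h3 : (ℓ : ℤ) ∣ n - ℓ • x.order := Int.natCast_dvd.mpr h2
      have h4 : (ℓ : ℤ) ∣ ℓ • x.order := by
        rw [nsmul_eq_mul]; exact dvd_mul_right _ _
      have := dvd_add h3 h4
      rwa [sub_add_cancel] at this
    · rfl

/-- `k(j(q^d) : d ∣ M)` is stable under the coefficientwise action of endomorphisms of `k`. -/
theorem FK_coeffMap_mem {k : Type} [Field k] (M : ℕ) (τ : k →+* k) {y : LaurentSeries k}
    (hy : y ∈ S28.Kf k M) : coeffMap τ y ∈ S28.Kf k M := by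
  have hy' : y ∈ IntermediateField.adjoin k (divisorExpansionsC k M) := hy
  induction hy' using IntermediateField.adjoin_induction with
  | mem x hx =>
    obtain ⟨d, hd0, hd, rfl⟩ := hx
    rw [coeffMap_qExpand, coeffMap_jqModC]
    exact jqModCd_mem_full k M hd
  | algebraMap c =>
    rw [algebraMap_laurentSeries_eq_single, coeffMap_single, ← algebraMap_laurentSeries_eq_single]
    exact IntermediateField.algebraMap_mem _ _
  | add x z _ _ hx hz =>
    rw [map_add]
    exact add_mem (hx ‹_›) (hz ‹_›)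
  | inv x _ hx =>
    rw [map_inv₀]
    exact inv_mem (hx ‹_›)
  | mul x z _ _ hx hz =>
    rw [map_mul]
    exact mul_mem (hx ‹_›) (hz ‹_›)

/-- `y ^ r = y^(τ)(q^r)`. -/
theorem FK_pow_eq {k : Type} [Field k] (r : ℕ) [Fact r.Prime] [CharP k r] (τ : k →+* k)
    (hτ : ∀ c, τ c = c ^ r) (y : LaurentSeries k) : y ^ r = coeffMap τ (S28.Vq k r y) := by
  have hr : r.Prime := Fact.out
  have : NeZero r := ⟨hr.ne_zero⟩
  rw [S28.tower_coeffMap_Vq, S28.Vq_eq]
  exact FK_frobSeries r hr y (coeffMap τ y) fun n => by rw [coeffMap_coeff, hτ]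

theorem stmt_FrobKf : Stmt_FrobKf := by
  intro k _ _ r _ _ M
  refine ⟨fun τ y hy => FK_coeffMap_mem M τ hy, fun y hy => ?_, fun τ hτ y => FK_pow_eq r τ hτ y⟩
  let τ' : k →+* k := ((frobeniusEquiv k r).symm : k ≃+* k)
  refine ⟨coeffMap τ' y, FK_coeffMap_mem M τ' hy, ?_⟩
  rw [FK_pow_eq r (frobenius k r) (fun c => rfl), S28.tower_coeffMap_Vq, coeffMap_coeffMap]
  have h : (frobenius k r).comp τ' = RingHom.id k := by
    ext c
    exact frobenius_apply_frobeniusEquiv_symm k r c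
  rw [h, coeffMap_id]

end Fermat.Agent.BR.Inst

end
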