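import Fermat.Agent.BR.Inst.Interface
import Fermat.Agent.INJ.Inst.SepAdapter
import Fermat.Agent.INJ.Inst.ChartT
import Fermat.Agent.INJ.All
import Fermat.Agent.INJ.P16

/-!
# BR / Inst / [LK] : the residue field at a good level is `k(j(q^d) : d ∣ M)`  (helper50, task 815)
-/

set_option autoImplicit false
set_option synthInstance.maxHeartbeats 400000

noncomputable section

namespace Fermat.Agent.BR.Inst

open AlgebraicCurve ModularCurve IntermediateField Polynomial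
open Fermat.Agent Fermat.Agent.INJ Fermat.Agent.INJ.Inst

/-- elements of `k⟮x⟯ ⊆ L` lie in `k⟮x⟯ ⊆ M`. -/
theorem LKf_coe_mem {k M : Type*} [Field k] [Field M] [Algebra k M]
    (L : IntermediateField k M) (x : L) (c : k⟮x⟯) : ((c : L) : M) ∈ k⟮(x : M)⟯ := by
  have h1 : (k⟮x⟯).map L.val = k⟮(x : M)⟯ := by
    rw [IntermediateField.adjoin_map, Set.image_singleton]
    rfl
  rw [← h1]
  exact ⟨c, c.2, rfl⟩

/-- abstract dimension count. -/
theorem LKf_le_of_card {k M : Type*} [Field k] [Field M] [Algebra k M]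
    (L K' : IntermediateField k M) (x : L) (hx : (x : M) ∈ K') {ι : Type*} [Fintype ι]
    (c : ι → M) (hcL : ∀ i, c i ∈ L) (hcK : ∀ i, c i ∈ K')
    (hli : LinearIndependent k⟮(x : M)⟯ c)
    (hcard : Module.finrank k⟮x⟯ L ≤ Fintype.card ι) [FiniteDimensional k⟮x⟯ L] : L ≤ K' := by
  let e : ι → L := fun i => ⟨c i, hcL i⟩
  have hlie : LinearIndependent k⟮x⟯ e := CS.linearIndependent_of_ambient L x e hli
  have hcard' : Fintype.card ι = Module.finrank k⟮x⟯ L :=
    le_antisymm hlie.fintype_card_le_finrank hcard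
  have hspan : Submodule.span k⟮x⟯ (Set.range e) = ⊤ :=
    hlie.span_eq_top_of_card_eq_finrank' hcard'
  intro y hy
  have hy' : (⟨y, hy⟩ : L) ∈ Submodule.span k⟮x⟯ (Set.range e) := by rw [hspan]; trivial
  obtain ⟨g, hg⟩ := (Submodule.mem_span_range_iff_exists_fun k⟮x⟯).1 hy'
  have h3 := congrArg (fun z : L => (z : M)) hg
  simp only [IntermediateField.coe_sum] at h3
  rw [← h3]
  refine sum_mem fun i _ => ?_
  have hle : k⟮(x : M)⟯ ≤ K' := by
    rw [adjoin_simple_le_iff]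
    exact hx
  exact mul_mem (hle (LKf_coe_mem L x (g i))) (hcK i)

set_option maxHeartbeats 1000000 in
/-- **[LK]**. -/
theorem stmt_LKf : Stmt_LKf := by
  intro M _ r _ hrM A hA L D hG
  have hM : M ≠ 0 := NeZero.ne M
  have hAC : IsAlgClosed (kA A) := S18G.isAlgClosed_kA A
  have hNk : (M : kA A) ≠ 0 := CS.natCast_ne_zero A hA
    ((Nat.Prime.coprime_iff_not_dvd Fact.out).2 hrM).symm
  set s : FL M := ⟨S28.jd Qb M, jd_mem_bar hM dvd_rfl⟩ with hs
  have hC : Chart D s := stmt_ChartS_of_SepL stmt_SepL M r hrM A hA L D hG s rfl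
  obtain ⟨-, hsb⟩ := hG.s_mem_rd M s rfl
  have hdeg := (all_Trace _ _ _ _ D s hC).1
  have hfin := hC.fin
  have hresfin : FiniteDimensional (kA A)⟮D.rd s⟯ L :=
    stmt_ResFinite _ _ _ _ D s hC.t_mem hC.trans hC.fin
  obtain ⟨ι, hι, b, hb1, hb2, hb3⟩ := Tower.tower M (kA A) hNk
  have hcard : Module.finrank Qb⟮s⟯ (FL M) ≤ Fintype.card ι := by
    refine CS.finrank_le_card_of_span (modularFunctionFieldBar M) s (fun i => S28.cZ Qb (b i)) ?_
    intro y hy
    have := hb2 y hy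
    rw [S28.Ej] at this
    exact this
  -- `Kf ≤ L`
  have hKL : S28.Kf (kA A) M ≤ L := by
    rw [S28.Kf, modularFunctionFieldFullC, IntermediateField.adjoin_le_iff]
    rintro _ ⟨d, hd, hdM, rfl⟩
    obtain ⟨-, h2⟩ := hG.s_mem_rd d ⟨S28.jd Qb d, jd_mem_bar hM hdM⟩ rfl
    have h3 : S28.jd (kA A) d = qExpand (kA A) d (jqModC (kA A)) := by rw [S28.jd, S28.Vq_eq]
    rw [← h3, ← h2]
    exact (D.rd _ : L).2
  refine le_antisymm ?_ hKL
  refine LKf_le_of_card L (S28.Kf (kA A) M) (D.rd s) ?_ (fun i => S28.cZ (kA A) (b i))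
    (fun i => hKL (S28.tower_cZ_mem_Kf (kA A) (Nat.pos_of_ne_zero hM) (hb1 i)))
    (fun i => S28.tower_cZ_mem_Kf (kA A) (Nat.pos_of_ne_zero hM) (hb1 i)) ?_ ?_
  · rw [hsb, S28.jd, S28.Vq_eq]
    exact jqModCd_mem_full (kA A) M dvd_rfl
  · rw [hsb]
    rw [S28.Ej] at hb3
    exact hb3
  · rw [hdeg]
    exact hcard

end Fermat.Agent.BR.Inst

end
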