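import Fermat.Agent.BR.Inst.Interface
import Fermat.Agent.INJ.P1

/-!
# BR / Inst : [NL] abstract localisation of charts (`Stmt_NormLoc`)

`s = P(u) / Q(u)`, `Qbar ≠ 0`.  An element `yb` integral over `k[sbar]` becomes integral over
`k[ubar]` after multiplication by a power of `Qbar(ubar)`; lift it (normality for the chart `u`) and
divide by the same power of `Q(u)`, a unit of `O` whose inverse is integral over `K[s]`.
-/

set_option autoImplicit false
set_option synthInstance.maxHeartbeats 400000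

noncomputable section

namespace Fermat.Agent.BR.Inst

open AlgebraicCurve ModularCurve IntermediateField Polynomial
open Fermat.Agent Fermat.Agent.INJ Fermat.Agent.INJ.Inst

section Generic

variable {k E : Type*} [Field k] [Field E] [Algebra k E]

/-- integrality over a subalgebra in terms of polynomials over the big field. -/
theorem NL_isIntegral_iff (S : Subalgebra k E) (y : E) :
    IsIntegral S y ↔ ∃ p : E[X], p.Monic ∧ (∀ i, p.coeff i ∈ S) ∧ p.eval y = 0 := by
  constructor
  · rintro ⟨p, hp, hpy⟩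
    refine ⟨p.map (algebraMap S E), hp.map _, fun i => ?_, ?_⟩
    · rw [coeff_map]
      exact (p.coeff i).2
    · rw [eval_map]
      exact hpy
  · rintro ⟨p, hp, hc, hpy⟩
    have hsub : (↑p.coeffs : Set E) ⊆ S.toSubring := by
      intro z hz
      obtain ⟨n, -, rfl⟩ := Polynomial.mem_coeffs_iff.1 (Finset.mem_coe.1 hz)
      exact hc n
    refine ⟨p.toSubring S.toSubring hsub, (monic_toSubring p S.toSubring hsub).2 hp, ?_⟩
    have : eval₂ S.toSubring.subtype y (p.toSubring S.toSubring hsub) = 0 := by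
      rw [← eval_map, map_toSubring]
      exact hpy
    exact this

/-- scaling the roots of a monic polynomial. -/
theorem NL_scale {S : Subalgebra k E} {σ y : E} (hσ : σ ∈ S) (p : E[X]) (hp : p.Monic)
    (hpy : p.eval y = 0) (hmul : ∀ i < p.natDegree, σ * p.coeff i ∈ S) :
    IsIntegral S (σ * y) := by
  refine (NL_isIntegral_iff _ _).2 ⟨p.scaleRoots σ, (monic_scaleRoots_iff σ).2 hp, fun i => ?_, ?_⟩
  · rw [coeff_scaleRoots]
    rcases lt_trichotomy i p.natDegree with hi | hi | hi
    · obtain ⟨m, hm⟩ : ∃ m, p.natDegree - i = m + 1 := ⟨p.natDegree - i - 1, by omega⟩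
      rw [hm, pow_succ]
      have e : p.coeff i * (σ ^ m * σ) = σ * p.coeff i * σ ^ m := by ring
      rw [e]
      exact mul_mem (hmul i hi) (pow_mem hσ m)
    · rw [hi, hp.coeff_natDegree, Nat.sub_self, pow_zero, mul_one]
      exact one_mem _
    · rw [coeff_eq_zero_of_natDegree_lt hi, zero_mul]
      exact zero_mem _
  · have h := scaleRoots_eval₂_eq_zero (RingHom.id E) (p := p) (r := y) (s := σ)
      (by rw [eval₂_id]; exact hpy)
    rw [eval₂_id] at h
    exact h

/-- elements of `k[a / b]` become elements of `S ∋ a, b` after multiplication by a high power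
of `b`. -/
theorem NL_clear_poly {S : Subalgebra k E} {a b t : E} (ha : a ∈ S) (hb : b ∈ S)
    (ht : t * b = a) (c : k[X]) :
    ∃ m₀ : ℕ, ∀ m, m₀ ≤ m → b ^ m * aeval t c ∈ S := by
  induction c using Polynomial.induction_on' with
  | add p q hp hq =>
    obtain ⟨m₁, h₁⟩ := hp
    obtain ⟨m₂, h₂⟩ := hq
    refine ⟨max m₁ m₂, fun m hm => ?_⟩
    rw [map_add, mul_add]
    exact add_mem (h₁ m (le_trans (le_max_left _ _) hm)) (h₂ m (le_trans (le_max_right _ _) hm))
  | monomial n x =>
    refine ⟨n, fun m hm => ?_⟩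
    obtain ⟨j, rfl⟩ := Nat.exists_eq_add_of_le hm
    have e : b ^ (n + j) * aeval t (monomial n x) = algebraMap k E x * a ^ n * b ^ j := by
      rw [aeval_monomial, ← ht, mul_pow, pow_add]
      ring
    rw [e]
    exact mul_mem (mul_mem (S.algebraMap_mem x) (pow_mem ha n)) (pow_mem hb j)

/-- clearing denominators: `y` integral over `k[a / b]` ⟹ `b ^ m * y` integral over `S ∋ a, b`. -/
theorem NL_clear {S : Subalgebra k E} {a b t y : E} (ha : a ∈ S) (hb : b ∈ S)
    (ht : t * b = a) (hy : IsInt k t y) : ∃ m : ℕ, IsIntegral S (b ^ m * y) := by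
  classical
  obtain ⟨p, hp, hc, hpy⟩ := (NL_isIntegral_iff _ _).1 hy
  have h1 : ∀ i, ∃ m₀ : ℕ, ∀ m, m₀ ≤ m → b ^ m * p.coeff i ∈ S := by
    intro i
    obtain ⟨r, hr⟩ := Algebra.adjoin_singleton_eq_range_aeval k t ▸ hc i
    rw [← hr]
    exact NL_clear_poly ha hb ht r
  choose m₀ hm₀ using h1
  refine ⟨(Finset.range p.natDegree).sup m₀, ?_⟩
  refine NL_scale (pow_mem hb _) p hp hpy fun i hi => ?_
  exact hm₀ i _ (Finset.le_sup (f := m₀) (Finset.mem_range.2 hi))

theorem NL_aeval_mem_adjoin (t : E) (c : k[X]) : aeval t c ∈ Algebra.adjoin k {t} := by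
  rw [Algebra.adjoin_singleton_eq_range_aeval]
  exact ⟨c, rfl⟩

end Generic

theorem stmt_NormLoc : Stmt_NormLoc := by
  intro K F k Fb _ _ _ _ _ _ D u s P Q hu htr hnorm hs hQ hsu hsq yb hyb
  have hG := (INJ.stmt_Gauss K F k Fb D u hu htr).1
  obtain ⟨hqO, hqrd⟩ := hG Q
  obtain ⟨hpO, hprd⟩ := hG P
  set q : F := aeval u (Q.map D.A.subtype) with hq
  set p : F := aeval u (P.map D.A.subtype) with hp
  have hqb : D.rd q ≠ 0 := by
    rw [hqrd]
    intro h0
    exact hQ ((transcendental_iff.1 htr) _ h0)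
  have hq0 : q ≠ 0 := by
    intro h0
    rw [h0] at hqb
    exact hqb RedData.rd_zero
  have hqi : q⁻¹ ∈ D.O := RedData.inv_mem_of_rd_ne_zero hqb
  have hs' : s = p * q⁻¹ := by
    rw [← hs]
    field_simp
  have hsO : s ∈ D.O := by
    rw [hs']
    exact mul_mem hpO hqi
  have hsb : D.rd s * D.rd q = D.rd p := by
    rw [← RedData.rd_mul hsO hqO, hs]
  obtain ⟨m, hm⟩ := NL_clear (S := Algebra.adjoin k {D.rd u}) (a := D.rd p) (b := D.rd q)
    (by rw [hprd]; exact NL_aeval_mem_adjoin _ _) (by rw [hqrd]; exact NL_aeval_mem_adjoin _ _)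
    hsb hyb
  obtain ⟨x, hxO, hxint, hxrd⟩ := hnorm _ hm
  refine ⟨x * q⁻¹ ^ m, mul_mem hxO (pow_mem hqi m), ?_, ?_⟩
  · exact IsIntegral.mul (isInt_trans hsu hxint) (IsIntegral.pow hsq m)
  · rw [RedData.rd_mul hxO (pow_mem hqi m), RedData.rd_pow hqi, RedData.rd_inv hqb, hxrd, inv_pow,
      mul_comm (D.rd q ^ m) yb, mul_assoc, mul_inv_cancel₀ (pow_ne_zero m hqb), mul_one]

end Fermat.Agent.BR.Inst

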