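import Fermat.Agent.BR.Inst.Interface
import Fermat.Agent.INJ.All

/-!
# BR / Inst / NS2 : normality in the charts `s = j(q^M) - 1728`, `1 / s` (auxiliary level `2`)
-/

set_option autoImplicit false
set_option synthInstance.maxHeartbeats 400000

noncomputable section

namespace Fermat.Agent.BR.Inst

open AlgebraicCurve ModularCurve IntermediateField Polynomial
open Fermat.Agent Fermat.Agent.INJ Fermat.Agent.INJ.Inst

section Abstract

variable {K F : Type*} [Field K] [Field F] [Algebra K F]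

/-- integrality from a monic cubic equation with coefficients in `K[t]`. -/
theorem NS2_isInt_cubic (t z : F) (b2 b1 b0 : Algebra.adjoin K {t})
    (h : z ^ 3 + (b2 : F) * z ^ 2 + (b1 : F) * z + (b0 : F) = 0) : IsInt K t z := by
  refine ⟨X ^ 3 + C b2 * X ^ 2 + C b1 * X + C b0, by monicity!, ?_⟩
  simp only [eval₂_add, eval₂_mul, eval₂_pow, eval₂_X, eval₂_C]
  exact h

/-- the generator of `K[t]`. -/
def NS2_gen (K : Type*) {F : Type*} [Field K] [Field F] [Algebra K F] (t : F) :
    Algebra.adjoin K {t} := ⟨t, Algebra.self_mem_adjoin_singleton K t⟩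

variable [CharZero K]

theorem NS2_alg (s x : F) (hrel : s * (x - 64) = x * (x - 72) ^ 2) (hx : x ≠ 0)
    (h64 : x - 64 ≠ 0) (h72 : x - 72 ≠ 0) (hs : s ≠ 0) :
    IsInt K s x ∧ IsInt K s (x - 64)⁻¹ ∧ IsInt K s⁻¹ x⁻¹ ∧ IsInt K s⁻¹ ((1 - 72 * x⁻¹) ^ 2)⁻¹ := by
  have : CharZero F := charZero_of_injective_algebraMap (algebraMap K F).injective
  refine ⟨?_, ?_, ?_, ?_⟩
  · refine NS2_isInt_cubic s x (algebraMap K _ (-144)) (algebraMap K _ 5184 - NS2_gen K s)
      (algebraMap K _ 64 * NS2_gen K s) ?_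
    simp only [NS2_gen, Subalgebra.coe_sub, Subalgebra.coe_mul, Subalgebra.coe_algebraMap]
    simp only [map_neg, map_ofNat]
    linear_combination -hrel
  · refine NS2_isInt_cubic s (x - 64)⁻¹
      (-(algebraMap K _ (960 / 4096) + algebraMap K _ (1 / 4096) * NS2_gen K s))
      (algebraMap K _ (48 / 4096)) (algebraMap K _ (1 / 4096)) ?_
    simp only [NS2_gen, Subalgebra.coe_neg, Subalgebra.coe_add, Subalgebra.coe_mul,
      Subalgebra.coe_algebraMap]
    simp only [map_div₀, map_ofNat, map_one]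
    field_simp
    linear_combination (-1 : F) * hrel
  · refine NS2_isInt_cubic s⁻¹ x⁻¹
      (algebraMap K _ (5184 / 64) * NS2_gen K s⁻¹ - algebraMap K _ (1 / 64))
      (-(algebraMap K _ (144 / 64) * NS2_gen K s⁻¹)) (algebraMap K _ (1 / 64) * NS2_gen K s⁻¹) ?_
    simp only [NS2_gen, Subalgebra.coe_neg, Subalgebra.coe_sub, Subalgebra.coe_mul,
      Subalgebra.coe_algebraMap]
    simp only [map_div₀, map_ofNat, map_one]
    field_simp
    linear_combination (-1 : F) * hrel
  · have h1 : (1 - 72 * x⁻¹)⁻¹ = x / (x - 72) := by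
      field_simp
    have hv : IsInt K s⁻¹ (1 - 72 * x⁻¹)⁻¹ := by
      refine NS2_isInt_cubic s⁻¹ (1 - 72 * x⁻¹)⁻¹ (algebraMap K _ 6)
        (-(algebraMap K _ 15 + algebraMap K _ (72 ^ 3 / 8) * NS2_gen K s⁻¹)) (algebraMap K _ 8) ?_
      simp only [NS2_gen, Subalgebra.coe_neg, Subalgebra.coe_add, Subalgebra.coe_mul,
        Subalgebra.coe_algebraMap]
      simp only [map_div₀, map_ofNat, map_pow]
      rw [h1]
      field_simp
      linear_combination (373248 : F) * hrel
    rw [← inv_pow]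
    exact hv.pow 2

end Abstract

section Shift

variable {K F k Fb : Type*} [Field K] [Field F] [Algebra K F] [Field k] [Field Fb] [Algebra k Fb]

theorem NS2_adjoin_sub_eq (K : Type*) {F : Type*} [Field K] [Field F] [Algebra K F] (x : F)
    (c : K) : K⟮x - algebraMap K F c⟯ = K⟮x⟯ := by
  apply le_antisymm
  · rw [adjoin_simple_le_iff]
    exact sub_mem (mem_adjoin_simple_self K x) (IntermediateField.algebraMap_mem _ c)
  · rw [adjoin_simple_le_iff]
    have := add_mem (mem_adjoin_simple_self K (x - algebraMap K F c))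
      (IntermediateField.algebraMap_mem K⟮x - algebraMap K F c⟯ c)
    rwa [sub_add_cancel] at this

theorem NS2_transcendental_sub {K F : Type*} [Field K] [Field F] [Algebra K F] {x : F}
    (hx : Transcendental K x) (c : K) : Transcendental K (x - algebraMap K F c) := by
  intro h
  apply hx
  have := h.add (isAlgebraic_algebraMap (A := F) c)
  rwa [sub_add_cancel] at this

/-- a translate of a good coordinate by an integral constant is a good coordinate. -/
theorem NS2_chart_sub (D : RedData K F k Fb) (t : F) (c : K) (hc : c ∈ D.A) (h : Chart D t) :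
    Chart D (t - algebraMap K F c) := by
  have hrd : D.rd (t - algebraMap K F c) = D.rd t - algebraMap k Fb (D.ra c) := by
    rw [RedData.rd_sub h.t_mem (RedData.algebraMap_mem hc), RedData.rd_algebraMap hc]
  obtain ⟨h1, h2, h3⟩ := P13_transport K⟮t⟯ K⟮t - algebraMap K F c⟯ k⟮D.rd t⟯
    k⟮D.rd (t - algebraMap K F c)⟯ (NS2_adjoin_sub_eq K t c).symm
    (by rw [hrd]; exact (NS2_adjoin_sub_eq k (D.rd t) (D.ra c)).symm) h.fin h.deg h.sep
  exact
    { t_mem := sub_mem h.t_mem (RedData.algebraMap_mem hc)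
      trans := by rw [hrd]; exact NS2_transcendental_sub h.trans _
      fin := h1
      deg := h2
      sep := h3 }

end Shift

theorem normSat2 (hNL : Stmt_NormLoc) (hCS : INJ.Inst.Stmt_ChartS) (hCT : INJ.Inst.Stmt_ChartT)
    (hBT : INJ.Inst.Stmt_BranchT) : Stmt_NormSat 2 := by
  intro M _ r _ h2M hrM A hA L D hG s hs
  have hM0 : M ≠ 0 := NeZero.ne M
  obtain ⟨x, hx⟩ : ∃ x : FL M, (x : LaurentSeries Qb) = tS 2 M Qb :=
    ⟨⟨_, tS_mem_bar (Or.inl rfl) hM0 h2M⟩, rfl⟩
  obtain ⟨j, hj⟩ : ∃ j : FL M, (j : LaurentSeries Qb) = S28.jd Qb M :=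
    ⟨⟨_, jd_mem_bar hM0 (dvd_refl M)⟩, rfl⟩
  have hsj : s = j - algebraMap Qb (FL M) 1728 := by
    apply Subtype.ext
    rw [hs]
    show sS M (cJ 2) Qb = (j : LaurentSeries Qb) - algebraMap Qb (LaurentSeries Qb) 1728
    rw [hj, sS, cJ, if_pos rfl, map_ofNat]
    norm_num
  have hrel0 : j * (x - 64) = (x - 48) ^ 3 := by
    apply Subtype.ext
    have h := rel_tS2 Qb hM0 h2M
    rw [← hx, ← hj] at h
    exact h
  have hrel : s * (x - 64) = x * (x - 72) ^ 2 := by
    rw [hsj, map_ofNat]
    linear_combination hrel0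
  have hxtr : ∀ c : Qb, x ≠ algebraMap Qb (FL M) c := by
    intro c hc
    apply transcendental_tS Qb hM0 h2M
    rw [← hx, hc]
    exact isAlgebraic_algebraMap (A := LaurentSeries Qb) c
  have hx0 : x ≠ 0 := by
    have := hxtr 0
    rwa [map_zero] at this
  have hx64 : x - 64 ≠ 0 := by
    have := hxtr 64
    rw [map_ofNat] at this
    exact sub_ne_zero.mpr this
  have hx72 : x - 72 ≠ 0 := by
    have := hxtr 72
    rw [map_ofNat] at this
    exact sub_ne_zero.mpr this
  have hs0 : s ≠ 0 := by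
    intro h0
    rw [h0, zero_mul] at hrel
    exact mul_ne_zero hx0 (pow_ne_zero 2 hx72) hrel.symm
  obtain ⟨i1, i2, i3, i4⟩ := NS2_alg (K := Qb) s x hrel hx0 hx64 hx72 hs0
  -- the charts
  have hCj : Chart D j := hCS M r hrM A hA L D hG j hj
  have h1728 : (1728 : Qb) ∈ D.A := by
    have := natCast_mem D.A 1728
    exact_mod_cast this
  have hCs : Chart D s := by
    rw [hsj]
    exact NS2_chart_sub D j 1728 h1728 hCj
  have hCsi : Chart D s⁻¹ := stmt_ChartInv Qb (FL M) (kA A) L D s hCs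
  have hCx : Chart D x := hCT 2 M r (Or.inl rfl) h2M hrM A hA L D hG x hx
  have hCxi : Chart D x⁻¹ := stmt_ChartInv Qb (FL M) (kA A) L D x hCx
  obtain ⟨hB, hBi⟩ := hBT 2 M r (Or.inl rfl) h2M hrM A hA L D hG x hx
  have hN := all_Normal Qb (FL M) (kA A) L D x hCx hB
  have hNi := all_Normal Qb (FL M) (kA A) L D x⁻¹ hCxi hBi
  refine ⟨hCs, hCsi, ?_, ?_⟩
  · refine hNL Qb (FL M) (kA A) L D x s (X * (X - C 72) ^ 2) (X - C 64) hCx.t_mem hCx.trans hN
      ?_ ?_ i1 ?_
    · simp only [Polynomial.map_mul, Polynomial.map_pow, Polynomial.map_sub, Polynomial.map_X,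
        Polynomial.map_ofNat, map_mul, map_pow, map_sub, aeval_X, map_ofNat]
      exact hrel
    · rw [Polynomial.map_sub, Polynomial.map_X, Polynomial.map_C]
      exact X_sub_C_ne_zero _
    · simp only [Polynomial.map_sub, Polynomial.map_X, Polynomial.map_ofNat, map_sub, aeval_X,
        map_ofNat]
      exact i2
  · refine hNL Qb (FL M) (kA A) L D x⁻¹ s⁻¹ (X ^ 2 * (1 - C 64 * X)) ((1 - C 72 * X) ^ 2)
      hCxi.t_mem hCxi.trans hNi ?_ ?_ i3 ?_
    · simp only [Polynomial.map_mul, Polynomial.map_pow, Polynomial.map_sub, Polynomial.map_X,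
        Polynomial.map_ofNat, Polynomial.map_one, map_mul, map_pow, map_sub, aeval_X,
        map_ofNat, map_one]
      field_simp
      linear_combination (-1 : FL M) * hrel
    · intro h0
      have h1 := congrArg (fun p => p.coeff 0) h0
      simp [coeff_zero_eq_eval_zero] at h1
    · simp only [Polynomial.map_mul, Polynomial.map_pow, Polynomial.map_sub, Polynomial.map_X,
        Polynomial.map_ofNat, Polynomial.map_one, map_mul, map_pow, map_sub, aeval_X,
        map_ofNat, map_one]
      exact i4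

end Fermat.Agent.BR.Inst

end
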