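import Fermat.Agent.BR.Inst.Interface
import Fermat.Agent.INJ.All

/-!
# BR / Inst, package NI-NS3 : normality in the charts `s = j(q^M)`, `1 / s`, auxiliary level `3`
-/

set_option autoImplicit false
set_option synthInstance.maxHeartbeats 400000

noncomputable section

namespace Fermat.Agent.BR.Inst

open AlgebraicCurve ModularCurve IntermediateField Polynomial
open Fermat.Agent Fermat.Agent.INJ Fermat.Agent.INJ.Inst

section Abstract

variable {K F : Type*} [Field K] [Field F] [Algebra K F]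

theorem NS3_mem (s : F) (c d : K) :
    algebraMap K F c * s + algebraMap K F d ∈ Algebra.adjoin K {s} :=
  add_mem (mul_mem (Subalgebra.algebraMap_mem _ c) (Algebra.self_mem_adjoin_singleton K s))
    (Subalgebra.algebraMap_mem _ d)

/-- a root of a monic quartic with coefficients in `K[s]` is integral over `K[s]`. -/
theorem NS3_quartic (s x a3 a2 a1 a0 : F) (h3 : a3 ∈ Algebra.adjoin K {s})
    (h2 : a2 ∈ Algebra.adjoin K {s}) (h1 : a1 ∈ Algebra.adjoin K {s})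
    (h0 : a0 ∈ Algebra.adjoin K {s})
    (h : x ^ 4 + (a3 * x ^ 3 + a2 * x ^ 2 + a1 * x + a0) = 0) : IsInt K s x := by
  refine ⟨X ^ 4 + (C ⟨a3, h3⟩ * X ^ 3 + C ⟨a2, h2⟩ * X ^ 2 + C ⟨a1, h1⟩ * X + C ⟨a0, h0⟩),
    monic_X_pow_add (lt_of_le_of_lt degree_cubic_le (by norm_num)), ?_⟩
  simp only [eval₂_add, eval₂_mul, eval₂_pow, eval₂_X, eval₂_C]
  exact h

/-- the same with a nonzero constant leading coefficient and coefficients of degree `≤ 1`. -/
theorem NS3_quartic' (s x : F) (c : K) (hc : c ≠ 0) (c3 d3 c2 d2 c1 d1 c0 d0 : K)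
    (h : algebraMap K F c * x ^ 4 + ((algebraMap K F c3 * s + algebraMap K F d3) * x ^ 3
      + (algebraMap K F c2 * s + algebraMap K F d2) * x ^ 2
      + (algebraMap K F c1 * s + algebraMap K F d1) * x
      + (algebraMap K F c0 * s + algebraMap K F d0)) = 0) : IsInt K s x := by
  have hc' : algebraMap K F c⁻¹ * algebraMap K F c = 1 := by
    rw [← map_mul, inv_mul_cancel₀ hc, map_one]
  refine NS3_quartic s x _ _ _ _
    (mul_mem (Subalgebra.algebraMap_mem _ c⁻¹) (NS3_mem s c3 d3))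
    (mul_mem (Subalgebra.algebraMap_mem _ c⁻¹) (NS3_mem s c2 d2))
    (mul_mem (Subalgebra.algebraMap_mem _ c⁻¹) (NS3_mem s c1 d1))
    (mul_mem (Subalgebra.algebraMap_mem _ c⁻¹) (NS3_mem s c0 d0)) ?_
  linear_combination (algebraMap K F c⁻¹) * h - x ^ 4 * hc'

/-- reversal of a quartic. -/
theorem NS3_rev (z v c0 c1 c2 c3 c4 : F) (hzv : z * v = 1)
    (h : c0 + c1 * z + c2 * z ^ 2 + c3 * z ^ 3 + c4 * z ^ 4 = 0) :
    c0 * v ^ 4 + (c1 * v ^ 3 + c2 * v ^ 2 + c3 * v + c4) = 0 := by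
  linear_combination v ^ 4 * h - (c1 * v ^ 3 + c2 * v ^ 2 * (1 + z * v)
    + c3 * v * (1 + z * v + (z * v) ^ 2) + c4 * (1 + z * v + (z * v) ^ 2 + (z * v) ^ 3)) * hzv

variable (K) in
/-- `X` is integral over `K[s]`. -/
theorem NS3_int1 (s x : F) (hrel : s * (x - 27) = x * (x - 24) ^ 3) : IsInt K s x := by
  refine NS3_quartic' s x 1 one_ne_zero 0 (-72) 0 1728 (-1) (-13824) 27 0 ?_
  simp only [map_zero, map_one, map_neg, map_ofNat]
  linear_combination -hrel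

variable (K) in
/-- `(X - 27)⁻¹` is integral over `K[s]`. -/
theorem NS3_int2 [CharZero K] (s x : F) (hrel : s * (x - 27) = x * (x - 24) ^ 3)
    (hx : x - 27 ≠ 0) : IsInt K s (x - 27)⁻¹ := by
  refine NS3_quartic' s (x - 27)⁻¹ 729 (by norm_num) (-1) 756 0 270 0 36 0 1 ?_
  simp only [map_zero, map_one, map_neg, map_ofNat]
  have := NS3_rev (x - 27) (x - 27)⁻¹ 729 (756 - s) 270 36 1 (mul_inv_cancel₀ hx)
    (by linear_combination -hrel)
  linear_combination this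

/-- the relation between `σ = s⁻¹` and `u = X⁻¹`. -/
theorem NS3_rel' (s x : F) (hrel : s * (x - 27) = x * (x - 24) ^ 3) (hs : s ≠ 0) (hx : x ≠ 0) :
    s⁻¹ * (1 - 24 * x⁻¹) ^ 3 = x⁻¹ ^ 3 * (1 - 27 * x⁻¹) := by
  have hxu : x * x⁻¹ = 1 := mul_inv_cancel₀ hx
  have hsσ : s * s⁻¹ = 1 := mul_inv_cancel₀ hs
  have e1 : x⁻¹ * (x - 27) = 1 - 27 * x⁻¹ := by linear_combination hxu
  have e2 : x⁻¹ * (x - 24) = 1 - 24 * x⁻¹ := by linear_combination hxu
  calc s⁻¹ * (1 - 24 * x⁻¹) ^ 3 = s⁻¹ * (x⁻¹ * (x - 24)) ^ 3 * (x * x⁻¹) := by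
        rw [e2, hxu, mul_one]
    _ = s⁻¹ * x⁻¹ ^ 4 * (x * (x - 24) ^ 3) := by ring
    _ = s⁻¹ * x⁻¹ ^ 4 * (s * (x - 27)) := by rw [hrel]
    _ = (s * s⁻¹) * x⁻¹ ^ 3 * (x⁻¹ * (x - 27)) := by ring
    _ = x⁻¹ ^ 3 * (1 - 27 * x⁻¹) := by rw [hsσ, e1, one_mul]

variable (K) in
/-- `u` is integral over `K[σ]`. -/
theorem NS3_int3 [CharZero K] (σ u : F) (hrel : σ * (1 - 24 * u) ^ 3 = u ^ 3 * (1 - 27 * u)) :
    IsInt K σ u := by
  refine NS3_quartic' σ u 27 (by norm_num) (-13824) (-1) 1728 0 (-72) 0 1 0 ?_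
  simp only [map_zero, map_one, map_neg, map_ofNat]
  linear_combination hrel

variable (K) in
/-- `(1 - 24 u)⁻¹` is integral over `K[σ]`. -/
theorem NS3_int4 [CharZero K] (σ u : F) (hrel : σ * (1 - 24 * u) ^ 3 = u ^ 3 * (1 - 27 * u))
    (hu : 1 - 24 * u ≠ 0) : IsInt K σ (1 - 24 * u)⁻¹ := by
  refine NS3_quartic' σ (1 - 24 * u)⁻¹ 3 (by norm_num) 0 (-36) 0 90 331776 (-84) 0 27 ?_
  simp only [map_zero, map_neg, map_ofNat]
  have := NS3_rev (1 - 24 * u) (1 - 24 * u)⁻¹ 3 (-36) 90 (331776 * σ - 84) 27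
    (mul_inv_cancel₀ hu) (by linear_combination 331776 * hrel)
  linear_combination this

end Abstract

/-- the abstract core. -/
theorem NS3_core (hNL : Stmt_NormLoc) (K F k Fb : Type) [Field K] [CharZero K] [Field F]
    [Algebra K F] [Field k] [Field Fb] [Algebra k Fb] (D : RedData K F k Fb) (s x : F)
    (hrel : s * (x - 27) = x * (x - 24) ^ 3) (hx : Transcendental K x)
    (hxO : x ∈ D.O) (hxtr : Transcendental k (D.rd x))
    (hxn : ∀ yb : Fb, IsInt k (D.rd x) yb → ∃ y ∈ D.O, IsInt K x y ∧ D.rd y = yb)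
    (hx'O : x⁻¹ ∈ D.O) (hx'tr : Transcendental k (D.rd x⁻¹))
    (hx'n : ∀ yb : Fb, IsInt k (D.rd x⁻¹) yb → ∃ y ∈ D.O, IsInt K x⁻¹ y ∧ D.rd y = yb) :
    (∀ yb : Fb, IsInt k (D.rd s) yb → ∃ y ∈ D.O, IsInt K s y ∧ D.rd y = yb) ∧
    (∀ yb : Fb, IsInt k (D.rd s⁻¹) yb → ∃ y ∈ D.O, IsInt K s⁻¹ y ∧ D.rd y = yb) := by
  have hne : ∀ c : K, x - algebraMap K F c ≠ 0 := fun c h =>
    hx (by rw [sub_eq_zero.1 h]; exact isAlgebraic_algebraMap c)
  have hx0 : x ≠ 0 := by simpa using hne 0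
  have hx27 : x - 27 ≠ 0 := by simpa [map_ofNat] using hne 27
  have hx24 : x - 24 ≠ 0 := by simpa [map_ofNat] using hne 24
  have hs0 : s ≠ 0 := by
    rintro rfl
    rw [zero_mul] at hrel
    exact mul_ne_zero hx0 (pow_ne_zero 3 hx24) hrel.symm
  have hu24 : 1 - 24 * x⁻¹ ≠ 0 := by
    have : 1 - 24 * x⁻¹ = x⁻¹ * (x - 24) := by
      have hxu : x * x⁻¹ = 1 := mul_inv_cancel₀ hx0
      linear_combination -hxu
    rw [this]
    exact mul_ne_zero (inv_ne_zero hx0) hx24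
  have hrel' := NS3_rel' s x hrel hs0 hx0
  constructor
  · have hQ : aeval x ((X - C 27 : (D.A)[X]).map D.A.subtype) = x - 27 := by
      simp [map_ofNat]
    have hP : aeval x ((X * (X - C 24) ^ 3 : (D.A)[X]).map D.A.subtype) = x * (x - 24) ^ 3 := by
      simp [map_ofNat]
    refine hNL K F k Fb D x s (X * (X - C 24) ^ 3) (X - C 27) hxO hxtr hxn ?_ ?_
      (NS3_int1 K s x hrel) ?_
    · rw [hQ, hP, hrel]
    · rw [Polynomial.map_sub, Polynomial.map_X, Polynomial.map_C]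
      exact X_sub_C_ne_zero _
    · rw [hQ]
      exact NS3_int2 K s x hrel hx27
  · have hQ : aeval x⁻¹ (((1 - C 24 * X) ^ 3 : (D.A)[X]).map D.A.subtype)
        = (1 - 24 * x⁻¹) ^ 3 := by
      simp [map_ofNat]
    have hP : aeval x⁻¹ ((X ^ 3 * (1 - C 27 * X) : (D.A)[X]).map D.A.subtype)
        = x⁻¹ ^ 3 * (1 - 27 * x⁻¹) := by
      simp [map_ofNat]
    refine hNL K F k Fb D x⁻¹ s⁻¹ (X ^ 3 * (1 - C 27 * X)) ((1 - C 24 * X) ^ 3) hx'O hx'tr hx'n
      ?_ ?_ (NS3_int3 K s⁻¹ x⁻¹ hrel') ?_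
    · rw [hQ, hP, hrel']
    · intro h0
      have := congrArg (Polynomial.eval 0) h0
      simp at this
    · rw [hQ, ← inv_pow]
      exact IsIntegral.pow (NS3_int4 K s⁻¹ x⁻¹ hrel' hu24) 3

/-- **NI-NS3.** -/
theorem normSat3 (hNL : Stmt_NormLoc) (hCS : INJ.Inst.Stmt_ChartS) (hCT : INJ.Inst.Stmt_ChartT)
    (hBT : INJ.Inst.Stmt_BranchT) : Stmt_NormSat 3 := by
  intro M _ r _ h3M hrM A hA L D hG s hs
  have hM0 : M ≠ 0 := NeZero.ne M
  have hs' : (s : LaurentSeries Qb) = S28.jd Qb M := by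
    rw [hs, sS, cJ, if_neg (by norm_num), Nat.cast_zero, sub_zero]
  have hCs : Chart D s := hCS M r hrM A hA L D hG s hs'
  have hCs' : Chart D s⁻¹ := stmt_ChartInv _ _ _ _ D s hCs
  obtain ⟨x, hx⟩ : ∃ x : FL M, (x : LaurentSeries Qb) = tS 3 M Qb :=
    ⟨⟨tS 3 M Qb, tS_mem_bar (Or.inr rfl) hM0 h3M⟩, rfl⟩
  have hCx : Chart D x := hCT 3 M r (Or.inr rfl) h3M hrM A hA L D hG x hx
  have hCx' : Chart D x⁻¹ := stmt_ChartInv _ _ _ _ D x hCx
  obtain ⟨hB, hB'⟩ := hBT 3 M r (Or.inr rfl) h3M hrM A hA L D hG x hx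
  have hrel : s * (x - 27) = x * (x - 24) ^ 3 := by
    apply Subtype.ext
    have := rel_tS3 Qb hM0 h3M
    push_cast
    rw [hx, hs']
    exact this
  have hxtr : Transcendental Qb x := by
    intro halg
    have h1 : Transcendental Qb (x : LaurentSeries Qb) := by
      rw [hx]; exact transcendental_tS Qb hM0 h3M
    exact h1 (halg.algHom (modularFunctionFieldBar M).val)
  obtain ⟨h1, h2⟩ := NS3_core hNL Qb (FL M) (kA A) L D s x hrel hxtr hCx.t_mem hCx.trans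
    (all_Normal _ _ _ _ D x hCx hB) hCx'.t_mem hCx'.trans (all_Normal _ _ _ _ D x⁻¹ hCx' hB')
  exact ⟨hCs, hCs', h1, h2⟩

end Fermat.Agent.BR.Inst

end
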