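import Fermat.Agent.BR.Inst.Interface
import Fermat.Agent.S28.Tower

/-!
# BR / Inst, package NI-RED1 (helper38): the Gauss reduction commutes with `q ↦ q^e` and does not
depend on the level.
-/

set_option autoImplicit false
set_option synthInstance.maxHeartbeats 400000

noncomputable section

namespace Fermat.Agent.BR.Inst

open AlgebraicCurve ModularCurve IntermediateField Polynomial
open Fermat.Agent Fermat.Agent.INJ Fermat.Agent.INJ.Inst

/-- [RV] -/
theorem stmt_RedV : Stmt_RedV := by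
  intro N A L D hD e x y hxy hx
  obtain ⟨f, g, hg, hfg⟩ := hD.exists_ratio x hx
  have h1 := (hD.ratio x f g hg hfg).2
  have hg' : coeffMap (IsLocalRing.residue A) (S28.Vq A e g) ≠ 0 := by
    rw [S28.tower_coeffMap_Vq]
    exact (map_ne_zero (S28.Vq (kA A) e)).2 hg
  have hfg' : (y : LaurentSeries Qb) * coeffMap A.subtype (S28.Vq A e g) =
      coeffMap A.subtype (S28.Vq A e f) := by
    rw [S28.tower_coeffMap_Vq, S28.tower_coeffMap_Vq, hxy, ← map_mul, hfg]
  obtain ⟨h2, h3⟩ := hD.ratio y _ _ hg' hfg'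
  refine ⟨h2, ?_⟩
  rw [h3, h1, S28.tower_coeffMap_Vq, S28.tower_coeffMap_Vq, map_div₀]

/-- one half of [RL] -/
theorem Red1_half (N N' : ℕ) (A : ValuationSubring Qb)
    (L L' : IntermediateField (kA A) (LaurentSeries (kA A)))
    (D : RedData Qb (FL N) (kA A) L) (D' : RedData Qb (FL N') (kA A) L')
    (hD : IsGaussS N A L D) (hD' : IsGaussS N' A L' D')
    (x : FL N) (x' : FL N') (hxx : (x : LaurentSeries Qb) = (x' : LaurentSeries Qb))
    (hx : x ∈ D.O) : x' ∈ D'.O ∧
      ((D.rd x : L) : LaurentSeries (kA A)) = ((D'.rd x' : L') : LaurentSeries (kA A)) := by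
  obtain ⟨f, g, hg, hfg⟩ := hD.exists_ratio x hx
  have h1 := (hD.ratio x f g hg hfg).2
  obtain ⟨h2, h3⟩ := hD'.ratio x' f g hg (by rw [← hxx]; exact hfg)
  exact ⟨h2, by rw [h1, h3]⟩

/-- [RL] -/
theorem stmt_RedLevel : Stmt_RedLevel := by
  intro N N' A L L' D D' hD hD' x x' hxx
  have hiff : x ∈ D.O ↔ x' ∈ D'.O :=
    ⟨fun hx => (Red1_half N N' A L L' D D' hD hD' x x' hxx hx).1,
      fun hx => (Red1_half N' N A L' L D' D hD' hD x' x hxx.symm hx).1⟩
  refine ⟨hiff, ?_⟩
  by_cases hx : x ∈ D.O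
  · exact (Red1_half N N' A L L' D D' hD hD' x x' hxx hx).2
  · rw [RedData.rd_of_not_mem hx, RedData.rd_of_not_mem (fun h => hx (hiff.2 h))]
    rfl

end Fermat.Agent.BR.Inst

end
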