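import Fermat.Agent.BR.Inst.Interface

/-!
# BR / Inst : [RG] reduction and the decomposition group, [IND] inertia and Frobenius (helper19)
-/

set_option autoImplicit false
set_option synthInstance.maxHeartbeats 400000

noncomputable section

namespace Fermat.Agent.BR.Inst

open AlgebraicCurve ModularCurve IntermediateField Polynomial
open Fermat.Agent Fermat.Agent.INJ Fermat.Agent.INJ.Inst

/-- the endomorphism of `A` induced by `σ`. -/
def Red2_sA {A : ValuationSubring Qb} {σ : ES.Mid.GQ} {τ : kA A →+* kA A} (h : Induces A σ τ) :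
    A →+* A where
  toFun a := ⟨σ a.1, (h a.1 a.2).choose⟩
  map_one' := Subtype.ext (map_one σ)
  map_mul' a b := Subtype.ext (map_mul σ a.1 b.1)
  map_zero' := Subtype.ext (map_zero σ)
  map_add' a b := Subtype.ext (map_add σ a.1 b.1)

theorem Red2_subtype_comp {A : ValuationSubring Qb} {σ : ES.Mid.GQ} {τ : kA A →+* kA A}
    (h : Induces A σ τ) :
    A.subtype.comp (Red2_sA h) = (σ : Qb →+* Qb).comp A.subtype := rfl

theorem Red2_residue_comp {A : ValuationSubring Qb} {σ : ES.Mid.GQ} {τ : kA A →+* kA A}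
    (h : Induces A σ τ) :
    (IsLocalRing.residue A).comp (Red2_sA h) = τ.comp (IsLocalRing.residue A) := by
  ext a
  exact (h a.1 a.2).choose_spec

theorem Red2_coeffMap_injective {R S : Type*} [CommRing R] [CommRing S] (φ : R →+* S)
    (hφ : Function.Injective φ) : Function.Injective (coeffMap φ) := by
  intro x y h
  ext k
  apply hφ
  rw [← coeffMap_coeff, ← coeffMap_coeff, h]

theorem stmt_RedGal : Stmt_RedGal := by
  intro N A L D hD σ τ h x hx
  obtain ⟨f, g, hg, hfg⟩ := hD.exists_ratio x hx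
  have hrd := (hD.ratio x f g hg hfg).2
  have hρ : ∀ y : LaurentSeries A, coeffMap (IsLocalRing.residue A) (coeffMap (Red2_sA h) y) =
      coeffMap τ (coeffMap (IsLocalRing.residue A) y) := by
    intro y
    rw [coeffMap_coeffMap, coeffMap_coeffMap, Red2_residue_comp]
  have hinc : ∀ y : LaurentSeries A, coeffMap A.subtype (coeffMap (Red2_sA h) y) =
      coeffMap (σ : Qb →+* Qb) (coeffMap A.subtype y) := by
    intro y
    rw [coeffMap_coeffMap, coeffMap_coeffMap, Red2_subtype_comp]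
  have hg' : coeffMap (IsLocalRing.residue A) (coeffMap (Red2_sA h) g) ≠ 0 := by
    rw [hρ]
    intro h0
    apply hg
    apply Red2_coeffMap_injective τ τ.injective
    rw [h0, map_zero]
  have hfg' : ((ES.Mid.gal N σ x : FL N) : LaurentSeries Qb) *
      coeffMap A.subtype (coeffMap (Red2_sA h) g) = coeffMap A.subtype (coeffMap (Red2_sA h) f) := by
    rw [ES.Mid.coe_gal, hinc, hinc, ← map_mul, hfg]
  obtain ⟨h1, h2⟩ := hD.ratio (ES.Mid.gal N σ x) _ _ hg' hfg'
  refine ⟨h1, ?_⟩
  rw [h2, hρ, hρ, hrd, map_div₀]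

theorem stmt_Induces : Stmt_Induces := by
  intro A σ
  refine ⟨?_, ?_⟩
  · intro hσ a ha
    obtain ⟨g, hg, rfl⟩ := hσ
    refine ⟨(g • (⟨a, ha⟩ : A) : A).2, ?_⟩
    have h1 : g • (IsLocalRing.residue A ⟨a, ha⟩) = IsLocalRing.residue A ⟨a, ha⟩ :=
      RingEquiv.congr_fun (MonoidHom.mem_ker.1 hg) (IsLocalRing.residue A ⟨a, ha⟩)
    rw [← IsLocalRing.ResidueField.residue_smul] at h1
    exact h1
  · intro r τ hτ hF a ha
    obtain ⟨hσ, hF⟩ := hF
    refine ⟨((⟨σ, hσ⟩ : A.decompositionSubgroup ℚ) • (⟨a, ha⟩ : A) : A).2, ?_⟩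
    have h1 := hF (IsLocalRing.residue A ⟨a, ha⟩)
    rw [← IsLocalRing.ResidueField.residue_smul] at h1
    rw [hτ]
    exact h1

end Fermat.Agent.BR.Inst

end
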