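import Fermat.Agent.BR.Inst.Interface2
import Fermat.Agent.BR.Inv.S0

/-!
# BR / Inst, package NI-T5 : a common representative `h ≡ 1` at `D₁`, `h ≡ g` at `D₂`
-/

set_option autoImplicit false
set_option synthInstance.maxHeartbeats 400000

noncomputable section

namespace Fermat.Agent.BR.Inst

open AlgebraicCurve ModularCurve IntermediateField Polynomial
open Fermat.Agent Fermat.Agent.INJ Fermat.Agent.INJ.Inst
open Fermat.Agent.BR.Inv (TC Pair S0_inv_of_not_mem S0_ra_mul S0_arch₂)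

/-- multiplication by a high power of a small element makes everything small. -/
theorem T5_small {K F k Fb : Type*} [Field K] [Field F] [Algebra K F] [Field k] [Field Fb]
    [Algebra k Fb] (D : RedData K F k Fb) (hArch : Arch D) (e : F) (he : e ∈ D.O)
    (h0 : D.rd e = 0) (x : F) : ∃ n : ℕ, e ^ n * x ∈ D.O ∧ D.rd (e ^ n * x) = 0 := by
  by_cases hx0 : x = 0
  · subst hx0
    exact ⟨0, by rw [mul_zero]; exact D.O.zero_mem, by rw [mul_zero]; exact RedData.rd_zero⟩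
  by_cases he0 : e = 0
  · subst he0
    exact ⟨1, by rw [pow_one, zero_mul]; exact D.O.zero_mem,
      by rw [pow_one, zero_mul]; exact RedData.rd_zero⟩
  obtain ⟨a, ha0, ha1, ha2⟩ := D.unram e he0
  have haA : a ∉ D.A := by
    intro haA
    have h2 : e * algebraMap K F a ≠ 0 := mul_ne_zero he0 ((_root_.map_ne_zero _).2 ha0)
    apply RedData.rd_ne_zero_of_inv_mem h2 ha1 ha2
    rw [RedData.rd_mul he (RedData.algebraMap_mem haA), h0, zero_mul]
  obtain ⟨hπ, hπ0⟩ := S0_inv_of_not_mem D haA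
  obtain ⟨c, hc0, hc1, -⟩ := D.unram x hx0
  obtain ⟨n, hn⟩ := hArch a⁻¹ hπ hπ0 c hc0
  have hb : a⁻¹ * (a⁻¹ ^ n * c⁻¹) ∈ D.A := mul_mem hπ hn
  have hb0 : D.ra (a⁻¹ * (a⁻¹ ^ n * c⁻¹)) = 0 := by
    rw [S0_ra_mul D hπ hn, hπ0, zero_mul]
  have hfa : algebraMap K F a ≠ 0 := (_root_.map_ne_zero _).2 ha0
  have hfc : algebraMap K F c ≠ 0 := (_root_.map_ne_zero _).2 hc0
  have hy : e ^ (n + 1) * x = (x * algebraMap K F c) * (e * algebraMap K F a) ^ (n + 1) *
      algebraMap K F (a⁻¹ * (a⁻¹ ^ n * c⁻¹)) := by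
    rw [map_mul, map_mul, map_pow, map_inv₀, map_inv₀, mul_pow, inv_pow,
      pow_succ (algebraMap K F a) n]
    field_simp
  have hm : (x * algebraMap K F c) * (e * algebraMap K F a) ^ (n + 1) ∈ D.O :=
    mul_mem hc1 (pow_mem ha1 _)
  refine ⟨n + 1, ?_, ?_⟩
  · rw [hy]
    exact mul_mem hm (RedData.algebraMap_mem hb)
  · rw [hy, RedData.rd_mul hm (RedData.algebraMap_mem hb), RedData.rd_algebraMap hb, hb0, map_zero,
      mul_zero]

/-- **NI-T5.** -/
theorem stmt_RepAbs : Stmt_RepAbs := by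
  intro K F k Fb _ _ _ _ _ _ D₁ D₂ hP hA g hg
  obtain ⟨e, he1, he2, h1, h2⟩ := hP.sep
  have he1' : 1 - e ∈ D₁.O := sub_mem D₁.O.one_mem he1
  have he2' : 1 - e ∈ D₂.O := sub_mem D₂.O.one_mem he2
  have h1' : D₁.rd (1 - e) = 0 := by
    rw [RedData.rd_sub D₁.O.one_mem he1, h1, RedData.rd_one, sub_self]
  have h2' : D₂.rd (1 - e) = 1 := by
    rw [RedData.rd_sub D₂.O.one_mem he2, h2, RedData.rd_one, sub_zero]
  obtain ⟨n, hn, hn0⟩ := T5_small D₂ (S0_arch₂ hP hA) e he2 h2 g⁻¹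
  obtain ⟨n', hn', hn0'⟩ := T5_small D₁ hA (1 - e) he1' h1' g
  have hrd : D₁.rd (e ^ n + (1 - e) ^ n' * g) = 1 := by
    rw [RedData.rd_add (pow_mem he1 n) hn', hn0', RedData.rd_pow he1, h1, one_pow, add_zero]
  refine ⟨e ^ n + (1 - e) ^ n' * g, ?_, hrd, ?_⟩
  · intro h0
    rw [h0, RedData.rd_zero] at hrd
    exact zero_ne_one hrd
  · have e1 : (e ^ n + (1 - e) ^ n' * g) / g = e ^ n * g⁻¹ + (1 - e) ^ n' := by
      field_simp
    rw [e1, RedData.rd_add hn (pow_mem he2' n'), hn0, RedData.rd_pow he2', h2', one_pow, zero_add]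

end Fermat.Agent.BR.Inst

end
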