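import Fermat.Agent.BR.Inst.Interface2

/-!
# BR / Inst / [T3] : the degree of `FL (M r)` over `K(T)`, `T = s * s_r`
-/

set_option autoImplicit false
set_option synthInstance.maxHeartbeats 400000

noncomputable section

namespace Fermat.Agent.BR.Inst

open AlgebraicCurve ModularCurve IntermediateField Polynomial
open Fermat.Agent Fermat.Agent.INJ Fermat.Agent.INJ.Inst

theorem TCDeg_transcendental (N d c : ℕ) (hd : d ≠ 0) (s : FL N)
    (hs : (s : LaurentSeries Qb) = sS d c Qb) : Transcendental Qb s := by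
  intro h
  have h1 := h.algHom (modularFunctionFieldBar N).val
  change IsAlgebraic Qb (s : LaurentSeries Qb) at h1
  rw [hs, sS] at h1
  apply INJ.Inst.transcendental_jd Qb hd
  have h2 : IsAlgebraic Qb (c : LaurentSeries Qb) := by
    rw [← map_natCast (algebraMap Qb (LaurentSeries Qb))]
    exact isAlgebraic_algebraMap _
  have h3 := h1.add h2
  rwa [sub_add_cancel] at h3

/-- `W s_r = s`. -/
theorem TCDeg_W (M r c : ℕ) [NeZero (M * r)] (hr : r.Prime)
    (W : FL (M * r) ≃ₐ[Qb] FL (M * r)) (hW : IsAL M r W) (s sr : FL (M * r))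
    (hs : (s : LaurentSeries Qb) = sS M c Qb) (hsr : (sr : LaurentSeries Qb) = sS (M * r) c Qb) :
    W sr = s := by
  have hN : M * r ≠ 0 := NeZero.ne _
  let x : FL (M * r) := ⟨S28.jd Qb (M * r), jd_mem_bar hN dvd_rfl⟩
  let y : FL (M * r) := ⟨S28.jd Qb M, jd_mem_bar hN (Dvd.intro r rfl)⟩
  have hxy : W x = y := by
    apply hW M r dvd_rfl dvd_rfl x y rfl
    rw [Nat.div_self hr.pos, mul_one]
  have e1 : sr = x - (c : FL (M * r)) := by
    apply Subtype.ext
    rw [hsr, sS]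
    push_cast
    rfl
  have e2 : s = y - (c : FL (M * r)) := by
    apply Subtype.ext
    rw [hs, sS]
    push_cast
    rfl
  rw [e1, e2, map_sub, map_natCast, hxy]

theorem stmt_TCDeg (hDS : Stmt_DegS) (hDW : Stmt_DegW) (hDP : Stmt_DegProd) (hI : Stmt_TCInt) :
    Stmt_TCDeg := by
  intro M r c _ _ hr hrM W hW s0 s sr hs0 hs hsr
  obtain ⟨f1, d1⟩ := hDS M r c hr hrM s0 sr hs0 hsr
  obtain ⟨f2, d2⟩ := hDW Qb (FL (M * r)) W sr f1
  rw [TCDeg_W M r c hr W hW s sr hs hsr] at f2 d2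
  obtain ⟨-, -, -, -, i1, i2⟩ := hI M r c hr s sr hs hsr
  obtain ⟨f3, d3⟩ := hDP Qb (FL (M * r)) s sr
    (TCDeg_transcendental (M * r) M c (NeZero.ne M) s hs) f2 i1 i2
  refine ⟨f3, ?_⟩
  rw [d3, d2]
  omega

end Fermat.Agent.BR.Inst

end
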