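import Fermat.Agent.BR.Inst.Interface2
import Fermat.Agent.BR.Inv.TC7
import Fermat.Agent.S28.FN7f

/-!
# BR / Inst / T2 (helper25): integrality of `s^(±1)`, `sr^(±1)` over `K[T^(±1)]`, `T = s * sr`
-/

set_option autoImplicit false
set_option synthInstance.maxHeartbeats 400000

noncomputable section

namespace Fermat.Agent.BR.Inst

open AlgebraicCurve ModularCurve IntermediateField Polynomial
open Fermat.Agent Fermat.Agent.INJ Fermat.Agent.INJ.Inst

section Abstract

variable {K F : Type*} [Field K] [Field F] [Algebra K F]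

/-- the shifted two variable polynomial `Φ(X + c, Y + c)`. -/
def TCInt_shift (Φ : K[X][X]) (c : K) : K[X][X] :=
  (Φ.map (compRingHom (X + C c))).comp (X + C (C c))

theorem TCInt_shift_monic {Φ : K[X][X]} (h : Φ.Monic) (c : K) : (TCInt_shift Φ c).Monic :=
  (h.map _).comp_X_add_C _

theorem TCInt_aeval_comp (c : K) (y : F) :
    ((aeval y : K[X] →ₐ[K] F) : K[X] →+* F).comp (compRingHom (X + C c))
      = ((aeval (y + algebraMap K F c) : K[X] →ₐ[K] F) : K[X] →+* F) := by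
  apply Polynomial.ringHom_ext
  · intro a
    simp
  · simp

theorem TCInt_shift_eval (Φ : K[X][X]) (c : K) (x y : F) :
    (TCInt_shift Φ c).eval₂ ((aeval y : K[X] →ₐ[K] F) : K[X] →+* F) x
      = Φ.eval₂ ((aeval (y + algebraMap K F c) : K[X] →ₐ[K] F) : K[X] →+* F)
          (x + algebraMap K F c) := by
  rw [TCInt_shift, eval₂_comp, eval₂_map, TCInt_aeval_comp]
  congr 1
  simp

/-- a root of a polynomial which is monic in the outer variable is integral over `K[y]`. -/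
theorem TCInt_isInt_of_root {Φ : K[X][X]} (h : Φ.Monic) {x y : F}
    (h0 : Φ.eval₂ ((aeval y : K[X] →ₐ[K] F) : K[X] →+* F) x = 0) : IsInt K y x := by
  let y' : Algebra.adjoin K {y} := ⟨y, Algebra.self_mem_adjoin_singleton K y⟩
  refine ⟨Φ.map ((aeval y' : K[X] →ₐ[K] Algebra.adjoin K {y}) : K[X] →+* Algebra.adjoin K {y}),
    h.map _, ?_⟩
  rw [eval₂_map]
  have e : (algebraMap (Algebra.adjoin K {y}) F).comp
      ((aeval y' : K[X] →ₐ[K] Algebra.adjoin K {y}) : K[X] →+* Algebra.adjoin K {y})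
      = ((aeval y : K[X] →ₐ[K] F) : K[X] →+* F) := by
    apply Polynomial.ringHom_ext
    · intro a
      simp
    · simp
      rfl
  rw [e]
  exact h0

theorem TCInt_exists_bound (Φ : K[X][X]) : ∃ D : ℕ, ∀ i, (Φ.coeff i).natDegree ≤ D := by
  refine ⟨Φ.support.sup fun i => (Φ.coeff i).natDegree, fun i => ?_⟩
  by_cases hi : i ∈ Φ.support
  · exact Finset.le_sup (f := fun i => (Φ.coeff i).natDegree) hi
  · rw [notMem_support_iff.1 hi, natDegree_zero]
    exact Nat.zero_le _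

end Abstract

/-- abstract form of T2. -/
theorem TCInt_abstract {K F : Type} [Field K] [Field F] [Algebra K F] (Φ : K[X][X]) (h : Φ.Monic)
    (x y : F) (hx : x ≠ 0) (hy : y ≠ 0)
    (h1 : Φ.eval₂ ((aeval y : K[X] →ₐ[K] F) : K[X] →+* F) x = 0)
    (h2 : Φ.eval₂ ((aeval x : K[X] →ₐ[K] F) : K[X] →+* F) y = 0) :
    IsInt K (x * y) x ∧ IsInt K (x * y) y ∧ IsInt K (x * y)⁻¹ x⁻¹ ∧ IsInt K (x * y)⁻¹ y⁻¹ ∧
      IsInt K x y ∧ IsInt K y x := by
  obtain ⟨D, hD⟩ := TCInt_exists_bound Φ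
  refine ⟨?_, ?_, ?_, ?_, TCInt_isInt_of_root h h2, TCInt_isInt_of_root h h1⟩
  · obtain ⟨P, hP, -, hP0⟩ := Inv.stmt_TCPhi K F x y Φ D hx h hD h1
    exact ⟨P, hP, by rwa [aeval_def] at hP0⟩
  · obtain ⟨P, hP, -, hP0⟩ := Inv.stmt_TCPhi K F y x Φ D hy h hD h2
    rw [mul_comm]
    exact ⟨P, hP, by rwa [aeval_def] at hP0⟩
  · exact Inv.stmt_TCPhiInv K F x y Φ hx hy h h2
  · rw [mul_comm]
    exact Inv.stmt_TCPhiInv K F y x Φ hy hx h h1

theorem TCInt_natCast_coeff (c : ℕ) {n : ℤ} (hn : n ≠ 0) :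
    ((c : LaurentSeries Qb)).coeff n = 0 := by
  have : (c : LaurentSeries Qb) = HahnSeries.C (c : Qb) := (map_natCast HahnSeries.C c).symm
  rw [this, HahnSeries.C_apply, HahnSeries.coeff_single_of_ne hn]

theorem TCInt_sS_ne_zero {d : ℕ} (hd : d ≠ 0) (c : ℕ) : sS d c Qb ≠ 0 := by
  intro h
  have h1 := congrArg (fun z : LaurentSeries Qb => z.coeff (-(d : ℤ))) h
  simp only [sS, HahnSeries.coeff_sub, HahnSeries.coeff_zero] at h1
  rw [coeff_jd Qb hd, TCInt_natCast_coeff c (by simpa using hd), sub_zero] at h1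
  exact one_ne_zero h1

/-- evaluation in the subfield `FL N` versus evaluation of series. -/
theorem TCInt_coe_eval (N : ℕ) (Φ : Qb[X][X]) (x y : FL N) :
    ((Φ.eval₂ ((aeval y : Qb[X] →ₐ[Qb] FL N) : Qb[X] →+* FL N) x : FL N) : LaurentSeries Qb)
      = S28.ev2 Φ (x : LaurentSeries Qb) (y : LaurentSeries Qb) := by
  have h := Polynomial.hom_eval₂ Φ ((aeval y : Qb[X] →ₐ[Qb] FL N) : Qb[X] →+* FL N)
    (algebraMap (FL N) (LaurentSeries Qb)) x
  have e : (algebraMap (FL N) (LaurentSeries Qb)).comp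
      ((aeval y : Qb[X] →ₐ[Qb] FL N) : Qb[X] →+* FL N) = S28.evY (y : LaurentSeries Qb) := by
    apply Polynomial.ringHom_ext
    · intro a
      simp [S28.evY]
      exact algebraMap_laurentSeries_eq_single _ a
    · simp [S28.evY]
  rw [e] at h
  exact h

theorem stmt_TCInt : Stmt_TCInt := by
  intro M r c _ hr s sr hs hsr
  have hM0 : M ≠ 0 := fun h => NeZero.ne (M * r) (by rw [h, zero_mul])
  have hr0 : r ≠ 0 := hr.ne_zero
  obtain ⟨Φ, hm, -, e1, e2⟩ := S28.FN7.hasModPoly Qb hr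
  have hV1 : S28.Vq Qb M (S28.jd Qb r) = S28.jd Qb (M * r) := by
    rw [S28.jd, S28.tower_Vq_Vq Qb hM0 hr0, S28.jd]
  have hV2 : S28.Vq Qb M (jqModC Qb) = S28.jd Qb M := rfl
  have f1 : S28.ev2 Φ (S28.jd Qb (M * r)) (S28.jd Qb M) = 0 := by
    have := congrArg (S28.Vq Qb M) e1
    rwa [S28.BC.Vq_ev2, hV1, hV2, map_zero] at this
  have f2 : S28.ev2 Φ (S28.jd Qb M) (S28.jd Qb (M * r)) = 0 := by
    have := congrArg (S28.Vq Qb M) e2
    rwa [S28.BC.Vq_ev2, hV1, hV2, map_zero] at this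
  have hs' : ((s + algebraMap Qb (FL (M * r)) (c : Qb) : FL (M * r)) : LaurentSeries Qb)
      = S28.jd Qb M := by
    rw [map_natCast]
    show (s : LaurentSeries Qb) + ((c : FL (M * r)) : LaurentSeries Qb) = _
    rw [hs, sS]
    have : ((c : FL (M * r)) : LaurentSeries Qb) = (c : LaurentSeries Qb) :=
      map_natCast (algebraMap (FL (M * r)) (LaurentSeries Qb)) c
    rw [this, sub_add_cancel]
  have hsr' : ((sr + algebraMap Qb (FL (M * r)) (c : Qb) : FL (M * r)) : LaurentSeries Qb)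
      = S28.jd Qb (M * r) := by
    rw [map_natCast]
    show (sr : LaurentSeries Qb) + ((c : FL (M * r)) : LaurentSeries Qb) = _
    rw [hsr, sS]
    have : ((c : FL (M * r)) : LaurentSeries Qb) = (c : LaurentSeries Qb) :=
      map_natCast (algebraMap (FL (M * r)) (LaurentSeries Qb)) c
    rw [this, sub_add_cancel]
  have hs0 : s ≠ 0 := by
    intro h
    apply TCInt_sS_ne_zero hM0 c
    rw [← hs, h]
    rfl
  have hsr0 : sr ≠ 0 := by
    intro h
    apply TCInt_sS_ne_zero (NeZero.ne (M * r)) c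
    rw [← hsr, h]
    rfl
  refine TCInt_abstract (TCInt_shift Φ (c : Qb)) (TCInt_shift_monic hm _) s sr hs0 hsr0 ?_ ?_
  · rw [TCInt_shift_eval]
    apply Subtype.ext
    rw [TCInt_coe_eval, hs', hsr', f2]
    rfl
  · rw [TCInt_shift_eval]
    apply Subtype.ext
    rw [TCInt_coe_eval, hs', hsr', f1]
    rfl

end Fermat.Agent.BR.Inst

end
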