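import Fermat.Agent.BR.Inst.GM
import Fermat.Agent.BR.Inst.ALProps
import Fermat.Agent.BR.Inst.Red1
import Fermat.Agent.BR.Inst.Red2
import Fermat.Agent.BR.Inst.LKf
import Fermat.Agent.BR.Inst.FrobKf
import Fermat.Agent.BR.Inst.NormLoc
import Fermat.Agent.BR.Inst.NormS2
import Fermat.Agent.BR.Inst.NormS3
import Fermat.Agent.BR.Inst.DegS
import Fermat.Agent.BR.Inst.DegProd
import Fermat.Agent.BR.Inst.TCInt
import Fermat.Agent.BR.Inst.TCDeg
import Fermat.Agent.BR.Inst.SigmaL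
import Fermat.Agent.BR.Inst.RepAbs
import Fermat.Agent.BR.Inv.TCAll
import Fermat.Agent.BR.GMid.Bridge
import Fermat.Agent.BR.F.ALField
import Fermat.Agent.BR.F.ALAlg
import Fermat.Agent.BR.F.ALConj
import Fermat.Agent.INJ.Inst.AllInst

/-!
# BR / Inst : assembly.  Theorem G (`F.Stmt_G`) from the two copies data.
-/

set_option autoImplicit false
set_option synthInstance.maxHeartbeats 400000

namespace Fermat.Agent.BR.Inst

open Fermat.Agent Fermat.Agent.INJ Fermat.Agent.INJ.Inst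

theorem all_NormS : Stmt_NormS :=
  ⟨normSat2 stmt_NormLoc all_ChartS all_ChartT all_BranchT,
    normSat3 stmt_NormLoc all_ChartS all_ChartT all_BranchT⟩

theorem all_TCDeg : Stmt_TCDeg := stmt_TCDeg stmt_DegS stmt_DegW stmt_DegProd stmt_TCInt

/-- Theorem G at the levels `M * r`, `a ∣ M`. -/
theorem GM_of_TCData (hTD : Stmt_TCData) : Stmt_GM :=
  stmt_GM Inv.TCG_all hTD stmt_TCInt all_TCDeg all_NormS (stmt_SigmaL stmt_RedGal) stmt_CongRd
    stmt_RepAbs stmt_Induces stmt_ALProps Inv.stmt_TCPair AR36_stmt_ArchD stmt_LocPow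

theorem GNorm_of_GM (h : Stmt_GM) : GMid.Stmt_GNorm := by
  intro a M r _ A hctx W hW m hm u hdiv hc hcc
  have : NeZero M := ⟨fun h0 => NeZero.ne (M * r) (by rw [h0, zero_mul])⟩
  exact h a M r A hctx W hW m hm u hdiv hc hcc

/-- **Theorem G** (helper22's contract) from the two copies data. -/
theorem G_of_TCData (hTD : Stmt_TCData) : F.Stmt_G :=
  GMid.stmt_G_of_GNorm (GNorm_of_GM (GM_of_TCData hTD))
    (F.W3.alExists F.W1.alMat F.W1.alConj F.W2.alAlg) (F.W3.al_j F.W2.alAlg)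

end Fermat.Agent.BR.Inst
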