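import Fermat.Agent.BR.Inst.Interface2
import Fermat.Agent.ES.Mid.HF3
import Fermat.Agent.S18.Glue28

/-!
# BR / Inst : [T1] the two copies data (`Stmt_TCData`)
-/

set_option autoImplicit false
set_option synthInstance.maxHeartbeats 400000

noncomputable section

namespace Fermat.Agent.BR.Inst

open AlgebraicCurve ModularCurve IntermediateField Polynomial
open Fermat.Agent Fermat.Agent.INJ Fermat.Agent.INJ.Inst
open Fermat.Agent.BR.Inv (TC Pair)

/-- a ring endomorphism of the ambient field restricted to intermediate fields. -/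
def T1_restr {k k' E E' : Type*} [Field k] [Field E] [Algebra k E] [Field k'] [Field E']
    [Algebra k' E'] (L : IntermediateField k E) (L' : IntermediateField k' E') (f : E →+* E')
    (h : ∀ y ∈ L, f y ∈ L') : L →+* L' where
  toFun y := ⟨f y.1, h y.1 y.2⟩
  map_one' := Subtype.ext (map_one f)
  map_mul' a b := Subtype.ext (map_mul f a.1 b.1)
  map_zero' := Subtype.ext (map_zero f)
  map_add' a b := Subtype.ext (map_add f a.1 b.1)

theorem T1_coe_restr {k k' E E' : Type*} [Field k] [Field E] [Algebra k E] [Field k'] [Field E']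
    [Algebra k' E'] (L : IntermediateField k E) (L' : IntermediateField k' E') (f : E →+* E')
    (h : ∀ y ∈ L, f y ∈ L') (y : L) : ((T1_restr L L' f h y : L') : E') = f y.1 := rfl

theorem T1_Vq_algebraMap (K : Type) [Field K] (r : ℕ) (c : K) :
    S28.Vq K r (algebraMap K (LaurentSeries K) c) = algebraMap K (LaurentSeries K) c := by
  by_cases h : r = 0
  · subst h
    simp [S28.Vq]
  · have : NeZero r := ⟨h⟩
    rw [S28.Vq_eq]
    exact (qExpandAlgHomC K r).commutes c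

theorem T1_ra_eq {F F' Fb Fb' : Type*} [Field F] [Algebra Qb F] [Field F'] [Algebra Qb F']
    (A : ValuationSubring Qb) [Field Fb] [Algebra (kA A) Fb] [Field Fb'] [Algebra (kA A) Fb']
    (D : RedData Qb F (kA A) Fb) (D' : RedData Qb F' (kA A) Fb') (hA : D.A = A) (hA' : D'.A = A)
    (h : ∀ (a : Qb) (ha : a ∈ A), D.ra a = IsLocalRing.residue A ⟨a, ha⟩)
    (h' : ∀ (a : Qb) (ha : a ∈ A), D'.ra a = IsLocalRing.residue A ⟨a, ha⟩) (a : Qb) :
    D.ra a = D'.ra a := by
  by_cases ha : a ∈ A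
  · rw [h a ha, h' a ha]
  · have h1 : a ∉ D.A := by rw [hA]; exact ha
    have h2 : a ∉ D'.A := by rw [hA']; exact ha
    rw [RedData.ra, RedData.ra, dif_neg h1, dif_neg h2]

set_option maxHeartbeats 1600000 in
/-- **[T1]** -/
theorem stmt_TCData (hLv : Stmt_Levels) (hALP : Stmt_ALProps) (hRV : Stmt_RedV)
    (hRL : Stmt_RedLevel) (hLK : Stmt_LKf) (hF : Stmt_FrobKf) : Stmt_TCData := by
  intro a M r _ _ A hctx L' D' hD' L₁ D₁ hD₁ W hW
  have hrP : r.Prime := hctx.hr
  have : Fact r.Prime := ⟨hrP⟩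
  have : IsAlgClosed (kA A) := S18G.isAlgClosed_kA A
  have : CharP (kA A) r := ES.Mid.HF3.charP_residue A r hctx.hA
  have : NeZero r := ⟨hrP.ne_zero⟩
  obtain ⟨hWW, -, hWV⟩ := hALP M r W hW
  have hL' : L' = S28.Kf (kA A) M := hLK M r hctx.hrM A hctx.hA L' D' hD'.gauss
  obtain ⟨hF1, hF2, hF3⟩ := hF (kA A) r M
  -- the maps in characteristic zero
  have hle : modularFunctionFieldBar M ≤ modularFunctionFieldBar (M * r) :=
    fun x hx => (hLv M r x hx).1
  let ι₁ : FL M →ₐ[Qb] FL (M * r) := IntermediateField.inclusion hle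
  have hι₁ : ∀ x : FL M, ((ι₁ x : FL (M * r)) : LaurentSeries Qb) = (x : LaurentSeries Qb) :=
    fun x => IntermediateField.coe_inclusion hle x
  let ι₂ : FL M →ₐ[Qb] FL (M * r) :=
    { T1_restr (modularFunctionFieldBar M) (modularFunctionFieldBar (M * r)) (S28.Vq Qb r)
        (fun y hy => (hLv M r y hy).2) with
      commutes' := fun c => Subtype.ext (T1_Vq_algebraMap Qb r c) }
  have hι₂ : ∀ x : FL M, ((ι₂ x : FL (M * r)) : LaurentSeries Qb) =
      S28.Vq Qb r (x : LaurentSeries Qb) := fun x => rfl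
  -- the residue fields
  have hc11 : ∀ f : FL M, (f ∈ D'.O ↔ ι₁ f ∈ D₁.O) ∧
      ((D'.rd f : L') : LaurentSeries (kA A)) = ((D₁.rd (ι₁ f) : L₁) : LaurentSeries (kA A)) :=
    fun f => hRL M (M * r) A L' L₁ D' D₁ hD' hD₁ f (ι₁ f) (hι₁ f).symm
  have hLL : L' ≤ L₁ := by
    intro y hy
    obtain ⟨x, -, hx⟩ := RedData.exists_rd_eq (D := D') (⟨y, hy⟩ : L')
    have h1 := (hc11 x).2
    rw [hx] at h1
    have h2 : y = ((D₁.rd (ι₁ x) : L₁) : LaurentSeries (kA A)) := h1
    rw [h2]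
    exact (D₁.rd (ι₁ x)).2
  let j : L' →ₐ[kA A] L₁ := IntermediateField.inclusion hLL
  have hj : ∀ y : L', ((j y : L₁) : LaurentSeries (kA A)) = (y : LaurentSeries (kA A)) :=
    fun y => IntermediateField.coe_inclusion hLL y
  let τ : kA A →+* kA A := frobenius (kA A) r
  let τ' : kA A →+* kA A := ((frobeniusEquiv (kA A) r).symm : kA A ≃+* kA A)
  have hτ : ∀ c, τ c = c ^ r := fun c => frobenius_def r c
  have hττ' : τ.comp τ' = RingHom.id _ := RingHom.ext fun c => by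
    show frobenius (kA A) r ((frobeniusEquiv (kA A) r).symm c) = c
    exact frobenius_apply_frobeniusEquiv_symm (kA A) r c
  have hτ'τ : τ'.comp τ = RingHom.id _ := RingHom.ext fun c => by
    show (frobeniusEquiv (kA A) r).symm (frobenius (kA A) r c) = c
    exact frobeniusEquiv_symm_apply_frobenius (kA A) r c
  have hFrmem : ∀ y ∈ L', S28.Vq (kA A) r y ∈ L' := by
    intro y hy
    rw [hL'] at hy ⊢
    obtain ⟨g, hg, hgy⟩ := hF2 y hy
    rw [← hgy]
    exact pow_mem hg r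
  have hφmem : ∀ σ : kA A →+* kA A, ∀ y ∈ L', coeffMap σ y ∈ L' := by
    intro σ y hy
    rw [hL'] at hy ⊢
    exact hF1 σ y hy
  let Fr : L' →+* L' := T1_restr L' L' (S28.Vq (kA A) r) hFrmem
  let φb : L' ≃+* L' := RingEquiv.ofRingHom (T1_restr L' L' (coeffMap τ) (hφmem τ))
    (T1_restr L' L' (coeffMap τ') (hφmem τ'))
    (RingHom.ext fun y => Subtype.ext (by
      show coeffMap τ (coeffMap τ' (y : LaurentSeries (kA A))) = y
      rw [coeffMap_coeffMap, hττ', coeffMap_id]))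
    (RingHom.ext fun y => Subtype.ext (by
      show coeffMap τ' (coeffMap τ (y : LaurentSeries (kA A))) = y
      rw [coeffMap_coeffMap, hτ'τ, coeffMap_id]))
  have hFr : ∀ y : L', ((Fr y : L') : LaurentSeries (kA A)) =
      S28.Vq (kA A) r (y : LaurentSeries (kA A)) := fun y => rfl
  have hφb : ∀ y : L', ((φb y : L') : LaurentSeries (kA A)) =
      coeffMap τ (y : LaurentSeries (kA A)) := fun y => rfl
  have hφb' : ∀ y : L', ((φb.symm y : L') : LaurentSeries (kA A)) =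
      coeffMap τ' (y : LaurentSeries (kA A)) := fun y => rfl
  have hc12 : ∀ f ∈ D'.O, ι₂ f ∈ D₁.O ∧ D₁.rd (ι₂ f) = j (Fr (D'.rd f)) := by
    intro f hf
    have h1 := hRV (M * r) A L₁ D₁ hD₁ r (ι₁ f) (ι₂ f) (by rw [hι₂, hι₁]) ((hc11 f).1.1 hf)
    refine ⟨h1.1, Subtype.ext ?_⟩
    rw [h1.2, hj, hFr, (hc11 f).2]
  have hW1 : ∀ f : FL M, W (ι₁ f) = ι₂ f := fun f =>
    hWV (ι₁ f) (ι₂ f) (by rw [hι₁]; exact f.2) (by rw [hι₂, hι₁])
  have hW2 : ∀ f : FL M, W (ι₂ f) = ι₁ f := fun f => by rw [← hW1, hWW]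
  refine ⟨ι₁, ι₂, j, Fr, φb, τ, ⟨hι₁, hι₂, hj, hFr, hφb, hτ⟩, ?_⟩
  refine
    { A₁ := by rw [hD₁.gauss.hA, hD'.gauss.hA]
      A₂ := by rw [twist_A, hD₁.gauss.hA, hD'.gauss.hA]
      ra₁ := T1_ra_eq A D₁ D' hD₁.gauss.hA hD'.gauss.hA hD₁.gauss.ra hD'.gauss.ra
      ra₂ := fun a => by
        rw [twist_ra]
        exact T1_ra_eq A D₁ D' hD₁.gauss.hA hD'.gauss.hA hD₁.gauss.ra hD'.gauss.ra a
      c11 := fun f hf => ⟨(hc11 f).1.1 hf, Subtype.ext (by rw [hj, (hc11 f).2])⟩
      c12 := hc12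
      c21 := fun f hf => by
        rw [mem_twist_O, twist_rd, hW1]
        exact hc12 f hf
      c22 := fun f hf => by
        rw [mem_twist_O, twist_rd, hW2]
        exact ⟨(hc11 f).1.1 hf, Subtype.ext (by rw [hj, (hc11 f).2])⟩
      frob := fun y => Subtype.ext (by
        rw [hFr, hφb, ← S28.tower_coeffMap_Vq]
        exact (hF3 τ hτ (y : LaurentSeries (kA A))).symm)
      two_le := hrP.two_le
      φk := fun c => ⟨τ c, Subtype.ext (by
        rw [hφb]
        exact coeffMap_algebraMap τ c)⟩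
      φk' := fun c => ⟨τ' c, Subtype.ext (by
        rw [hφb']
        exact coeffMap_algebraMap τ' c)⟩ }

end Fermat.Agent.BR.Inst

end
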