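import Fermat.Agent.BR.Inst.Interface
import Fermat.Agent.INJ.Inst.Fricke

/-!
# BR / Inst : [AL] the Atkin-Lehner involution `w_Q` of `FL (M * Q)`, `gcd (M, Q) = 1`
-/

set_option autoImplicit false
set_option synthInstance.maxHeartbeats 400000

noncomputable section

namespace Fermat.Agent.BR.Inst

open AlgebraicCurve ModularCurve UpperHalfPlane
open Fermat.Agent Fermat.Agent.INJ Fermat.Agent.INJ.Inst
open Fermat.Agent.S24 (Qbar FF funAlg jFun jFunD jAlg jBar)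
open Fermat.Agent.S24.QX (qExpHom)
open scoped MatrixGroups

attribute [local instance] Fermat.Agent.S24.algQbarComplex

/-- an element of `SL(2, ℤ)` given by its entries. -/
def AL_mat (a b c d : ℤ) (h : a * d - b * c = 1) : SL(2, ℤ) :=
  ⟨!![a, b; c, d], by rw [Matrix.det_fin_two_of]; exact h⟩

theorem AL_coe_smul (a b c d : ℤ) (h : a * d - b * c = 1) (z : ℍ) :
    ((AL_mat a b c d h • z : ℍ) : ℂ) = ((a : ℂ) * z + b) / ((c : ℂ) * z + d) := by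
  rw [coe_specialLinearGroup_apply]
  simp [AL_mat]

/-- Bezout data for `w_Q`. -/
structure AL_Bez (M Q : ℕ) (b δ : ℤ) : Prop where
  M_pos : 0 < M
  Q_pos : 0 < Q
  eq : (Q : ℤ) * δ - M * b = 1

theorem AL_exists_bez {M Q : ℕ} (hM : 0 < M) (hQ : 0 < Q) (h : Nat.Coprime M Q) :
    ∃ b δ : ℤ, AL_Bez M Q b δ := by
  have h1 := Nat.gcd_eq_gcd_ab M Q
  rw [h] at h1
  refine ⟨-Nat.gcdA M Q, Nat.gcdB M Q, hM, hQ, ?_⟩
  push_cast at h1
  linarith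

variable {M Q : ℕ} {b δ : ℤ}

/-- `τ ↦ (Qτ + b) / (MQτ + Qδ)`. -/
def AL_W (hB : AL_Bez M Q b δ) (τ : ℍ) : ℍ :=
  AL_mat 1 b M (Q * δ) (by have := hB.eq; linarith) • (ofComplex ((Q : ℂ) * (τ : ℂ)))

theorem AL_coe_W (hB : AL_Bez M Q b δ) (τ : ℍ) :
    ((AL_W hB τ : ℍ) : ℂ) = ((Q : ℂ) * τ + b) / ((M : ℂ) * ((Q : ℂ) * τ) + (Q : ℂ) * δ) := by
  rw [AL_W, AL_coe_smul, S24.QX.coe_ofComplex_natCast_mul hB.Q_pos]
  push_cast
  rw [one_mul]

theorem AL_denom_ne_zero {m : ℕ} (hm : 0 < m) (δ : ℤ) (τ : ℍ) : (m : ℂ) * (τ : ℂ) + δ ≠ 0 := by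
  intro h
  have h1 := congrArg Complex.im h
  simp only [Complex.add_im, Complex.mul_im, Complex.natCast_re, Complex.natCast_im, zero_mul,
    add_zero, Complex.intCast_im, Complex.zero_im] at h1
  have h2 : 0 < (m : ℝ) * (τ : ℂ).im := mul_pos (by exact_mod_cast hm) τ.im_pos
  exact h2.ne' h1

theorem AL_jFunD {d d' e e' : ℕ} (hB : AL_Bez (d * d') (e * e') b δ) (τ : ℍ) :
    jFunD (d * e) (AL_W hB τ) = jFunD (d * e') τ := by
  have hd : 0 < d := Nat.pos_of_mul_pos_right hB.M_pos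
  have hd' : 0 < d' := Nat.pos_of_mul_pos_left hB.M_pos
  have he : 0 < e := Nat.pos_of_mul_pos_right hB.Q_pos
  have he' : 0 < e' := Nat.pos_of_mul_pos_left hB.Q_pos
  have hdet : (e : ℤ) * (e' * δ) - d * b * d' = 1 := by
    have := hB.eq
    push_cast at this
    linarith
  unfold jFunD
  have h : ((d * e : ℕ) : ℂ) * ((AL_W hB τ : ℍ) : ℂ) =
      ((AL_mat e (d * b) d' (e' * δ) hdet • (ofComplex (((d * e' : ℕ) : ℂ) * (τ : ℂ))) : ℍ) : ℂ) := by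
    rw [AL_coe_W, AL_coe_smul, S24.QX.coe_ofComplex_natCast_mul (Nat.mul_pos hd he')]
    have hX := AL_denom_ne_zero hB.M_pos δ τ
    have h1 : (d : ℂ) ≠ 0 := by exact_mod_cast hd.ne'
    have h2 : (e : ℂ) ≠ 0 := by exact_mod_cast he.ne'
    have h3 : (e' : ℂ) ≠ 0 := by exact_mod_cast he'.ne'
    push_cast at hX ⊢
    have e1 : (d : ℂ) * d' * ((e : ℂ) * e' * τ) + (e : ℂ) * e' * δ =
        (e : ℂ) * e' * ((d : ℂ) * d' * τ + δ) := by ring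
    have e2 : (d' : ℂ) * ((d : ℂ) * e' * τ) + (e' : ℂ) * δ = (e' : ℂ) * ((d : ℂ) * d' * τ + δ) := by
      ring
    rw [e1, e2]
    field_simp
  rw [h, ofComplex_apply, S24.jFun_smul]

/-- precomposition with `AL_W`. -/
def AL_pre (hB : AL_Bez M Q b δ) : (ℍ → ℂ) →ₐ[Qbar] (ℍ → ℂ) where
  toFun θ := fun τ => θ (AL_W hB τ)
  map_one' := rfl
  map_mul' _ _ := rfl
  map_zero' := rfl
  map_add' _ _ := rfl
  commutes' _ := rfl

theorem AL_pre_jFunD (hB : AL_Bez M Q b δ) {d e : ℕ} (hd : d ∣ M) (he : e ∣ Q) :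
    AL_pre hB (jFunD (d * e)) = jFunD (d * (Q / e)) := by
  obtain ⟨d', rfl⟩ := hd
  obtain ⟨e', rfl⟩ := he
  have he0 : 0 < e := Nat.pos_of_mul_pos_right hB.Q_pos
  rw [Nat.mul_div_cancel_left _ he0]
  funext τ
  exact AL_jFunD hB τ

theorem AL_pre_mem (hB : AL_Bez M Q b δ) {θ : ℍ → ℂ} (hθ : θ ∈ funAlg (M * Q)) :
    AL_pre hB θ ∈ funAlg (M * Q) := by
  have : funAlg (M * Q) ≤ (funAlg (M * Q)).comap (AL_pre hB) := by
    refine Algebra.adjoin_le ?_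
    rintro _ ⟨n, hn, rfl⟩
    obtain ⟨d, e, hd, he, rfl⟩ := (Nat.dvd_mul).1 hn
    show AL_pre hB (jFunD (d * e)) ∈ funAlg (M * Q)
    rw [AL_pre_jFunD hB hd he]
    exact S24.jFunD_mem_funAlg (Nat.mul_dvd_mul hd (Nat.div_dvd_of_dvd he))
  exact this hθ

theorem AL_pre_pre (hB : AL_Bez M Q b δ) {θ : ℍ → ℂ} (hθ : θ ∈ funAlg (M * Q)) :
    AL_pre hB (AL_pre hB θ) = θ := by
  have : funAlg (M * Q) ≤ AlgHom.equalizer ((AL_pre hB).comp (AL_pre hB)) (AlgHom.id Qbar _) := by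
    refine Algebra.adjoin_le ?_
    rintro _ ⟨n, hn, rfl⟩
    obtain ⟨d, e, hd, he, rfl⟩ := (Nat.dvd_mul).1 hn
    show AL_pre hB (AL_pre hB (jFunD (d * e))) = jFunD (d * e)
    rw [AL_pre_jFunD hB hd he, AL_pre_jFunD hB hd (Nat.div_dvd_of_dvd he),
      Nat.div_div_self he hB.Q_pos.ne']
  exact this hθ

/-- `w_Q` on `funAlg (M * Q)`. -/
def AL_alg (hB : AL_Bez M Q b δ) : funAlg (M * Q) →ₐ[Qbar] funAlg (M * Q) :=
  ((AL_pre hB).comp (funAlg (M * Q)).val).codRestrict (funAlg (M * Q))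
    (fun θ => AL_pre_mem hB θ.2)

theorem AL_alg_alg (hB : AL_Bez M Q b δ) (θ : funAlg (M * Q)) :
    AL_alg hB (AL_alg hB θ) = θ :=
  Subtype.ext (AL_pre_pre hB θ.2)

theorem AL_alg_injective (hB : AL_Bez M Q b δ) : Function.Injective (AL_alg hB) :=
  Function.LeftInverse.injective (AL_alg_alg hB)

theorem AL_alg_jAlg (hB : AL_Bez M Q b δ) {d e : ℕ} (hd : d ∣ M) (he : e ∣ Q) :
    AL_alg hB (jAlg (M * Q) (d * e) (Nat.mul_dvd_mul hd he)) =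
      jAlg (M * Q) (d * (Q / e)) (Nat.mul_dvd_mul hd (Nat.div_dvd_of_dvd he)) :=
  Subtype.ext (AL_pre_jFunD hB hd he)

variable [NeZero (M * Q)]

/-- `w_Q` on `FF (M * Q)`, as a homomorphism. -/
def AL_hom (hB : AL_Bez M Q b δ) : FF (M * Q) →ₐ[Qbar] FF (M * Q) :=
  S24.liftHom (qExpHom (M * Q)) (S24.QX.qExpHom_injective (M * Q)) (fricke_frac (M * Q))
    ((qExpHom (M * Q)).comp (AL_alg hB))
    ((S24.QX.qExpHom_injective (M * Q)).comp (AL_alg_injective hB))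

theorem AL_hom_qExpHom (hB : AL_Bez M Q b δ) (θ : funAlg (M * Q)) :
    AL_hom hB (qExpHom (M * Q) θ) = qExpHom (M * Q) (AL_alg hB θ) :=
  S24.liftHom_apply _ _ _ _ _ θ

theorem AL_hom_comp_self (hB : AL_Bez M Q b δ) :
    (AL_hom hB).comp (AL_hom hB) = AlgHom.id Qbar (FF (M * Q)) := by
  refine S24.algHom_ext_of_frac (qExpHom (M * Q)) (S24.QX.qExpHom_injective (M * Q))
    (fricke_frac (M * Q)) _ _ ?_
  intro θ
  rw [AlgHom.comp_apply, AL_hom_qExpHom, AL_hom_qExpHom, AL_alg_alg]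
  rfl

/-- `w_Q` on `FF (M * Q)`. -/
def AL_equiv (hB : AL_Bez M Q b δ) : FF (M * Q) ≃ₐ[Qbar] FF (M * Q) :=
  AlgEquiv.ofAlgHom (AL_hom hB) (AL_hom hB) (AL_hom_comp_self hB) (AL_hom_comp_self hB)

omit [NeZero (M * Q)] in
theorem stmt_AL : Stmt_AL := by
  intro M Q _ hMQ
  have hpos : 0 < M * Q := NeZero.pos _
  have hM : 0 < M := Nat.pos_of_mul_pos_right hpos
  have hQ : 0 < Q := Nat.pos_of_mul_pos_left hpos
  obtain ⟨b, δ, hB⟩ := AL_exists_bez hM hQ hMQ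
  refine ⟨AL_equiv hB, ?_⟩
  intro d e hd he x y hx hy
  have hd0 : 0 < d := Nat.pos_of_dvd_of_pos hd hM
  have he0 : 0 < e := Nat.pos_of_dvd_of_pos he hQ
  have he0' : 0 < Q / e := Nat.div_pos (Nat.le_of_dvd hQ he) he0
  have h1 : NeZero (d * e) := ⟨(Nat.mul_pos hd0 he0).ne'⟩
  have h2 : NeZero (d * (Q / e)) := ⟨(Nat.mul_pos hd0 he0').ne'⟩
  have hx' : x = jBar (M * Q) (d * e) (Nat.mul_dvd_mul hd he) :=
    Subtype.ext (by rw [hx, fricke_coe_jBar])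
  have hy' : y = jBar (M * Q) (d * (Q / e)) (Nat.mul_dvd_mul hd (Nat.div_dvd_of_dvd he)) :=
    Subtype.ext (by rw [hy, fricke_coe_jBar])
  show AL_hom hB x = y
  rw [hx', hy', ← S24.QX.qExpHom_jAlg, AL_hom_qExpHom, AL_alg_jAlg hB hd he, S24.QX.qExpHom_jAlg]

end Fermat.Agent.BR.Inst

end
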