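import Fermat.Agent.BR.Inst.Interface

/-!
# BR / Inst, [AP] : abstract weak approximation from one separating element (`Stmt_Approx`)
-/

set_option autoImplicit false

noncomputable section

namespace Fermat.Agent.BR.Inst

open Fermat.Agent Fermat.Agent.INJ

theorem stmt_Approx : Stmt_Approx := by
  intro K F k Fb _ _ _ _ _ _ D₁ D₂ hA hArch hε y
  obtain ⟨ε, hε1, hε2, hr1, hr2⟩ := hε
  obtain ⟨x0, hx0, rfl⟩ := RedData.exists_rd_eq (D := D₁) y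
  by_cases h0 : x0 = 0
  · subst h0
    exact ⟨0, D₁.O.zero_mem, D₂.O.zero_mem, rfl, RedData.rd_zero⟩
  have hε0 : ε ≠ 0 := by
    rintro rfl
    rw [RedData.rd_zero] at hr1
    exact zero_ne_one hr1
  obtain ⟨a, ha0, ha1, ha2⟩ := D₂.unram x0 h0
  obtain ⟨b, hb0, hb1, hb2⟩ := D₂.unram ε hε0
  have hb0' : algebraMap K F b ≠ 0 := (_root_.map_ne_zero _).2 hb0
  have ha0' : algebraMap K F a ≠ 0 := (_root_.map_ne_zero _).2 ha0
  -- `π = b⁻¹`
  have hπe : algebraMap K F b⁻¹ = ε * (ε * algebraMap K F b)⁻¹ := by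
    rw [map_inv₀]; field_simp
  have hπO2 : algebraMap K F b⁻¹ ∈ D₂.O := by rw [hπe]; exact mul_mem hε2 hb2
  have hπA2 : b⁻¹ ∈ D₂.A := (D₂.mem_iff _).1 hπO2
  have hπA1 : b⁻¹ ∈ D₁.A := by rw [hA]; exact hπA2
  have hπr2 : D₂.rd (algebraMap K F b⁻¹) = 0 := by
    rw [hπe, RedData.rd_mul hε2 hb2, hr2, zero_mul]
  have hπr1 : D₁.ra b⁻¹ = 0 := by
    by_contra hne
    have h1 : D₁.rd (algebraMap K F b⁻¹) ≠ 0 := by
      rw [RedData.rd_algebraMap hπA1]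
      exact (_root_.map_ne_zero _).2 hne
    have h2 := RedData.inv_mem_of_rd_ne_zero h1
    rw [← map_inv₀, inv_inv] at h2
    have h3 : b ∈ D₂.A := by rw [← hA]; exact (D₁.mem_iff _).1 h2
    have h4 : algebraMap K F b ∈ D₂.O := RedData.algebraMap_mem h3
    have h5 : D₂.rd (algebraMap K F b⁻¹) * D₂.rd (algebraMap K F b) = 1 := by
      rw [← RedData.rd_mul hπO2 h4, ← map_mul, inv_mul_cancel₀ hb0, map_one, RedData.rd_one]
    rw [hπr2, zero_mul] at h5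
    exact zero_ne_one h5
  obtain ⟨n, hn⟩ := hArch b⁻¹ hπA1 hπr1 a ha0
  have hn2 : b⁻¹ ^ n * a⁻¹ ∈ D₂.A := by rw [← hA]; exact hn
  have hnO2 : algebraMap K F (b⁻¹ ^ n * a⁻¹) ∈ D₂.O := RedData.algebraMap_mem hn2
  have hxe : ε ^ (n + 1) * x0 = ((ε * algebraMap K F b) ^ (n + 1) * (x0 * algebraMap K F a)) *
      (algebraMap K F b⁻¹ * algebraMap K F (b⁻¹ ^ n * a⁻¹)) := by
    simp only [map_mul, map_inv₀, map_pow, inv_pow, mul_pow]
    field_simp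
    ring
  have hu : (ε * algebraMap K F b) ^ (n + 1) * (x0 * algebraMap K F a) ∈ D₂.O :=
    mul_mem (pow_mem hb1 _) ha1
  refine ⟨ε ^ (n + 1) * x0, mul_mem (pow_mem hε1 _) hx0, ?_, ?_, ?_⟩
  · rw [hxe]; exact mul_mem hu (mul_mem hπO2 hnO2)
  · rw [RedData.rd_mul (pow_mem hε1 _) hx0, RedData.rd_pow hε1, hr1, one_pow, one_mul]
  · rw [hxe, RedData.rd_mul hu (mul_mem hπO2 hnO2), RedData.rd_mul hπO2 hnO2, hπr2, zero_mul,
      mul_zero]

end Fermat.Agent.BR.Inst
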