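import Fermat.Agent.BR.Inst.Interface
import Fermat.Agent.INJ.Inst.ChartT
import Fermat.Agent.S18.Glue28
import Fermat.Agent.ES.Mid.HF3
import Fermat.Agent.S28.FN7f
import Fermat.Agent.S28.BaseChange

/-!
# BR / Inst, package [BS] (helper81): basic facts on `s`, `sr`, the separating element.
-/

set_option autoImplicit false
set_option synthInstance.maxHeartbeats 400000
set_option linter.unusedSectionVars false

noncomputable section

namespace Fermat.Agent.BR.Inst

open AlgebraicCurve ModularCurve IntermediateField Polynomial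
open Fermat.Agent Fermat.Agent.INJ Fermat.Agent.INJ.Inst

/-! ### the series `sS` -/

theorem BS_coeffMap_sS {R S : Type} [CommRing R] [CommRing S] (f : R →+* S) (d c : ℕ) :
    coeffMap f (sS d c R) = sS d c S := by
  rw [sS, map_sub, coeffMap_jd, map_natCast, sS]

theorem BS_Vq_sS (R : Type) [CommRing R] {p d : ℕ} (hp : p ≠ 0) (hd : d ≠ 0) (c : ℕ) :
    S28.Vq R p (sS d c R) = sS (p * d) c R := by
  rw [sS, map_sub, map_natCast, S28.jd, S28.tower_Vq_Vq R hp hd, sS, S28.jd]

theorem BS_coeff_natCast (R : Type) [CommRing R] (c : ℕ) {n : ℤ} (hn : n ≠ 0) :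
    ((c : LaurentSeries R)).coeff n = 0 := by
  have : (c : LaurentSeries R) = HahnSeries.C (c : R) := (map_natCast _ c).symm
  rw [this, HahnSeries.C_apply, HahnSeries.coeff_single_of_ne hn]

theorem BS_transcendental_sS (k : Type) [Field k] {d : ℕ} (hd : d ≠ 0) (c : ℕ) :
    Transcendental k (sS d c k) := by
  have hd' : -(d : ℤ) < 0 := by
    have := Nat.pos_of_ne_zero hd
    omega
  refine transcendental_of_coeff k (n := -(d : ℤ)) hd' ?_
  rw [sS, HahnSeries.coeff_sub, coeff_jd k hd, BS_coeff_natCast k c hd'.ne, sub_zero]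
  exact one_ne_zero

/-! ### integrality from a two variable equation -/

theorem BS_isInt_of_ev2 {K : Type} [Field K] {E : IntermediateField K (LaurentSeries K)}
    (Φ : K[X][X]) (hΦ : Φ.Monic) (x y : E)
    (h : S28.ev2 Φ (x : LaurentSeries K) (y : LaurentSeries K) = 0) : IsInt K y x := by
  unfold IsInt
  set R := Algebra.adjoin K {y} with hR
  let yR : R := ⟨y, Algebra.subset_adjoin (Set.mem_singleton y)⟩
  let φ : K[X] →+* R := (aeval yR).toRingHom
  refine ⟨Φ.map φ, hΦ.map φ, ?_⟩
  rw [Polynomial.eval₂_map]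
  apply E.val.injective
  rw [map_zero]
  have h1 := Polynomial.hom_eval₂ Φ ((algebraMap R E).comp φ) (E.val : E →+* LaurentSeries K) x
  have h2 : ((E.val : E →+* LaurentSeries K).comp ((algebraMap R E).comp φ))
      = S28.evY (y : LaurentSeries K) := by
    apply Polynomial.ringHom_ext
    · intro a
      have e1 : φ (C a) = algebraMap K R a := by
        show aeval yR (C a) = _
        rw [aeval_C]
      simp only [RingHom.comp_apply, e1]
      rw [S28.evY, Polynomial.coe_eval₂RingHom, Polynomial.eval₂_C]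
      show algebraMap K (LaurentSeries K) a = _
      rw [algebraMap_laurentSeries_eq_single]
      rfl
    · have e1 : φ X = yR := by
        show aeval yR X = _
        rw [aeval_X]
      simp only [RingHom.comp_apply, e1]
      rw [S28.evY, Polynomial.coe_eval₂RingHom, Polynomial.eval₂_X]
      rfl
  rw [h2] at h1
  exact h1.trans h

theorem BS_isInt_natCast {K F : Type} [Field K] [Field F] [Algebra K F] (t : F) (c : ℕ) :
    IsInt K t (c : F) := by
  unfold IsInt
  have := isIntegral_algebraMap (R := Algebra.adjoin K {t}) (A := F) (x := (c : Algebra.adjoin K {t}))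
  rwa [map_natCast] at this

theorem BS_isInt_self {K F : Type} [Field K] [Field F] [Algebra K F] (t : F) : IsInt K t t := by
  unfold IsInt
  exact isIntegral_algebraMap (R := Algebra.adjoin K {t}) (A := F)
    (x := ⟨t, Algebra.subset_adjoin (Set.mem_singleton t)⟩)

/-- shifting both coordinates by integers. -/
theorem BS_isInt_shift {K F : Type} [Field K] [Field F] [Algebra K F] {t x : F} (c : ℕ)
    (h : IsInt K t x) : IsInt K (t - c) (x - c) := by
  have h1 : IsInt K (t - c) t := by
    have : t = (t - c) + c := by ring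
    nth_rewrite 2 [this]
    exact IsIntegral.add (BS_isInt_self _) (BS_isInt_natCast _ c)
  exact IsIntegral.sub (isInt_trans h1 h) (BS_isInt_natCast _ c)

set_option maxHeartbeats 1000000 in
theorem stmt_BasicS (hF : Stmt_FrobKf) : Stmt_BasicS := by
  intro a M r _ A L D W s sr hG
  obtain ⟨hctx, hgauss, hal, hs, hsr⟩ := hG
  have hr : r.Prime := hctx.hr
  have : Fact r.Prime := ⟨hr⟩
  have hN : M * r ≠ 0 := NeZero.ne _
  have hM : M ≠ 0 := fun h => hN (by rw [h, zero_mul])
  have hr0 : r ≠ 0 := hr.ne_zero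
  set c : ℕ := cJ a with hc
  have : IsAlgClosed (kA A) := S18G.isAlgClosed_kA A
  have : CharP (kA A) r := ES.Mid.HF3.charP_residue A r hctx.hA
  -- the elements `j(q^M)`, `j(q^(M r))`
  let jM : FL (M * r) := ⟨S28.jd Qb M, jd_mem_bar hN (Dvd.intro r rfl)⟩
  let jMr : FL (M * r) := ⟨S28.jd Qb (M * r), jd_mem_bar hN dvd_rfl⟩
  have hsj : s = jM - (c : FL (M * r)) := by
    apply Subtype.ext
    rw [hs, sS]
    push_cast
    rfl
  have hsrj : sr = jMr - (c : FL (M * r)) := by
    apply Subtype.ext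
    rw [hsr, sS]
    push_cast
    rfl
  have hW1 : W jM = jMr := by
    refine hal M 1 dvd_rfl (one_dvd r) jM jMr ?_ ?_
    · rw [mul_one]
    · rw [Nat.div_one]
  have hW2 : W jMr = jM := by
    refine hal M r dvd_rfl dvd_rfl jMr jM rfl ?_
    rw [Nat.div_self hr.pos, mul_one]
  have hWs : W s = sr := by rw [hsj, hsrj, map_sub, map_natCast, hW1]
  have hWsr : W sr = s := by rw [hsj, hsrj, map_sub, map_natCast, hW2]
  -- reductions
  obtain ⟨hsO, hsb⟩ := hgauss.gauss.mem_rd (sS M c A) s (by rw [hs, BS_coeffMap_sS])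
  rw [BS_coeffMap_sS] at hsb
  obtain ⟨hsrO, hsrb⟩ := hgauss.gauss.mem_rd (sS (M * r) c A) sr (by rw [hsr, BS_coeffMap_sS])
  rw [BS_coeffMap_sS] at hsrb
  have hpow : D.rd sr = D.rd s ^ r := by
    apply Subtype.ext
    rw [hsrb]
    push_cast
    rw [hsb, (hF (kA A) r M).2.2 (frobenius (kA A) r) (fun x => rfl) (sS M c (kA A)),
      BS_Vq_sS _ hr0 hM, BS_coeffMap_sS, mul_comm]
  have htr : Transcendental (kA A) (D.rd s) :=
    transcendental_of_coe (by rw [hsb]; exact BS_transcendental_sS _ hM c)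
  -- integrality
  obtain ⟨Φ, hΦm, -, hΦ1, hΦ2⟩ := S28.FN7.hasModPoly Qb hr
  have hVr : S28.Vq Qb M (S28.jd Qb r) = S28.jd Qb (M * r) := by
    rw [S28.jd, S28.tower_Vq_Vq Qb hM hr0, S28.jd]
  have hI1 : IsInt Qb jM jMr := by
    refine BS_isInt_of_ev2 Φ hΦm jMr jM ?_
    have := congrArg (S28.Vq Qb M) hΦ1
    rw [S28.BC.Vq_ev2, hVr, map_zero] at this
    exact this
  have hI2 : IsInt Qb jMr jM := by
    refine BS_isInt_of_ev2 Φ hΦm jM jMr ?_
    have := congrArg (S28.Vq Qb M) hΦ2
    rw [S28.BC.Vq_ev2, hVr, map_zero] at this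
    exact this
  have hInt1 : IsInt Qb s sr := by
    rw [hsj, hsrj]; exact BS_isInt_shift c hI1
  have hInt2 : IsInt Qb sr s := by
    rw [hsj, hsrj]; exact BS_isInt_shift c hI2
  refine ⟨hWs, hWsr, hsO, hsrO, hsb, hpow, htr, hInt1, hInt2, ?_⟩
  -- the separating element
  set a1 : FL (M * r) := sr - s ^ r with ha1
  set b1 : FL (M * r) := s - sr ^ r with hb1
  have ha1O : a1 ∈ D.O := sub_mem hsrO (pow_mem hsO r)
  have hb1O : b1 ∈ D.O := sub_mem hsO (pow_mem hsrO r)
  have hra1 : D.rd a1 = 0 := by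
    rw [ha1, RedData.rd_sub hsrO (pow_mem hsO r), RedData.rd_pow hsO, hpow, sub_self]
  have hrb1 : D.rd b1 ≠ 0 := by
    rw [hb1, RedData.rd_sub hsO (pow_mem hsrO r), RedData.rd_pow hsrO, hpow, ← pow_mul]
    intro h0
    have h1 : aeval (D.rd s) (X - X ^ (r * r) : (kA A)[X]) = 0 := by
      rw [map_sub, map_pow, aeval_X]; exact h0
    have h2 := (transcendental_iff.mp htr) _ h1
    have h3 := congrArg (fun p : (kA A)[X] => p.coeff 1) h2
    have hrr : r * r ≠ 1 := by
      have := hr.two_le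
      nlinarith
    simp only [coeff_sub, coeff_X_one, coeff_X_pow, coeff_zero] at h3
    rw [if_neg (fun h => hrr h.symm), sub_zero] at h3
    exact one_ne_zero h3
  have hWa : W a1 = b1 := by rw [ha1, hb1, map_sub, map_pow, hWs, hWsr]
  have hWb : W b1 = a1 := by rw [ha1, hb1, map_sub, map_pow, hWs, hWsr]
  have hsum : D.rd (a1 + b1) = D.rd b1 := by rw [RedData.rd_add ha1O hb1O, hra1, zero_add]
  have hsum0 : D.rd (a1 + b1) ≠ 0 := by rw [hsum]; exact hrb1
  have hWε : W (b1 / (a1 + b1)) = a1 / (a1 + b1) := by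
    rw [map_div₀, map_add, hWa, hWb, add_comm]
  refine ⟨b1 / (a1 + b1), ⟨RedData.div_mem hb1O hsum0, ?_⟩, ?_⟩
  · rw [hWε]; exact RedData.div_mem ha1O hsum0
  · unfold rd2
    rw [hWε, RedData.rd_div hb1O hsum0, RedData.rd_div ha1O hsum0, hsum, hra1, div_self hrb1,
      zero_div]

end Fermat.Agent.BR.Inst

end
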