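import Fermat.Agent.INJ.Inst.Gauss
import Fermat.Agent.INJ.Inst.Basic
import Fermat.Agent.BR.Inv.AlgDefs
import Fermat.Agent.ES.Mid.Defs

/-!
# BR / Inst : instantiation of the bad reduction package at level `N = M * r`, `r ∤ M` (definitions)

`K = ℚ̄`, `A` a valuation ring of `ℚ̄` over the prime `r`, `k = kA A`, `F = FL (M * r)`.
* `D` : the `q`-Gauss reduction datum of `F` (`IsGaussS`: strong form, ratios), residue field `L`.
* `W` : the Atkin-Lehner involution `w_r` of `F` (`IsAL M r W`): `j(q^d) ↔ j(q^(d r))`, `d ∣ M`.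
* the second valuation is `D.twist W` (`O_0 = W⁻¹ O_∞`, `rd_0 = rd_∞ ∘ W`).
* `rd2 D W x = (rd_∞ x, rd_0 x) ∈ L × L`,  `InO2 D W x` : `x ∈ O_∞ ∩ O_0`.
* coordinates: `s = j(q^M) - c`, `s_r = j(q^(M r)) - c = W s`, `T = s * s_r` (`W T = T`),
  `c = cJ a` (`1728` if the auxiliary level is `a = 2`, `0` if `a = 3`).
-/

set_option autoImplicit false
set_option synthInstance.maxHeartbeats 400000

noncomputable section

namespace Fermat.Agent.BR.Inst

open AlgebraicCurve ModularCurve IntermediateField Polynomial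
open Fermat.Agent Fermat.Agent.INJ Fermat.Agent.INJ.Inst

/-- the strong form of `IsGauss`: description of `O` and of the reduction by ratios of `A`-integral
series (`INJ.Inst.exists_gauss_strong`). -/
structure IsGaussS (N : ℕ) (A : ValuationSubring Qb)
    (L : IntermediateField (kA A) (LaurentSeries (kA A)))
    (D : RedData Qb (FL N) (kA A) L) : Prop where
  gauss : IsGauss N A L D
  ratio : ∀ (x : FL N) (f g : LaurentSeries A), coeffMap (IsLocalRing.residue A) g ≠ 0 →
    (x : LaurentSeries Qb) * coeffMap A.subtype g = coeffMap A.subtype f →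
    x ∈ D.O ∧ ((D.rd x : L) : LaurentSeries (kA A)) =
      coeffMap (IsLocalRing.residue A) f / coeffMap (IsLocalRing.residue A) g
  exists_ratio : ∀ x : FL N, x ∈ D.O → ∃ f g : LaurentSeries A,
    coeffMap (IsLocalRing.residue A) g ≠ 0 ∧
    (x : LaurentSeries Qb) * coeffMap A.subtype g = coeffMap A.subtype f

theorem exists_gaussS (N : ℕ) [NeZero N] (A : ValuationSubring Qb) :
    ∃ (L : IntermediateField (kA A) (LaurentSeries (kA A))) (D : RedData Qb (FL N) (kA A) L),
      IsGaussS N A L D := by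
  obtain ⟨L, D, h1, h2, h3⟩ := exists_gauss_strong N A
  exact ⟨L, D, ⟨h1, h2, h3⟩⟩

/-- `W` is the Atkin-Lehner involution `w_Q` of `FL (M * Q)`: `j(q^(d e)) ↦ j(q^(d (Q / e)))` for
`d ∣ M`, `e ∣ Q`. -/
def IsAL (M Q : ℕ) (W : FL (M * Q) ≃ₐ[Qb] FL (M * Q)) : Prop :=
  ∀ d e : ℕ, d ∣ M → e ∣ Q → ∀ x y : FL (M * Q), (x : LaurentSeries Qb) = S28.jd Qb (d * e) →
    (y : LaurentSeries Qb) = S28.jd Qb (d * (Q / e)) → W x = y

section Twist

variable {K F k Fb : Type*} [Field K] [Field F] [Algebra K F] [Field k] [Field Fb] [Algebra k Fb]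

/-- transport of a reduction datum by an automorphism: `O' = W⁻¹ O`, `rd' = rd ∘ W`. -/
def twist (D : RedData K F k Fb) (W : F ≃ₐ[K] F) : RedData K F k Fb where
  A := D.A
  O := D.O.comap (W : F →+* F)
  rA := D.rA
  rO :=
    { toFun := fun x => D.rO ⟨W x.1, x.2⟩
      map_one' := by
        have : (⟨W (1 : F), (by rw [map_one]; exact D.O.one_mem)⟩ : D.O) = 1 :=
          Subtype.ext (map_one W)
        exact (congrArg D.rO this).trans (map_one D.rO)
      map_mul' := fun x y => by
        rw [← map_mul]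
        exact congrArg D.rO (Subtype.ext (map_mul W x.1 y.1))
      map_zero' := by
        have : (⟨W (0 : F), (by rw [map_zero]; exact D.O.zero_mem)⟩ : D.O) = 0 :=
          Subtype.ext (map_zero W)
        exact (congrArg D.rO this).trans (map_zero D.rO)
      map_add' := fun x y => by
        rw [← map_add]
        exact congrArg D.rO (Subtype.ext (map_add W x.1 y.1)) }
  rA_surj := D.rA_surj
  rO_surj := fun y => by
    obtain ⟨x, hx⟩ := D.rO_surj y
    refine ⟨⟨W.symm x.1, ?_⟩, ?_⟩
    · show W (W.symm x.1) ∈ D.O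
      rw [AlgEquiv.apply_symm_apply]; exact x.2
    · rw [← hx]
      exact congrArg D.rO (Subtype.ext (AlgEquiv.apply_symm_apply W x.1))
  mem_iff := fun a => by
    show W (algebraMap K F a) ∈ D.O ↔ _
    rw [AlgEquiv.commutes]; exact D.mem_iff a
  compat := fun a ha h => by
    have h' : algebraMap K F a ∈ D.O := (D.mem_iff a).2 ha
    rw [← D.compat a ha h']
    exact congrArg D.rO (Subtype.ext (AlgEquiv.commutes W a))
  unram := fun x hx => by
    obtain ⟨a, ha, h1, h2⟩ := D.unram (W x) ((map_ne_zero W).2 hx)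
    refine ⟨a, ha, ?_, ?_⟩
    · show W (x * algebraMap K F a) ∈ D.O
      rw [map_mul, AlgEquiv.commutes]; exact h1
    · show W (x * algebraMap K F a)⁻¹ ∈ D.O
      rw [map_inv₀, map_mul, AlgEquiv.commutes]; exact h2

@[simp] theorem twist_A (D : RedData K F k Fb) (W : F ≃ₐ[K] F) : (twist D W).A = D.A := rfl

theorem mem_twist_O (D : RedData K F k Fb) (W : F ≃ₐ[K] F) (x : F) :
    x ∈ (twist D W).O ↔ W x ∈ D.O := Iff.rfl

theorem twist_rd (D : RedData K F k Fb) (W : F ≃ₐ[K] F) (x : F) :
    (twist D W).rd x = D.rd (W x) := by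
  by_cases h : W x ∈ D.O
  · rw [RedData.rd_of_mem h, RedData.rd_of_mem ((mem_twist_O D W x).2 h)]
    rfl
  · rw [RedData.rd_of_not_mem h, RedData.rd_of_not_mem (fun h' => h ((mem_twist_O D W x).1 h'))]

theorem twist_ra (D : RedData K F k Fb) (W : F ≃ₐ[K] F) (a : K) : (twist D W).ra a = D.ra a := rfl

/-- `x ∈ O_∞ ∩ O_0`. -/
def InO2 (D : RedData K F k Fb) (W : F ≃ₐ[K] F) (x : F) : Prop := x ∈ D.O ∧ W x ∈ D.O

/-- the reduction `(rd_∞, rd_0) : F → Fb × Fb`. -/
def rd2 (D : RedData K F k Fb) (W : F ≃ₐ[K] F) (x : F) : Fb × Fb := (D.rd x, D.rd (W x))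

end Twist

/-! ### integrality calculus -/

/-- transitivity of integrality: `s` integral over `K[t]`, `x` integral over `K[s]`. -/
theorem isInt_trans {K F : Type*} [Field K] [Field F] [Algebra K F] {t s x : F}
    (hs : IsInt K t s) (hx : IsInt K s x) : IsInt K t x := by
  unfold IsInt at *
  set R := Algebra.adjoin K {t} with hR
  let C : Subalgebra R F := integralClosure R F
  have hK : ∀ a : K, algebraMap K F a ∈ C := fun a =>
    isIntegral_algebraMap (R := R) (x := (algebraMap K R a))
  have hle : ∀ y ∈ Algebra.adjoin K {s}, y ∈ C := by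
    intro y hy
    induction hy using Algebra.adjoin_induction with
    | mem y hy => rw [Set.mem_singleton_iff] at hy; subst hy; exact hs
    | algebraMap a => exact hK a
    | add y z _ _ hy hz => exact C.add_mem hy hz
    | mul y z _ _ hy hz => exact C.mul_mem hy hz
  obtain ⟨p, hp, hpx⟩ := hx
  have hxC : IsIntegral C x := by
    let φ : Algebra.adjoin K {s} →+* C :=
      { toFun := fun y => ⟨y.1, hle y.1 y.2⟩
        map_one' := rfl
        map_mul' := fun _ _ => rfl
        map_zero' := rfl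
        map_add' := fun _ _ => rfl }
    refine ⟨p.map φ, hp.map φ, ?_⟩
    rw [Polynomial.eval₂_map]
    exact hpx
  exact isIntegral_trans (R := R) (A := C) x hxC

/-- transport of integrality by a homomorphism. -/
theorem isInt_map {K F F' : Type*} [Field K] [Field F] [Algebra K F] [Field F'] [Algebra K F']
    (W : F →ₐ[K] F') {t x : F} (h : IsInt K t x) : IsInt K (W t) (W x) := by
  unfold IsInt at *
  have hmem : ∀ y ∈ Algebra.adjoin K {t}, W y ∈ Algebra.adjoin K {W t} := by
    intro y hy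
    have : (Algebra.adjoin K {t}).map W = Algebra.adjoin K {W t} := by
      rw [AlgHom.map_adjoin, Set.image_singleton]
    rw [← this]
    exact ⟨y, hy, rfl⟩
  obtain ⟨p, hp, hpx⟩ := h
  let φ : Algebra.adjoin K {t} →+* Algebra.adjoin K {W t} :=
    { toFun := fun y => ⟨W y.1, hmem y.1 y.2⟩
      map_one' := Subtype.ext (map_one W)
      map_mul' := fun a b => Subtype.ext (map_mul W a.1 b.1)
      map_zero' := Subtype.ext (map_zero W)
      map_add' := fun a b => Subtype.ext (map_add W a.1 b.1) }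
  refine ⟨p.map φ, hp.map φ, ?_⟩
  rw [Polynomial.eval₂_map]
  have h2 : (algebraMap (Algebra.adjoin K {W t}) F').comp φ =
      (W : F →+* F').comp (algebraMap (Algebra.adjoin K {t}) F) := RingHom.ext fun _ => rfl
  rw [h2]
  have h3 := Polynomial.hom_eval₂ p (algebraMap (Algebra.adjoin K {t}) F) (W : F →+* F') x
  rw [hpx, map_zero] at h3
  exact h3.symm

/-- the value of `j` that is moved to `0`: `1728` for the auxiliary level `2`, `0` for `3`. -/
def cJ (a : ℕ) : ℕ := if a = 2 then 1728 else 0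

/-- the series `j(q^d) - c`. -/
def sS (d c : ℕ) (R : Type) [CommRing R] : LaurentSeries R := S28.jd R d - (c : LaurentSeries R)

/-- `σ ∈ G_ℚ` preserves `A` and induces `τ` on the residue field. -/
def Induces (A : ValuationSubring Qb) (σ : ES.Mid.GQ) (τ : kA A →+* kA A) : Prop :=
  ∀ (a : Qb) (ha : a ∈ A), ∃ h : σ a ∈ A,
    IsLocalRing.residue A ⟨σ a, h⟩ = τ (IsLocalRing.residue A ⟨a, ha⟩)

/-- the standing hypotheses: `a ∈ {2, 3}` auxiliary level, `a ∣ M`, `r` prime, `r ∤ M`, `A` over `r`. -/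
structure Ctx (a M r : ℕ) (A : ValuationSubring Qb) : Prop where
  ha : a = 2 ∨ a = 3
  haM : a ∣ M
  hr : r.Prime
  hrM : ¬ r ∣ M
  hA : A.LiesOverPrime r

/-- the geometric data at level `M * r`. -/
structure Geo (a M r : ℕ) (A : ValuationSubring Qb)
    (L : IntermediateField (kA A) (LaurentSeries (kA A)))
    (D : RedData Qb (FL (M * r)) (kA A) L) (W : FL (M * r) ≃ₐ[Qb] FL (M * r))
    (s sr : FL (M * r)) : Prop where
  ctx : Ctx a M r A
  gauss : IsGaussS (M * r) A L D
  al : IsAL M r W
  hs : (s : LaurentSeries Qb) = sS M (cJ a) Qb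
  hsr : (sr : LaurentSeries Qb) = sS (M * r) (cJ a) Qb

end Fermat.Agent.BR.Inst

end
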