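import Fermat.Agent.BR.Inst.Interface
import Fermat.Agent.INJ.P1
import Fermat.Agent.INJ.Inst.DegLemma

/-!
# BR / Inst / [DT] : the coordinate `T = s * sr`, full degree of `L × L` over `k[Tbar]`
-/

set_option autoImplicit false
set_option synthInstance.maxHeartbeats 400000

noncomputable section

namespace Fermat.Agent.BR.Inst

open AlgebraicCurve ModularCurve IntermediateField Polynomial
open Fermat.Agent Fermat.Agent.INJ Fermat.Agent.INJ.Inst

section Abstract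

variable {k L : Type} [Field k] [Field L] [Algebra k L]

/-- the elements of `k[(u, u)]` are diagonal, with entries in any field containing `u`. -/
theorem DT_adjoin_diag (E : IntermediateField k L) {u : L} (hu : u ∈ E) (c : L × L)
    (hc : c ∈ Algebra.adjoin k {((u, u) : L × L)}) : c.1 ∈ E ∧ c.2 = c.1 := by
  induction hc using Algebra.adjoin_induction with
  | mem x hx => rw [Set.mem_singleton_iff] at hx; subst hx; exact ⟨hu, rfl⟩
  | algebraMap a => exact ⟨E.algebraMap_mem a, rfl⟩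
  | add x y _ _ hx hy => exact ⟨E.add_mem hx.1 hy.1, by simp [hx.2, hy.2]⟩
  | mul x y _ _ hx hy => exact ⟨E.mul_mem hx.1 hy.1, by simp [hx.2, hy.2]⟩

/-- two copies of an `E`-independent family are independent over `k[(u, u)]`, `u ∈ E`. -/
theorem DT_li_prod (E : IntermediateField k L) {u : L} (hu : u ∈ E) {ι : Type} [Fintype ι]
    (b : ι → L) (hb : LinearIndependent E b) :
    LinearIndependent (Algebra.adjoin k {((u, u) : L × L)})
      (Sum.elim (fun i => ((b i, 0) : L × L)) (fun i => ((0, b i) : L × L))) := by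
  rw [Fintype.linearIndependent_iff]
  intro g hg
  rw [Fintype.sum_sum_type] at hg
  simp only [Sum.elim_inl, Sum.elim_inr] at hg
  have hdiag := fun i => DT_adjoin_diag E hu (g i).1 (g i).2
  have h1 : ∑ i, (g (Sum.inl i)).1.1 * b i = 0 := by
    have := congrArg Prod.fst hg
    simpa [Prod.fst_sum, Subalgebra.smul_def] using this
  have h2 : ∑ i, (g (Sum.inr i)).1.2 * b i = 0 := by
    have := congrArg Prod.snd hg
    simpa [Prod.snd_sum, Subalgebra.smul_def] using this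
  have h1' := Fintype.linearIndependent_iff.1 hb
    (fun i => (⟨(g (Sum.inl i)).1.1, (hdiag _).1⟩ : E)) h1
  have h2' := Fintype.linearIndependent_iff.1 hb
    (fun i => (⟨(g (Sum.inr i)).1.1, (hdiag _).1⟩ : E)) (by
      rw [← h2]
      refine Finset.sum_congr rfl fun i _ => ?_
      show (g (Sum.inr i)).1.1 * b i = (g (Sum.inr i)).1.2 * b i
      rw [(hdiag (Sum.inr i)).2])
  rintro (i | i)
  · have h3 : (g (Sum.inl i)).1.1 = 0 := congrArg Subtype.val (h1' i)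
    exact Subtype.ext (Prod.ext h3 (by rw [(hdiag _).2, h3]; rfl))
  · have h3 : (g (Sum.inr i)).1.1 = 0 := congrArg Subtype.val (h2' i)
    exact Subtype.ext (Prod.ext h3 (by rw [(hdiag _).2, h3]; rfl))

/-- the tower `k(sb ^ (r + 1)) ⊆ k(sb) ⊆ L`. -/
theorem DT_li_tower (sb : L) (htr : Transcendental k sb) (r : ℕ) {n : ℕ} (y : Fin n → L)
    (hy : LinearIndependent k⟮sb⟯ y) :
    LinearIndependent k⟮sb ^ (r + 1)⟯ (fun p : Fin (r + 1) × Fin n => sb ^ (p.1 : ℕ) * y p.2) := by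
  have hle : k⟮sb ^ (r + 1)⟯ ≤ k⟮sb⟯ :=
    adjoin_simple_le_iff.2 (pow_mem (mem_adjoin_simple_self k sb) _)
  let _ : Algebra k⟮sb ^ (r + 1)⟯ k⟮sb⟯ := (IntermediateField.inclusion hle).toRingHom.toAlgebra
  have : IsScalarTower k⟮sb ^ (r + 1)⟯ k⟮sb⟯ L := IsScalarTower.of_algebraMap_eq (fun _ => rfl)
  have hdl := stmt_DegLemma k L (sb ^ (r + 1)) sb (X ^ (r + 1)) 1 htr isCoprime_one_right
    (by simp) (by simp)
  have hdl2 : LinearIndependent k⟮sb ^ (r + 1)⟯ (fun i : Fin (r + 1) => sb ^ (i : ℕ)) :=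
    hdl.comp (Fin.cast (natDegree_X_pow (r + 1)).symm) (Fin.cast_injective _)
  have hdl3 : LinearIndependent k⟮sb ^ (r + 1)⟯
      (fun i : Fin (r + 1) => (AdjoinSimple.gen k sb) ^ (i : ℕ)) := by
    apply LinearIndependent.of_comp (IsScalarTower.toAlgHom k⟮sb ^ (r + 1)⟯ k⟮sb⟯ L).toLinearMap
    have he : ((IsScalarTower.toAlgHom k⟮sb ^ (r + 1)⟯ k⟮sb⟯ L).toLinearMap ∘
        fun i : Fin (r + 1) => (AdjoinSimple.gen k sb) ^ (i : ℕ)) =
        fun i : Fin (r + 1) => sb ^ (i : ℕ) := by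
      funext i
      simp
    rw [he]
    exact hdl2
  have h := linearIndependent_smul hdl3 hy
  have he : (fun p : Fin (r + 1) × Fin n => sb ^ (p.1 : ℕ) * y p.2) =
      fun p : Fin (r + 1) × Fin n => (AdjoinSimple.gen k sb) ^ (p.1 : ℕ) • y p.2 := by
    funext p
    rw [IntermediateField.smul_def]
    simp
  rw [he]
  exact h

theorem DT_family (sb : L) (htr : Transcendental k sb) (r n : ℕ) (y : Fin n → L)
    (hy : LinearIndependent k⟮sb⟯ y) {u : L} (hu : u ∈ k⟮sb ^ (r + 1)⟯) {m : ℕ}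
    (hm : m ≤ 2 * ((r + 1) * n)) :
    ∃ e : Fin m → L × L, LinearIndependent (Algebra.adjoin k {((u, u) : L × L)}) e := by
  have h1 := DT_li_prod k⟮sb ^ (r + 1)⟯ hu _ (DT_li_tower sb htr r y hy)
  obtain ⟨f⟩ : Nonempty (Fin m ↪ (Fin (r + 1) × Fin n) ⊕ (Fin (r + 1) × Fin n)) :=
    Function.Embedding.nonempty_of_card_le (by
      simp only [Fintype.card_fin, Fintype.card_sum, Fintype.card_prod]
      omega)
  exact ⟨_, h1.comp f f.injective⟩

theorem DT_adjoin_inv {K F : Type*} [Field K] [Field F] [Algebra K F] (f : F) :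
    K⟮f⁻¹⟯ = K⟮f⟯ := by
  apply le_antisymm
  · exact adjoin_simple_le_iff.2 (inv_mem (mem_adjoin_simple_self K f))
  · have h := inv_mem (mem_adjoin_simple_self K f⁻¹)
    rw [inv_inv] at h
    exact adjoin_simple_le_iff.2 h

end Abstract

/-- the common part of the two cases. -/
theorem DT_core {K F k Fb : Type} [Field K] [Field F] [Algebra K F] [Field k] [Field Fb]
    [Algebra k Fb] (D : RedData K F k Fb) (W : F ≃ₐ[K] F) (sb : Fb)
    (htr : Transcendental k sb) (r n : ℕ) (y : Fin n → Fb)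
    (hy : LinearIndependent k⟮sb⟯ y) (t : F) (h1 : t ∈ D.O) (h2 : W t = t)
    (h3 : D.rd t ∈ k⟮sb ^ (r + 1)⟯) (h4 : Transcendental k (D.rd t))
    (h5 : FiniteDimensional K⟮t⟯ F)
    (h6 : Module.finrank K⟮t⟯ F ≤ 2 * ((r + 1) * n)) :
    InO2 D W t ∧ W t = t ∧ Transcendental k (D.rd t) ∧ FiniteDimensional K⟮t⟯ F ∧
      ∃ e : Fin (Module.finrank K⟮t⟯ F) → Fb × Fb,
        LinearIndependent (Algebra.adjoin k {rd2 D W t}) e := by
  refine ⟨⟨h1, by rw [h2]; exact h1⟩, h2, h4, h5, ?_⟩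
  have e : rd2 D W t = (D.rd t, D.rd t) := by rw [rd2, h2]
  rw [e]
  exact DT_family sb htr r n y hy h3 h6

/-- both cases, abstractly. -/
theorem DT_both {K F k Fb : Type} [Field K] [Field F] [Algebra K F] [Field k] [Field Fb]
    [Algebra k Fb] (D : RedData K F k Fb) (W : F ≃ₐ[K] F) (s sr : F) (r n : ℕ)
    (hWs : W s = sr) (hWsr : W sr = s) (hsO : s ∈ D.O) (hsrO : sr ∈ D.O)
    (hrdsr : D.rd sr = D.rd s ^ r) (htr : Transcendental k (D.rd s))
    (y : Fin n → Fb) (hy : LinearIndependent k⟮D.rd s⟯ y)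
    (hfT : FiniteDimensional K⟮s * sr⟯ F)
    (hle : Module.finrank K⟮s * sr⟯ F ≤ 2 * ((r + 1) * n))
    (t : F) (ht : t = s * sr ∨ t = (s * sr)⁻¹) :
    InO2 D W t ∧ W t = t ∧ Transcendental k (D.rd t) ∧ FiniteDimensional K⟮t⟯ F ∧
      ∃ e : Fin (Module.finrank K⟮t⟯ F) → Fb × Fb,
        LinearIndependent (Algebra.adjoin k {rd2 D W t}) e := by
  have hTO : s * sr ∈ D.O := mul_mem hsO hsrO
  have hWT : W (s * sr) = s * sr := by rw [map_mul, hWs, hWsr, mul_comm sr s]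
  have hrdT : D.rd (s * sr) = D.rd s ^ (r + 1) := by
    rw [RedData.rd_mul hsO hsrO, hrdsr, pow_succ']
  have hsb0 : D.rd s ≠ 0 := fun h => htr (h ▸ isAlgebraic_zero)
  have hTb0 : D.rd (s * sr) ≠ 0 := by rw [hrdT]; exact pow_ne_zero _ hsb0
  have htrT : Transcendental k (D.rd (s * sr)) := by
    rw [hrdT]; exact htr.pow (Nat.succ_pos r)
  rcases ht with rfl | rfl
  · exact DT_core D W (D.rd s) htr r _ y hy _ hTO hWT
      (by rw [hrdT]; exact mem_adjoin_simple_self _ _) htrT hfT hle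
  · have hrdI : D.rd (s * sr)⁻¹ = (D.rd s ^ (r + 1))⁻¹ := by rw [RedData.rd_inv hTb0, hrdT]
    refine DT_core D W (D.rd s) htr r _ y hy _ (RedData.inv_mem_of_rd_ne_zero hTb0)
      (by rw [map_inv₀, hWT]) (by rw [hrdI]; exact inv_mem (mem_adjoin_simple_self _ _)) ?_ ?_ ?_
    · rw [RedData.rd_inv hTb0]
      intro h
      exact htrT (IsAlgebraic.inv_iff.1 h)
    · rw [DT_adjoin_inv]; exact hfT
    · rw [DT_adjoin_inv]; exact hle

/-- **[DT]**. -/
theorem stmt_DegT (hB : Stmt_BasicS) (hR : Stmt_Res) (hDS : Stmt_DegS) (hDW : Stmt_DegW)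
    (hDP : Stmt_DegProd) (hNS : Stmt_NormS) (hRL : Stmt_RedLevel) (hLK : Stmt_LKf) :
    Stmt_DegT := by
  intro a M r _ A L D W s sr hG t ht
  obtain ⟨hWs, hWsr, hsO, hsrO, -, hrdsr, htr, hI1, hI2, -⟩ := hB a M r A L D W s sr hG
  have hM0 : M ≠ 0 := left_ne_zero_of_mul (NeZero.ne (M * r))
  have : NeZero M := ⟨hM0⟩
  have : Fact r.Prime := ⟨hG.ctx.hr⟩
  -- the level `M`
  let s0 : FL M := ⟨sS M (cJ a) Qb, sub_mem (jd_mem_bar hM0 dvd_rfl) (_root_.natCast_mem _ _)⟩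
  obtain ⟨hfr, hler⟩ := hDS M r (cJ a) hG.ctx.hr hG.ctx.hrM s0 sr rfl hG.hsr
  have hs2 : FiniteDimensional Qb⟮s⟯ (FL (M * r)) ∧
      Module.finrank Qb⟮s⟯ (FL (M * r)) = Module.finrank Qb⟮sr⟯ (FL (M * r)) := by
    have h := hDW Qb (FL (M * r)) W sr hfr
    rwa [hWsr] at h
  have htrs : Transcendental Qb s :=
    (INJ.stmt_Gauss Qb (FL (M * r)) (kA A) L D s hsO htr).2.2.2.1
  obtain ⟨hfT, heT⟩ := hDP Qb (FL (M * r)) s sr htrs hs2.1 hI1 hI2
  obtain ⟨L', D', hG'⟩ := exists_gaussS M A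
  have hL' : L' = S28.Kf (kA A) M := hLK M r hG.ctx.hrM A hG.ctx.hA L' D' hG'.gauss
  have hL : L = S28.Kf (kA A) M := (hR a M r A L D W s sr hG).1
  have hLL : L' = L := hL'.trans hL.symm
  subst hLL
  have hchart : Chart D' s0 := by
    rcases hG.ctx.ha with ha | ha
    · subst ha
      exact (hNS.1 M r hG.ctx.haM hG.ctx.hrM A hG.ctx.hA _ D' hG'.gauss s0 rfl).1
    · subst ha
      exact (hNS.2 M r hG.ctx.haM hG.ctx.hrM A hG.ctx.hA _ D' hG'.gauss s0 rfl).1
  have hrd0 : D'.rd s0 = D.rd s :=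
    Subtype.ext ((hRL (M * r) M A _ _ D D' hG.gauss hG' s s0 hG.hs).2).symm
  obtain ⟨y, hy⟩ := hchart.deg
  rw [hrd0] at hy
  have hle : Module.finrank Qb⟮s * sr⟯ (FL (M * r)) ≤
      2 * ((r + 1) * Module.finrank Qb⟮s0⟯ (FL M)) := by
    rw [heT, hs2.2]
    omega
  exact DT_both D W s sr r _ hWs hWsr hsO hsrO hrdsr htr y hy hfT hle t ht

end Fermat.Agent.BR.Inst

end
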