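import Fermat.Agent.BR.Inst.All
import Fermat.Agent.BR.Inst.TCData

/-!
# BR / Inst : Theorem G, unconditional
-/

set_option autoImplicit false

namespace Fermat.Agent.BR.Inst

/-- the two copies data exist. -/
theorem all_TCData : Stmt_TCData :=
  stmt_TCData stmt_Levels stmt_ALProps stmt_RedV stmt_RedLevel stmt_LKf stmt_FrobKf

/-- **Theorem G**, unconditional. -/
theorem G_all : F.Stmt_G := G_of_TCData all_TCData

end Fermat.Agent.BR.Inst
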