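import Fermat.Agent.BR.Inst.Interface2
import Fermat.Agent.INJ.Inst.ChartT
import Fermat.Agent.INJ.Inst.ChartS
import Fermat.Agent.S24.DegPrincipalCore
import Fermat.Agent.S18.Glue28

/-!
# BR / Inst : [GM] Theorem G at the levels `M * r`, `a ∣ M` (assembly from `Inv.Stmt_TCG`)
-/

set_option autoImplicit false
set_option synthInstance.maxHeartbeats 400000

noncomputable section

namespace Fermat.Agent.BR.Inst

open AlgebraicCurve ModularCurve IntermediateField Polynomial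
open Fermat.Agent Fermat.Agent.INJ Fermat.Agent.INJ.Inst
open Fermat.Agent.BR.Inv (TC Pair)

/-! ### series -/

theorem GM_coeffMap_sS {R S : Type} [CommRing R] [CommRing S] (f : R →+* S) (d c : ℕ) :
    coeffMap f (sS d c R) = sS d c S := by
  rw [sS, map_sub, coeffMap_jd, map_natCast, sS]

theorem GM_Vq_sS (R : Type) [CommRing R] {M r : ℕ} (hM : M ≠ 0) (hr : r ≠ 0) (c : ℕ) :
    S28.Vq R r (sS M c R) = sS (M * r) c R := by
  rw [sS, map_sub, map_natCast, S28.jd, S28.tower_Vq_Vq R hr hM, mul_comm r M, sS, S28.jd]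

theorem GM_sS_mem {N d : ℕ} (hN : N ≠ 0) (hd : d ∣ N) (c : ℕ) :
    sS d c Qb ∈ modularFunctionFieldBar N := by
  rw [sS]
  exact sub_mem (jd_mem_bar hN hd) (_root_.natCast_mem _ c)

theorem GM_transcendental_sS {d : ℕ} (hd : d ≠ 0) (c : ℕ) (k : Type) [Field k] :
    Transcendental k (sS d c k) := by
  refine transcendental_of_coeff k (n := -(d : ℤ)) ?_ ?_
  · have := Nat.pos_of_ne_zero hd
    omega
  · have h0 : ((c : LaurentSeries k)).coeff (-(d : ℤ)) = 0 := by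
      have h1 : (c : LaurentSeries k) = HahnSeries.single 0 (c : k) := by
        rw [← map_natCast (HahnSeries.C : k →+* LaurentSeries k)]
        rfl
      rw [h1, HahnSeries.coeff_single_of_ne]
      have := Nat.pos_of_ne_zero hd
      omega
    rw [sS, HahnSeries.coeff_sub, coeff_jd k hd, h0, sub_zero]
    exact one_ne_zero

/-! ### Galois -/

theorem GM_gal_eq_self {N : ℕ} (σ : ES.Mid.GQ) (x : FL N) (d c : ℕ)
    (hx : (x : LaurentSeries Qb) = sS d c Qb) : ES.Mid.gal N σ x = x := by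
  apply Subtype.ext
  rw [ES.Mid.coe_gal, hx, GM_coeffMap_sS]

theorem GM_gal_algebraMap {N : ℕ} (σ : ES.Mid.GQ) (a : Qb) :
    ES.Mid.gal N σ (algebraMap Qb (FL N) a) = algebraMap Qb (FL N) (σ a) := by
  apply Subtype.ext
  rw [ES.Mid.coe_gal]
  show coeffMap (σ : Qb →+* Qb) (algebraMap Qb (LaurentSeries Qb) a) =
    algebraMap Qb (LaurentSeries Qb) (σ a)
  rw [algebraMap_laurentSeries_eq_single, algebraMap_laurentSeries_eq_single, coeffMap_single]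
  rfl

/-! ### abstract lemmas -/

theorem GM_transcendental_of_isInt {K F : Type*} [Field K] [Field F] [Algebra K F] {T s : F}
    (hs : Transcendental K s) (h : IsInt K T s) : Transcendental K T := by
  intro hT
  apply hs
  have hT' : IsIntegral K T := hT.isIntegral
  have : Algebra.IsIntegral K (Algebra.adjoin K {T}) :=
    Algebra.IsIntegral.adjoin (fun x hx => by
      rw [Set.mem_singleton_iff] at hx
      subst hx
      exact hT')
  exact (isIntegral_trans (R := K) (A := Algebra.adjoin K {T}) s h).isAlgebraic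

/-- from `v = u * h ^ m` to `u`. -/
theorem GM_descend {F : Type*} [Field F] (σ : F →+* F) (u h y : F) (m Q : ℕ) (hh : h ≠ 0)
    (hy : y ^ m = σ (u * h ^ m) / (u * h ^ m) ^ Q) :
    (y * (h ^ Q / σ h)) ^ m = σ u / u ^ Q := by
  have h1 : σ h ≠ 0 := (map_ne_zero σ).2 hh
  rw [mul_pow, hy, map_mul, map_pow, mul_pow, div_pow]
  rcases eq_or_ne u 0 with rfl | hu
  · rcases Nat.eq_zero_or_pos Q with rfl | hQ
    · simp
    · simp
  · field_simp
    ring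

set_option maxHeartbeats 1600000 in
/-- **[GM]** -/
theorem stmt_GM (hTCG : Inv.Stmt_TCG) (hTD : Stmt_TCData) (hTI : Stmt_TCInt) (hTDeg : Stmt_TCDeg)
    (hNS : Stmt_NormS) (hSL : Stmt_SigmaL) (hCR : Stmt_CongRd) (hRep : Stmt_RepAbs)
    (hInd : Stmt_Induces) (hALP : Stmt_ALProps) (hPair : Inv.Stmt_TCPair)
    (hAr : INJ.Inst.Stmt_ArchD) (hLP : INJ.Inst.Stmt_LocPow) : Stmt_GM := by
  intro a M r _ _ A hctx W hW m hm u hdiv hc1 hcc
  have hrP : r.Prime := hctx.hr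
  have : Fact r.Prime := ⟨hrP⟩
  have : IsAlgClosed (kA A) := S18G.isAlgClosed_kA A
  have hM0 : M ≠ 0 := NeZero.ne M
  have hN0 : M * r ≠ 0 := NeZero.ne (M * r)
  obtain ⟨hWW, hWgal, -⟩ := hALP M r W hW
  obtain ⟨L', D', hD'⟩ := exists_gaussS M A
  obtain ⟨L₁, D₁, hD₁⟩ := exists_gaussS (M * r) A
  obtain ⟨ι₁, ι₂, j, Fr, φb, τ, hmaps, hTC⟩ := hTD a M r A hctx L' D' hD' L₁ D₁ hD₁ W hW
  set c : ℕ := cJ a with hc
  -- the coordinate
  obtain ⟨s0, hs0⟩ : ∃ s0 : FL M, (s0 : LaurentSeries Qb) = sS M c Qb :=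
    ⟨⟨_, GM_sS_mem hM0 dvd_rfl c⟩, rfl⟩
  have hs : ((ι₁ s0 : FL (M * r)) : LaurentSeries Qb) = sS M c Qb := by rw [hmaps.ι₁, hs0]
  have hsr : ((ι₂ s0 : FL (M * r)) : LaurentSeries Qb) = sS (M * r) c Qb := by
    rw [hmaps.ι₂, hs0, GM_Vq_sS Qb hM0 hrP.ne_zero]
  obtain ⟨hCh, -, hN1, hN2⟩ : Chart D' s0 ∧ Chart D' s0⁻¹ ∧
      (∀ yb : L', IsInt (kA A) (D'.rd s0) yb → ∃ y ∈ D'.O, IsInt Qb s0 y ∧ D'.rd y = yb) ∧
      (∀ yb : L', IsInt (kA A) (D'.rd s0⁻¹) yb → ∃ y ∈ D'.O, IsInt Qb s0⁻¹ y ∧ D'.rd y = yb) := by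
    rcases hctx.ha with ha | ha
    · subst ha
      exact hNS.1 M r hctx.haM hctx.hrM A hctx.hA L' D' hD'.gauss s0 hs0
    · subst ha
      exact hNS.2 M r hctx.haM hctx.hrM A hctx.hA L' D' hD'.gauss s0 hs0
  have hrd0 : ((D'.rd s0 : L') : LaurentSeries (kA A)) = sS M c (kA A) := by
    have h := (hD'.gauss.mem_rd (sS M c A) s0 (by rw [hs0, GM_coeffMap_sS])).2
    rwa [GM_coeffMap_sS] at h
  have hφ : φb (D'.rd s0) = D'.rd s0 := by
    apply Subtype.ext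
    rw [hmaps.φb, hrd0, GM_coeffMap_sS]
  obtain ⟨hI1, hI2, hI3, hI4, -, -⟩ := hTI M r c hrP (ι₁ s0) (ι₂ s0) hs hsr
  obtain ⟨hfin, hdeg⟩ := hTDeg M r c hrP hctx.hrM W hW s0 (ι₁ s0) (ι₂ s0) hs0 hs hsr
  have hArch : Arch D₁ := hAr (M * r) r A hctx.hA L₁ D₁ hD₁.gauss
  have hP : Pair D₁ (twist D₁ W) :=
    hPair Qb (FL M) (FL (M * r)) (kA A) L' L₁ D' D₁ (twist D₁ W) ι₁ ι₂ j Fr φb r hTC s0 hCh.t_mem
      hCh.trans hφ
  set T : FL (M * r) := ι₁ s0 * ι₂ s0 with hT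
  have htrs : Transcendental Qb (ι₁ s0) :=
    transcendental_of_coe (by rw [hs]; exact GM_transcendental_sS hM0 c Qb)
  have htrT : Transcendental Qb T := GM_transcendental_of_isInt htrs hI1
  have htrT' : Transcendental Qb T⁻¹ := S24.transcendental_inv_of_transcendental htrT
  have hfin' : FiniteDimensional Qb⟮T⁻¹⟯ (FL (M * r)) := by
    rw [S24.adjoin_simple_inv_eq]
    exact hfin
  -- the representative
  have hm0 : 0 < m := by
    rcases Nat.eq_zero_or_pos m with rfl | h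
    · exact absurd (dvd_zero r) hm
    · exact h
  have hmk : (m : kA A) ≠ 0 :=
    CS.natCast_ne_zero A hctx.hA
      (Nat.Coprime.symm ((Nat.Prime.coprime_iff_not_dvd hrP).2 hm))
  have hu1 : D₁.rd u = 1 := hCR (M * r) A L₁ D₁ hD₁ u hc1
  obtain ⟨f, hf0, hcf⟩ := hcc
  have hu2 : D₁.rd (W u * f ^ m) = 1 := hCR (M * r) A L₁ D₁ hD₁ _ hcf
  have hg0 : W f ≠ 0 := (map_ne_zero W).2 hf0
  obtain ⟨h, hh0, hh1, hh2⟩ := hRep Qb (FL (M * r)) (kA A) L₁ D₁ (twist D₁ W) hP hArch (W f) hg0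
  have hu0 : u ≠ 0 := hdiv.1
  have hv0 : u * h ^ m ≠ 0 := mul_ne_zero hu0 (pow_ne_zero m hh0)
  have one_ne : (1 : L₁) ≠ 0 := one_ne_zero
  have hv1 : D₁.rd (u * h ^ m) = 1 := by
    have a1 : u ∈ D₁.O := RedData.mem_of_rd_ne_zero (by rw [hu1]; exact one_ne)
    have a2 : h ∈ D₁.O := RedData.mem_of_rd_ne_zero (by rw [hh1]; exact one_ne)
    rw [RedData.rd_mul a1 (pow_mem a2 m), RedData.rd_pow a2, hu1, hh1, one_pow, one_mul]
  have hv2 : (twist D₁ W).rd (u * h ^ m) = 1 := by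
    have e1 : u * h ^ m = (u * (W f) ^ m) * (h / W f) ^ m := by
      rw [mul_assoc, ← mul_pow, mul_div_cancel₀ _ hg0]
    have b1 : (twist D₁ W).rd (u * (W f) ^ m) = 1 := by
      rw [twist_rd, map_mul, map_pow, hWW, hu2]
    have a1 : u * (W f) ^ m ∈ (twist D₁ W).O :=
      RedData.mem_of_rd_ne_zero (by rw [b1]; exact one_ne)
    have a2 : h / W f ∈ (twist D₁ W).O := RedData.mem_of_rd_ne_zero (by rw [hh2]; exact one_ne)
    rw [e1, RedData.rd_mul a1 (pow_mem a2 m), RedData.rd_pow a2, b1, hh2, one_pow, one_mul]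
  have hdivv : ∀ P : Place Qb (FL (M * r)), (m : ℤ) ∣ P.ord (u * h ^ m) := by
    intro P
    rw [P.ord_mul hu0 (pow_ne_zero m hh0), ← zpow_natCast, P.ord_zpow]
    exact dvd_add (hdiv.2 P) (Dvd.intro _ rfl)
  have hL1 := hLP Qb (FL (M * r)) T _ m htrT hfin hv0 hm0 hdivv
  have hL2 := hLP Qb (FL (M * r)) T⁻¹ _ m htrT' hfin' hv0 hm0 hdivv
  -- the key statement
  have key : ∀ (σ : FL (M * r) →+* FL (M * r)) (σ₁ : L₁ →+* L₁) (Q : ℕ),
      (∀ b : Qb, ∃ b' : Qb, σ (algebraMap Qb (FL (M * r)) b) = algebraMap Qb (FL (M * r)) b') →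
      σ T = T →
      (∀ z ∈ D₁.O, σ z ∈ D₁.O ∧ D₁.rd (σ z) = σ₁ (D₁.rd z)) →
      (∀ z, W (σ z) = σ (W z)) →
      ((Q = 1 ∧ ∀ g : L₁, σ₁ g = g) ∨ (Q = r ^ 2 ∧ ∀ g : L', σ₁ (j g) = j (φb (φb g)))) →
      ∃ y : FL (M * r), y ^ m = σ u / u ^ Q := by
    intro σ σ₁ Q k1 k2 k3 k4 k5
    have k3' : ∀ z ∈ (twist D₁ W).O, σ z ∈ (twist D₁ W).O ∧
        (twist D₁ W).rd (σ z) = σ₁ ((twist D₁ W).rd z) := by
      intro z hz
      rw [mem_twist_O] at hz ⊢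
      rw [twist_rd, twist_rd, k4]
      exact k3 _ hz
    obtain ⟨y, hy⟩ := hTCG Qb (FL M) (FL (M * r)) (kA A) L' L₁ D' D₁ (twist D₁ W) ι₁ ι₂ j Fr φb r
      hTC hArch s0 hCh hφ hN1 hN2 hI1 hI2 hI3 hI4 hfin hdeg σ σ₁ Q k1 k2 k3 k3' k5
      (u * h ^ m) m 1 1 hm0 hmk one_ne_zero one_ne_zero (by rw [hv1, map_one]) (by rw [hv2, map_one])
      (by rw [map_one, map_one, one_pow, map_one]) (by rw [map_one, map_one, one_pow, map_one])
      hL1 hL2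
    exact ⟨_, GM_descend σ u h y m Q hh0 hy⟩
  have hgalT : ∀ σ : ES.Mid.GQ, ES.Mid.gal (M * r) σ T = T := by
    intro σ
    rw [hT, map_mul, GM_gal_eq_self σ _ _ _ hs, GM_gal_eq_self σ _ _ _ hsr]
  constructor
  · intro σ hσ
    obtain ⟨σ₁, hσ₁, hσ₂⟩ := hSL (M * r) A L₁ D₁ hD₁ σ (RingHom.id _) ((hInd A σ).1 hσ)
    obtain ⟨y, hy⟩ := key (ES.Mid.gal (M * r) σ : FL (M * r) →+* FL (M * r)) σ₁ 1
      (fun b => ⟨σ b, GM_gal_algebraMap σ b⟩) (hgalT σ) hσ₂ (fun z => hWgal σ z)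
      (Or.inl ⟨rfl, fun g => Subtype.ext (by rw [hσ₁, coeffMap_id])⟩)
    refine ⟨y, ?_⟩
    rw [hy, pow_one, div_eq_mul_inv]
    rfl
  · intro σ hσ
    obtain ⟨σ₁, hσ₁, hσ₂⟩ := hSL (M * r) A L₁ D₁ hD₁ σ τ ((hInd A σ).2 r τ hmaps.τ hσ)
    obtain ⟨y, hy⟩ := key
      ((ES.Mid.gal (M * r) σ : FL (M * r) →+* FL (M * r)).comp
        (ES.Mid.gal (M * r) σ : FL (M * r) →+* FL (M * r))) (σ₁.comp σ₁) (r ^ 2)
      (fun b => ⟨σ (σ b), by
        show ES.Mid.gal (M * r) σ (ES.Mid.gal (M * r) σ _) = _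
        rw [GM_gal_algebraMap, GM_gal_algebraMap]⟩)
      (by
        show ES.Mid.gal (M * r) σ (ES.Mid.gal (M * r) σ T) = T
        rw [hgalT, hgalT])
      (fun z hz => by
        obtain ⟨a1, a2⟩ := hσ₂ z hz
        obtain ⟨b1, b2⟩ := hσ₂ _ a1
        refine ⟨b1, ?_⟩
        show D₁.rd (ES.Mid.gal (M * r) σ (ES.Mid.gal (M * r) σ z)) = σ₁ (σ₁ (D₁.rd z))
        rw [b2, a2])
      (fun z => by
        show W (ES.Mid.gal (M * r) σ (ES.Mid.gal (M * r) σ z)) =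
          ES.Mid.gal (M * r) σ (ES.Mid.gal (M * r) σ (W z))
        rw [hWgal, hWgal])
      (Or.inr ⟨rfl, fun g => Subtype.ext (by
        show ((σ₁ (σ₁ (j g)) : L₁) : LaurentSeries (kA A)) = _
        rw [hσ₁, hσ₁, hmaps.j, hmaps.j, hmaps.φb, hmaps.φb])⟩)
    refine ⟨y, ?_⟩
    rw [hy, div_eq_mul_inv]
    rfl

end Fermat.Agent.BR.Inst

end
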