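import Fermat.Agent.BR.Inst.Defs
import Fermat.Agent.INJ.Interface2

/-!
# BR / Inst : statements of the packages of the instantiation `[N-inst]` (all `Prop`s)

Level `N = M * r`, `r` prime, `r ∤ M`, auxiliary level `a ∈ {2, 3}`, `a ∣ M` (so `a ≠ r`).
See `Defs.lean` for the notation (`D`, `W`, `rd2`, `InO2`, `s`, `sr`, `T = s * sr`).
No hypothesis `r ≠ p` anywhere.  Each statement is proved in its own file, the other statements
being explicit hypotheses.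
-/

set_option autoImplicit false
set_option synthInstance.maxHeartbeats 400000

noncomputable section

namespace Fermat.Agent.BR.Inst

open AlgebraicCurve ModularCurve IntermediateField Polynomial
open Fermat.Agent Fermat.Agent.INJ Fermat.Agent.INJ.Inst
open Fermat.Agent.BR.Inv (IsIntE)

/-! ## A. The Atkin-Lehner involution -/

/-- [AL] existence of `w_Q` on `FL (M * Q)`, `gcd (M, Q) = 1`. -/
def Stmt_AL : Prop :=
  ∀ (M Q : ℕ) [NeZero (M * Q)], Nat.Coprime M Q → ∃ W : FL (M * Q) ≃ₐ[Qb] FL (M * Q), IsAL M Q W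

/-- [LV] `FL M ⊆ FL (M Q)` and `V_Q (FL M) ⊆ FL (M Q)`. -/
def Stmt_Levels : Prop :=
  ∀ (M Q : ℕ) [NeZero (M * Q)] (x : LaurentSeries Qb), x ∈ modularFunctionFieldBar M →
    x ∈ modularFunctionFieldBar (M * Q) ∧ S28.Vq Qb Q x ∈ modularFunctionFieldBar (M * Q)

/-- [ALP] `w_Q` is an involution, commutes with `G_ℚ`, and is `q ↦ q^Q` on `FL M`. -/
def Stmt_ALProps : Prop :=
  ∀ (M Q : ℕ) [NeZero (M * Q)] (W : FL (M * Q) ≃ₐ[Qb] FL (M * Q)), IsAL M Q W →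
    (∀ x, W (W x) = x) ∧
    (∀ (σ : ES.Mid.GQ) (x : FL (M * Q)),
      W (ES.Mid.gal (M * Q) σ x) = ES.Mid.gal (M * Q) σ (W x)) ∧
    (∀ x y : FL (M * Q), (x : LaurentSeries Qb) ∈ modularFunctionFieldBar M →
      (y : LaurentSeries Qb) = S28.Vq Qb Q (x : LaurentSeries Qb) → W x = y)

/-! ## B. Compatibilities of the Gauss reduction -/

/-- [RV] reduction commutes with `q ↦ q^e`. -/
def Stmt_RedV : Prop :=
  ∀ (N : ℕ) (A : ValuationSubring Qb) (L : IntermediateField (kA A) (LaurentSeries (kA A)))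
    (D : RedData Qb (FL N) (kA A) L), IsGaussS N A L D →
    ∀ (e : ℕ) (x y : FL N), (y : LaurentSeries Qb) = S28.Vq Qb e (x : LaurentSeries Qb) →
      x ∈ D.O → y ∈ D.O ∧
        ((D.rd y : L) : LaurentSeries (kA A)) = S28.Vq (kA A) e ((D.rd x : L) : LaurentSeries (kA A))

/-- [RL] the reduction does not depend on the level. -/
def Stmt_RedLevel : Prop :=
  ∀ (N N' : ℕ) (A : ValuationSubring Qb) (L L' : IntermediateField (kA A) (LaurentSeries (kA A)))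
    (D : RedData Qb (FL N) (kA A) L) (D' : RedData Qb (FL N') (kA A) L'),
    IsGaussS N A L D → IsGaussS N' A L' D' →
    ∀ (x : FL N) (x' : FL N'), (x : LaurentSeries Qb) = (x' : LaurentSeries Qb) →
      (x ∈ D.O ↔ x' ∈ D'.O) ∧
        ((D.rd x : L) : LaurentSeries (kA A)) = ((D'.rd x' : L') : LaurentSeries (kA A))

/-- [RG] reduction and the decomposition group. -/
def Stmt_RedGal : Prop :=
  ∀ (N : ℕ) (A : ValuationSubring Qb) (L : IntermediateField (kA A) (LaurentSeries (kA A)))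
    (D : RedData Qb (FL N) (kA A) L), IsGaussS N A L D →
    ∀ (σ : ES.Mid.GQ) (τ : kA A →+* kA A), Induces A σ τ → ∀ x : FL N, x ∈ D.O →
      ES.Mid.gal N σ x ∈ D.O ∧
        ((D.rd (ES.Mid.gal N σ x) : L) : LaurentSeries (kA A)) =
          coeffMap τ ((D.rd x : L) : LaurentSeries (kA A))

/-- [IND] inertia induces the identity, a Frobenius induces `c ↦ c ^ r`. -/
def Stmt_Induces : Prop :=
  ∀ (A : ValuationSubring Qb) (σ : ES.Mid.GQ),
    (σ ∈ A.inertiaSubgroupIn ℚ → Induces A σ (RingHom.id _)) ∧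
    (∀ (r : ℕ) (τ : kA A →+* kA A), (∀ c, τ c = c ^ r) → A.IsFrobeniusAt σ r → Induces A σ τ)

/-! ## C. The residue field at the good level `M` -/

/-- [LK] the residue field at a good level is `k(j(q^d) : d ∣ M)`. -/
def Stmt_LKf : Prop :=
  ∀ (M : ℕ) [NeZero M] (r : ℕ) [Fact r.Prime], ¬ r ∣ M →
    ∀ A : ValuationSubring Qb, A.LiesOverPrime r →
    ∀ (L : IntermediateField (kA A) (LaurentSeries (kA A))) (D : RedData Qb (FL M) (kA A) L),
      IsGauss M A L D → L = S28.Kf (kA A) M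

/-- [FK] Frobenius on `k(j(q^d) : d ∣ M)`, `char k = r`: stability under the coefficientwise action
of endomorphisms of `k`, `y(q^r)` is an `r`-th power, and `y ^ r = y^(τ)(q^r)`. -/
def Stmt_FrobKf : Prop :=
  ∀ (k : Type) [Field k] [IsAlgClosed k] (r : ℕ) [Fact r.Prime] [CharP k r] (M : ℕ),
    (∀ (τ : k →+* k), ∀ y ∈ S28.Kf k M, coeffMap τ y ∈ S28.Kf k M) ∧
    (∀ y ∈ S28.Kf k M, ∃ g ∈ S28.Kf k M, g ^ r = S28.Vq k r y) ∧
    (∀ (τ : k →+* k), (∀ c, τ c = c ^ r) → ∀ y : LaurentSeries k,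
      y ^ r = coeffMap τ (S28.Vq k r y))

/-- [NL] (abstract) localisation of charts.  Normality for the chart `u`, `s = P(u) / Q(u)` with
`P, Q ∈ A[X]`, `Qbar ≠ 0`, `u` and `1 / Q(u)` integral over `K[s]`: normality for the chart `s`. -/
def Stmt_NormLoc : Prop :=
  ∀ (K F k Fb : Type) [Field K] [Field F] [Algebra K F] [Field k] [Field Fb] [Algebra k Fb]
    (D : RedData K F k Fb) (u s : F) (P Q : (D.A)[X]), u ∈ D.O → Transcendental k (D.rd u) →
    (∀ yb : Fb, IsInt k (D.rd u) yb → ∃ y ∈ D.O, IsInt K u y ∧ D.rd y = yb) →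
    s * aeval u (Q.map D.A.subtype) = aeval u (P.map D.A.subtype) → Q.map D.rA ≠ 0 →
    IsInt K s u → IsInt K s (aeval u (Q.map D.A.subtype))⁻¹ →
    ∀ yb : Fb, IsInt k (D.rd s) yb → ∃ y ∈ D.O, IsInt K s y ∧ D.rd y = yb

/-- [NS] the charts `s = j(q^M) - c` and `s⁻¹` at the good level `M` (auxiliary level `a ∣ M`): good
coordinates, and NORMALITY of the special fibre. -/
def Stmt_NormSat (a : ℕ) : Prop :=
  ∀ (M : ℕ) [NeZero M] (r : ℕ) [Fact r.Prime], a ∣ M → ¬ r ∣ M →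
    ∀ A : ValuationSubring Qb, A.LiesOverPrime r →
    ∀ (L : IntermediateField (kA A) (LaurentSeries (kA A))) (D : RedData Qb (FL M) (kA A) L),
      IsGauss M A L D → ∀ s : FL M, (s : LaurentSeries Qb) = sS M (cJ a) Qb →
      Chart D s ∧ Chart D s⁻¹ ∧
      (∀ yb : L, IsInt (kA A) (D.rd s) yb → ∃ y ∈ D.O, IsInt Qb s y ∧ D.rd y = yb) ∧
      (∀ yb : L, IsInt (kA A) (D.rd s⁻¹) yb → ∃ y ∈ D.O, IsInt Qb s⁻¹ y ∧ D.rd y = yb)

/-- [NS] for both auxiliary levels. -/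
def Stmt_NormS : Prop := Stmt_NormSat 2 ∧ Stmt_NormSat 3

/-! ## D. Degrees (characteristic zero) -/

/-- [DS] `[FL (M r) : K(j(q^(M r)))] ≤ (r + 1) [FL M : K(j(q^M))]`. -/
def Stmt_DegS : Prop :=
  ∀ (M r c : ℕ) [NeZero M] [NeZero (M * r)], r.Prime → ¬ r ∣ M →
    ∀ (s0 : FL M) (sr : FL (M * r)), (s0 : LaurentSeries Qb) = sS M c Qb →
      (sr : LaurentSeries Qb) = sS (M * r) c Qb →
      FiniteDimensional Qb⟮sr⟯ (FL (M * r)) ∧
      Module.finrank Qb⟮sr⟯ (FL (M * r)) ≤ (r + 1) * Module.finrank Qb⟮s0⟯ (FL M)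

/-- [DW] (abstract) transport of the degree by an automorphism. -/
def Stmt_DegW : Prop :=
  ∀ (K F : Type) [Field K] [Field F] [Algebra K F] (W : F ≃ₐ[K] F) (x : F),
    FiniteDimensional K⟮x⟯ F → FiniteDimensional K⟮W x⟯ F ∧
      Module.finrank K⟮W x⟯ F = Module.finrank K⟮x⟯ F

/-- [DP] (abstract, places) `x, y` with the same poles (each is integral over the polynomial ring of
the other): `deg (x y) = deg x + deg y`. -/
def Stmt_DegProd : Prop :=
  ∀ (K F : Type) [Field K] [IsAlgClosed K] [CharZero K] [Field F] [Algebra K F] (x y : F),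
    Transcendental K x → FiniteDimensional K⟮x⟯ F → IsInt K x y → IsInt K y x →
    FiniteDimensional K⟮x * y⟯ F ∧
      Module.finrank K⟮x * y⟯ F = Module.finrank K⟮x⟯ F + Module.finrank K⟮y⟯ F

/-! ## E. Two valuations -/

/-- [O2] (abstract) orthonormal families for two valuations. -/
def Stmt_Ortho2 : Prop :=
  ∀ (K F k Fb : Type) [Field K] [Field F] [Algebra K F] [Field k] [Field Fb] [Algebra k Fb]
    (D₁ D₂ : RedData K F k Fb) (t : F), D₁.A = D₂.A → t ∈ D₁.O → t ∈ D₂.O →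
    Transcendental k (D₁.rd t) → Transcendental k (D₂.rd t) →
    ∀ (ι₁ ι₂ : Type) [Fintype ι₁] [Fintype ι₂] (x : ι₁ → F) (x' : ι₂ → F),
      (∀ i, x i ∈ D₁.O ∧ x i ∈ D₂.O ∧ D₂.rd (x i) = 0) →
      (∀ j, x' j ∈ D₁.O ∧ x' j ∈ D₂.O ∧ D₁.rd (x' j) = 0) →
      LinearIndependent k⟮D₁.rd t⟯ (fun i => D₁.rd (x i)) →
      LinearIndependent k⟮D₂.rd t⟯ (fun j => D₂.rd (x' j)) →
      LinearIndependent K⟮t⟯ (Sum.elim x x')

/-- [AP] (abstract) weak approximation from one separating element. -/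
def Stmt_Approx : Prop :=
  ∀ (K F k Fb : Type) [Field K] [Field F] [Algebra K F] [Field k] [Field Fb] [Algebra k Fb]
    (D₁ D₂ : RedData K F k Fb), D₁.A = D₂.A → Arch D₁ →
    (∃ ε : F, ε ∈ D₁.O ∧ ε ∈ D₂.O ∧ D₁.rd ε = 1 ∧ D₂.rd ε = 0) →
    ∀ y : Fb, ∃ x : F, x ∈ D₁.O ∧ x ∈ D₂.O ∧ D₁.rd x = y ∧ D₂.rd x = 0

/-- [BS] basic facts on `s`, `sr`: `W` swaps them, they lie in `O_∞ ∩ O_0`, their reductions, and the
separating element. -/
def Stmt_BasicS : Prop :=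
  ∀ (a M r : ℕ) [NeZero (M * r)] (A : ValuationSubring Qb)
    (L : IntermediateField (kA A) (LaurentSeries (kA A)))
    (D : RedData Qb (FL (M * r)) (kA A) L) (W : FL (M * r) ≃ₐ[Qb] FL (M * r))
    (s sr : FL (M * r)), Geo a M r A L D W s sr →
    W s = sr ∧ W sr = s ∧ s ∈ D.O ∧ sr ∈ D.O ∧
    ((D.rd s : L) : LaurentSeries (kA A)) = sS M (cJ a) (kA A) ∧ D.rd sr = D.rd s ^ r ∧
    Transcendental (kA A) (D.rd s) ∧ IsInt Qb s sr ∧ IsInt Qb sr s ∧
    (∃ ε : FL (M * r), InO2 D W ε ∧ rd2 D W ε = (1, 0))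

/-- [RS] the residue field of `v_∞` at level `M r` is the residue field at level `M`. -/
def Stmt_Res : Prop :=
  ∀ (a M r : ℕ) [NeZero (M * r)] (A : ValuationSubring Qb)
    (L : IntermediateField (kA A) (LaurentSeries (kA A)))
    (D : RedData Qb (FL (M * r)) (kA A) L) (W : FL (M * r) ≃ₐ[Qb] FL (M * r))
    (s sr : FL (M * r)), Geo a M r A L D W s sr →
    L = S28.Kf (kA A) M ∧
    ∀ y : L, ∃ x : FL (M * r), (x : LaurentSeries Qb) ∈ modularFunctionFieldBar M ∧ x ∈ D.O ∧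
      D.rd x = y

/-- [DT] the coordinate `T = s * sr`: full degree of `L × L` over `k[Tbar]`. -/
def Stmt_DegT : Prop :=
  ∀ (a M r : ℕ) [NeZero (M * r)] (A : ValuationSubring Qb)
    (L : IntermediateField (kA A) (LaurentSeries (kA A)))
    (D : RedData Qb (FL (M * r)) (kA A) L) (W : FL (M * r) ≃ₐ[Qb] FL (M * r))
    (s sr : FL (M * r)), Geo a M r A L D W s sr →
    ∀ t : FL (M * r), (t = s * sr ∨ t = (s * sr)⁻¹) →
      InO2 D W t ∧ W t = t ∧ Transcendental (kA A) (D.rd t) ∧ FiniteDimensional Qb⟮t⟯ (FL (M * r)) ∧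
      ∃ e : Fin (Module.finrank Qb⟮t⟯ (FL (M * r))) → L × L,
        LinearIndependent (Algebra.adjoin (kA A) {rd2 D W t}) e

/-! ## F. `(SN)` -/

/-- [IT] (abstract) `Φ ∈ K[Y][X]` monic in `X`, `Φ(x, y) = 0`: `x` is integral over `K[x y]` and
`y⁻¹` is integral over `K[(x y)⁻¹]`. -/
def Stmt_IntT : Prop :=
  ∀ (K F : Type) [Field K] [Field F] [Algebra K F] (Φ : K[X][X]) (x y : F), Φ.Monic →
    x ≠ 0 → y ≠ 0 → (Φ.map (aeval y).toRingHom).eval x = 0 →
    IsInt K (x * y) x ∧ IsInt K (x * y)⁻¹ y⁻¹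

/-- [SN] lifts from level `M`: for `a ∈ L` integral over `k[sbar^(±1)]` there is `x` with
`rd2 x = (a, a(q^r))`, `x` and `W x` integral over `K[T^(±1)]`. -/
def Stmt_SN : Prop :=
  ∀ (a M r : ℕ) [NeZero (M * r)] (A : ValuationSubring Qb)
    (L : IntermediateField (kA A) (LaurentSeries (kA A)))
    (D : RedData Qb (FL (M * r)) (kA A) L) (W : FL (M * r) ≃ₐ[Qb] FL (M * r))
    (s sr : FL (M * r)), Geo a M r A L D W s sr →
    ∀ t : FL (M * r), (t = s * sr ∨ t = (s * sr)⁻¹) →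
    ∀ y : L, IsInt (kA A) (D.rd t) y → ∃ x : FL (M * r), InO2 D W x ∧ IsInt Qb t x ∧
      IsInt Qb t (W x) ∧ D.rd x = y ∧
      ((D.rd (W x) : L) : LaurentSeries (kA A)) = S28.Vq (kA A) r (y : LaurentSeries (kA A))

/-- [SA] (abstract) the ideal generated by the `a - Φ² a` is radical. -/
def Stmt_SNalg : Prop :=
  ∀ (k L : Type) [Field k] [Field L] [Algebra k L] (t : L) (r : ℕ) (Φ : L →ₐ[k] L), 2 ≤ r →
    Transcendental k t → FiniteDimensional k⟮t⟯ L → Algebra.IsSeparable k⟮t⟯ L →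
    (∀ y, ∃ g, Φ y = g ^ r) → (∀ y, IsInt k t y → IsInt k t (Φ y)) →
    ∀ (d f h : L) (n : ℕ), IsInt k t d → IsInt k t f → IsInt k t h →
      f ^ n = (d - Φ (Φ d)) * h →
      ∃ (m : ℕ) (y c : Fin m → L), (∀ i, IsInt k t (y i) ∧ IsInt k t (c i)) ∧
        f = ∑ i, (y i - Φ (Φ (y i))) * c i

/-- [SJ] `J = I × I ⊆ rd2 (BB_t)`: for `y, c` integral, `((y - y(q^(r^2))) c, 0)` and
`(0, (y - y(q^(r^2))) c)` lift. -/
def Stmt_SJ : Prop :=
  ∀ (a M r : ℕ) [NeZero (M * r)] (A : ValuationSubring Qb)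
    (L : IntermediateField (kA A) (LaurentSeries (kA A)))
    (D : RedData Qb (FL (M * r)) (kA A) L) (W : FL (M * r) ≃ₐ[Qb] FL (M * r))
    (s sr : FL (M * r)), Geo a M r A L D W s sr →
    ∀ t : FL (M * r), (t = s * sr ∨ t = (s * sr)⁻¹) →
    ∀ y y2 c : L, IsInt (kA A) (D.rd t) y → IsInt (kA A) (D.rd t) c →
      (y2 : LaurentSeries (kA A)) = S28.Vq (kA A) (r ^ 2) (y : LaurentSeries (kA A)) →
      (∃ x : FL (M * r), InO2 D W x ∧ IsInt Qb t x ∧ rd2 D W x = ((y - y2) * c, 0)) ∧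
      (∃ x : FL (M * r), InO2 D W x ∧ IsInt Qb t x ∧ rd2 D W x = (0, (y - y2) * c))

/-- [SNa] `rd2 (BB_t)` contains the radical of `d(τ) Ot`, `d = X - X^(r^2)`. -/
def Stmt_SNa : Prop :=
  ∀ (a M r : ℕ) [NeZero (M * r)] (A : ValuationSubring Qb)
    (L : IntermediateField (kA A) (LaurentSeries (kA A)))
    (D : RedData Qb (FL (M * r)) (kA A) L) (W : FL (M * r) ≃ₐ[Qb] FL (M * r))
    (s sr : FL (M * r)), Geo a M r A L D W s sr →
    ∀ t : FL (M * r), (t = s * sr ∨ t = (s * sr)⁻¹) →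
    ∀ (f h : L × L) (n : ℕ), IsIntE (kA A) (rd2 D W t) f → IsIntE (kA A) (rd2 D W t) h →
      f ^ n = aeval (rd2 D W t) (X - X ^ (r ^ 2) : (kA A)[X]) * h →
      ∃ x : FL (M * r), InO2 D W x ∧ IsInt Qb t x ∧ rd2 D W x = f

/-- [SNb] `(f^(τ) - f^(r^2)) h ∈ rd2 (BB_t)` for `f, h ∈ Ot`, `τ = ` the square of the Frobenius of
`k` acting on the coefficients. -/
def Stmt_SNb : Prop :=
  ∀ (a M r : ℕ) [NeZero (M * r)] (A : ValuationSubring Qb)
    (L : IntermediateField (kA A) (LaurentSeries (kA A)))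
    (D : RedData Qb (FL (M * r)) (kA A) L) (W : FL (M * r) ≃ₐ[Qb] FL (M * r))
    (s sr : FL (M * r)), Geo a M r A L D W s sr →
    ∀ t : FL (M * r), (t = s * sr ∨ t = (s * sr)⁻¹) →
    ∀ (τ : kA A →+* kA A), (∀ c, τ c = c ^ (r ^ 2)) →
    ∀ (f g h : L × L), IsIntE (kA A) (rd2 D W t) f → IsIntE (kA A) (rd2 D W t) h →
      (g.1 : LaurentSeries (kA A)) = coeffMap τ (f.1 : LaurentSeries (kA A)) →
      (g.2 : LaurentSeries (kA A)) = coeffMap τ (f.2 : LaurentSeries (kA A)) →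
      ∃ x : FL (M * r), InO2 D W x ∧ IsInt Qb t x ∧ rd2 D W x = (g - f ^ (r ^ 2)) * h

/-- [G2] the decomposition group on both components. -/
def Stmt_Gal2 : Prop :=
  ∀ (a M r : ℕ) [NeZero (M * r)] (A : ValuationSubring Qb)
    (L : IntermediateField (kA A) (LaurentSeries (kA A)))
    (D : RedData Qb (FL (M * r)) (kA A) L) (W : FL (M * r) ≃ₐ[Qb] FL (M * r))
    (s sr : FL (M * r)), Geo a M r A L D W s sr →
    ∀ (σ : ES.Mid.GQ) (τ : kA A →+* kA A), Induces A σ τ →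
      ES.Mid.gal (M * r) σ (s * sr) = s * sr ∧
      ∀ x : FL (M * r), InO2 D W x → InO2 D W (ES.Mid.gal (M * r) σ x) ∧
        (((rd2 D W (ES.Mid.gal (M * r) σ x)).1 : L) : LaurentSeries (kA A)) =
          coeffMap τ (((rd2 D W x).1 : L) : LaurentSeries (kA A)) ∧
        (((rd2 D W (ES.Mid.gal (M * r) σ x)).2 : L) : LaurentSeries (kA A)) =
          coeffMap τ (((rd2 D W x).2 : L) : LaurentSeries (kA A))

end Fermat.Agent.BR.Inst

end
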