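import Fermat.Agent.BR.Inst.Interface
import Fermat.Agent.BR.Inv.TCInterface
import Fermat.Agent.BR.F.Interface

/-!
# BR / Inst : instantiation of helper12's "two copies" theorem `Inv.Stmt_TCG`, and Theorem G

`F' = FL M`, `F = FL (M * r)`, `D'`, `D₁` the Gauss data, `D₂ = twist D₁ W`, `x = s0 = j(q^M) - c`.
Target: `F.Stmt_G` (helper22's input statement).
-/

set_option autoImplicit false
set_option synthInstance.maxHeartbeats 400000

noncomputable section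

namespace Fermat.Agent.BR.Inst

open AlgebraicCurve ModularCurve IntermediateField Polynomial
open Fermat.Agent Fermat.Agent.INJ Fermat.Agent.INJ.Inst
open Fermat.Agent.BR.Inv (TC Pair)

/-- the concrete maps of the two copies package, characterised on series. -/
structure IsTCMaps (M r : ℕ) (A : ValuationSubring Qb)
    (L' L₁ : IntermediateField (kA A) (LaurentSeries (kA A)))
    (ι₁ ι₂ : FL M →ₐ[Qb] FL (M * r)) (j : L' →ₐ[kA A] L₁) (Fr : L' →+* L') (φb : L' ≃+* L')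
    (τ : kA A →+* kA A) : Prop where
  ι₁ : ∀ x : FL M, ((ι₁ x : FL (M * r)) : LaurentSeries Qb) = (x : LaurentSeries Qb)
  ι₂ : ∀ x : FL M, ((ι₂ x : FL (M * r)) : LaurentSeries Qb) = S28.Vq Qb r (x : LaurentSeries Qb)
  j : ∀ y : L', ((j y : L₁) : LaurentSeries (kA A)) = (y : LaurentSeries (kA A))
  Fr : ∀ y : L', ((Fr y : L') : LaurentSeries (kA A)) = S28.Vq (kA A) r (y : LaurentSeries (kA A))
  φb : ∀ y : L', ((φb y : L') : LaurentSeries (kA A)) = coeffMap τ (y : LaurentSeries (kA A))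
  τ : ∀ c : kA A, τ c = c ^ r

/-- [T1] the two copies data exist. -/
def Stmt_TCData : Prop :=
  ∀ (a M r : ℕ) [NeZero M] [NeZero (M * r)] (A : ValuationSubring Qb), Ctx a M r A →
    ∀ (L' : IntermediateField (kA A) (LaurentSeries (kA A))) (D' : RedData Qb (FL M) (kA A) L'),
      IsGaussS M A L' D' →
    ∀ (L₁ : IntermediateField (kA A) (LaurentSeries (kA A)))
      (D₁ : RedData Qb (FL (M * r)) (kA A) L₁), IsGaussS (M * r) A L₁ D₁ →
    ∀ W : FL (M * r) ≃ₐ[Qb] FL (M * r), IsAL M r W →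
    ∃ (ι₁ ι₂ : FL M →ₐ[Qb] FL (M * r)) (j : L' →ₐ[kA A] L₁) (Fr : L' →+* L') (φb : L' ≃+* L')
      (τ : kA A →+* kA A), IsTCMaps M r A L' L₁ ι₁ ι₂ j Fr φb τ ∧
        TC D' D₁ (twist D₁ W) ι₁ ι₂ j Fr φb r

/-- [T2] integrality of `s^(±1)`, `sr^(±1)` over `K[T^(±1)]`, `T = s * sr` (characteristic zero). -/
def Stmt_TCInt : Prop :=
  ∀ (M r c : ℕ) [NeZero (M * r)], r.Prime →
    ∀ s sr : FL (M * r), (s : LaurentSeries Qb) = sS M c Qb →
      (sr : LaurentSeries Qb) = sS (M * r) c Qb →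
      IsInt Qb (s * sr) s ∧ IsInt Qb (s * sr) sr ∧ IsInt Qb (s * sr)⁻¹ s⁻¹ ∧
      IsInt Qb (s * sr)⁻¹ sr⁻¹ ∧ IsInt Qb s sr ∧ IsInt Qb sr s

/-- [T3] the degree of `F` over `K(T)`. -/
def Stmt_TCDeg : Prop :=
  ∀ (M r c : ℕ) [NeZero M] [NeZero (M * r)], r.Prime → ¬ r ∣ M →
    ∀ W : FL (M * r) ≃ₐ[Qb] FL (M * r), IsAL M r W →
    ∀ (s0 : FL M) (s sr : FL (M * r)), (s0 : LaurentSeries Qb) = sS M c Qb →
      (s : LaurentSeries Qb) = sS M c Qb → (sr : LaurentSeries Qb) = sS (M * r) c Qb →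
      FiniteDimensional Qb⟮s * sr⟯ (FL (M * r)) ∧
      Module.finrank Qb⟮s * sr⟯ (FL (M * r)) ≤ 2 * ((r + 1) * Module.finrank Qb⟮s0⟯ (FL M))

/-- [T4] the endomorphism of the residue field induced by an element of the decomposition group. -/
def Stmt_SigmaL : Prop :=
  ∀ (N : ℕ) (A : ValuationSubring Qb) (L : IntermediateField (kA A) (LaurentSeries (kA A)))
    (D : RedData Qb (FL N) (kA A) L), IsGaussS N A L D →
    ∀ (σ : ES.Mid.GQ) (τ : kA A →+* kA A), Induces A σ τ →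
    ∃ σ₁ : L →+* L, (∀ y : L, ((σ₁ y : L) : LaurentSeries (kA A)) =
        coeffMap τ (y : LaurentSeries (kA A))) ∧
      ∀ z ∈ D.O, ES.Mid.gal N σ z ∈ D.O ∧ D.rd (ES.Mid.gal N σ z) = σ₁ (D.rd z)

/-- [T5] (abstract) a common representative: `h ≡ 1` at `D₁`, `h ≡ g` at `D₂`. -/
def Stmt_RepAbs : Prop :=
  ∀ (K F k Fb : Type) [Field K] [Field F] [Algebra K F] [Field k] [Field Fb] [Algebra k Fb]
    (D₁ D₂ : RedData K F k Fb), Pair D₁ D₂ → Arch D₁ → ∀ g : F, g ≠ 0 →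
    ∃ h : F, h ≠ 0 ∧ D₁.rd h = 1 ∧ D₂.rd (h / g) = 1

/-- [T6] `CongOne` in terms of the Gauss datum. -/
def Stmt_CongRd : Prop :=
  ∀ (N : ℕ) (A : ValuationSubring Qb) (L : IntermediateField (kA A) (LaurentSeries (kA A)))
    (D : RedData Qb (FL N) (kA A) L), IsGaussS N A L D →
    ∀ u : FL N, ES.Mid.CongOne N A u → D.rd u = 1

/-- [GM] **Theorem G at the levels `M * r` with `a ∣ M`.** -/
def Stmt_GM : Prop :=
  ∀ (a M r : ℕ) [NeZero M] [NeZero (M * r)] (A : ValuationSubring Qb), Ctx a M r A →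
    ∀ W : FL (M * r) ≃ₐ[Qb] FL (M * r), IsAL M r W → ∀ m : ℕ, ¬ r ∣ m →
    ∀ u : FL (M * r), ES.Mid.IsDiv (M * r) m u → ES.Mid.CongOne (M * r) A u →
      F.ClassCong (M * r) m A (W u) →
      (∀ τ ∈ A.inertiaSubgroupIn ℚ, ∃ g : FL (M * r), g ^ m = ES.Mid.gal (M * r) τ u * u⁻¹) ∧
      (∀ σ : ES.Mid.GQ, A.IsFrobeniusAt σ r → ∃ g : FL (M * r),
        g ^ m = ES.Mid.gal (M * r) σ (ES.Mid.gal (M * r) σ u) * (u ^ (r ^ 2))⁻¹)

/-- [AP] the bridge between the two Atkin-Lehner predicates, and existence (`r` prime). -/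
def Stmt_ALPrime : Prop :=
  ∀ (M r : ℕ) [NeZero (M * r)], r.Prime → ¬ r ∣ M →
    (∃ W : FL (M * r) ≃ₐ[Qb] FL (M * r), IsAL M r W) ∧
    ∀ W : FL (M * r) ≃ₐ[Qb] FL (M * r), F.IsAL (M * r) r W ↔ IsAL M r W

end Fermat.Agent.BR.Inst

end
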