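import Fermat.Agent.BR.Inst.Interface
import Fermat.Agent.INJ.P1
import Fermat.Agent.INJ.P2

/-!
# BR / Inst / O2 : orthonormal families for two valuations inducing the same Gauss valuation on
`K(t)` (helper54)
-/

set_option autoImplicit false

namespace Fermat.Agent.BR.Inst

open Polynomial IntermediateField Fermat.Agent.INJ

section

variable {K F k Fb : Type} [Field K] [Field F] [Algebra K F] [Field k] [Field Fb] [Algebra k Fb]

/-- a polynomial with coefficients in `A`, one of which is `1`. -/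
def O2_Prim (A : ValuationSubring K) (P : K[X]) : Prop :=
  (∀ i, P.coeff i ∈ A) ∧ ∃ i, P.coeff i = 1

theorem O2_prim_rd (D : RedData K F k Fb) {t : F} (ht : t ∈ D.O)
    (htr : Transcendental k (D.rd t)) (P : K[X]) (hP : O2_Prim D.A P) :
    D.rd (aeval t P) ≠ 0 := by
  obtain ⟨h1, i, hi⟩ := hP
  have hmem : P ∈ Polynomial.lifts D.A.subtype := by
    rw [Polynomial.lifts_iff_coeff_lifts]
    intro n
    exact ⟨⟨_, h1 n⟩, rfl⟩
  obtain ⟨Q, hQ⟩ := (Polynomial.mem_lifts _).1 hmem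
  rw [← hQ]
  apply P1_rd_ne_zero ht htr
  intro h0
  have h1 : (Q.map D.rA).coeff i = 0 := by rw [h0, coeff_zero]
  rw [coeff_map] at h1
  have h2 : Q.coeff i = 1 := by
    apply Subtype.ext
    have := congrArg (fun p => Polynomial.coeff p i) hQ
    simp only [coeff_map] at this
    rw [hi] at this
    exact this
  rw [h2, map_one] at h1
  exact one_ne_zero h1

theorem O2_exists_prim (A : ValuationSubring K) (P : K[X]) (hP : P ≠ 0) :
    ∃ (a : K) (Q : K[X]), a ≠ 0 ∧ P = C a * Q ∧ O2_Prim A Q := by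
  have hne : P.support.Nonempty := by
    rwa [Finset.nonempty_iff_ne_empty, Ne, Polynomial.support_eq_empty]
  obtain ⟨i₀, hi₀, hmax⟩ := Finset.exists_max_image P.support
    (fun i => A.valuation (P.coeff i)) hne
  have ha : P.coeff i₀ ≠ 0 := Polynomial.mem_support_iff.1 hi₀
  refine ⟨P.coeff i₀, C (P.coeff i₀)⁻¹ * P, ha, ?_, ?_, i₀, ?_⟩
  · rw [← mul_assoc, ← C_mul, mul_inv_cancel₀ ha, C_1, one_mul]
  · intro n
    rw [Polynomial.coeff_C_mul, ← ValuationSubring.valuation_le_one_iff, map_mul, map_inv₀]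
    by_cases hn : n ∈ P.support
    · have h1 := hmax n hn
      have h2 : A.valuation (P.coeff i₀) ≠ 0 := (Valuation.ne_zero_iff _).2 ha
      rw [inv_mul_le_iff₀ (zero_lt_iff.2 h2), mul_one]
      exact h1
    · rw [Polynomial.notMem_support_iff.1 hn, map_zero, mul_zero]
      exact zero_le_one
  · rw [Polynomial.coeff_C_mul, inv_mul_cancel₀ ha]

/-- the two valuations agree on `K(t)` (both are the Gauss valuation). -/
theorem O2_mem (D₁ D₂ : RedData K F k Fb) (hA : D₁.A = D₂.A) {t : F} (ht₁ : t ∈ D₁.O)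
    (ht₂ : t ∈ D₂.O) (htr₁ : Transcendental k (D₁.rd t)) (htr₂ : Transcendental k (D₂.rd t))
    (c : F) (hc : c ∈ K⟮t⟯) (hcO : c ∈ D₁.O) : c ∈ D₂.O := by
  obtain ⟨P, Q, rfl⟩ := (IntermediateField.mem_adjoin_simple_iff K c).1 hc
  by_cases hP0 : P = 0
  · rw [hP0, map_zero, zero_div]; exact zero_mem _
  by_cases hQ0 : Q = 0
  · rw [hQ0, map_zero, div_zero]; exact zero_mem _
  obtain ⟨a, P₀, ha, hP, hP₀⟩ := O2_exists_prim D₁.A P hP0
  obtain ⟨b, Q₀, hb, hQ, hQ₀⟩ := O2_exists_prim D₁.A Q hQ0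
  have hPu := O2_prim_rd D₁ ht₁ htr₁ P₀ hP₀
  have hQu := O2_prim_rd D₁ ht₁ htr₁ Q₀ hQ₀
  have hPu' := O2_prim_rd D₂ ht₂ htr₂ P₀ (hA ▸ hP₀)
  have hQu' := O2_prim_rd D₂ ht₂ htr₂ Q₀ (hA ▸ hQ₀)
  have hPne : aeval t P₀ ≠ 0 := by
    intro h; rw [h] at hPu; exact hPu RedData.rd_zero
  have hQne : aeval t Q₀ ≠ 0 := by
    intro h; rw [h] at hQu; exact hQu RedData.rd_zero
  have hb' : algebraMap K F b ≠ 0 := (_root_.map_ne_zero _).2 hb
  have e1 : aeval t P / aeval t Q = algebraMap K F (a / b) * (aeval t P₀ / aeval t Q₀) := by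
    rw [hP, hQ, map_mul, map_mul, aeval_C, aeval_C, map_div₀]
    field_simp
  have habO : algebraMap K F (a / b) ∈ D₁.O := by
    have : algebraMap K F (a / b) = (aeval t P / aeval t Q) * (aeval t Q₀ * (aeval t P₀)⁻¹) := by
      rw [e1]; field_simp
    rw [this]
    exact mul_mem hcO (mul_mem (RedData.mem_of_rd_ne_zero hQu)
      (RedData.inv_mem_of_rd_ne_zero hPu))
  have habA : a / b ∈ D₂.A := hA ▸ (D₁.mem_iff _).1 habO
  rw [e1]
  exact mul_mem ((D₂.mem_iff _).2 habA) (RedData.div_mem (RedData.mem_of_rd_ne_zero hPu') hQu')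

/-- one half of the argument: the maximal coefficient cannot sit on the first family. -/
theorem O2_half (D : RedData K F k Fb) {t : F} (ht : t ∈ D.O) (htr : Transcendental k (D.rd t))
    {ι₁ ι₂ : Type} [Fintype ι₁] [Fintype ι₂] (x : ι₁ → F) (x' : ι₂ → F)
    (hx : ∀ i, x i ∈ D.O) (hx' : ∀ j, x' j ∈ D.O ∧ D.rd (x' j) = 0)
    (hli : LinearIndependent k⟮D.rd t⟯ (fun i => D.rd (x i)))
    (d : ι₁ → K⟮t⟯) (d' : ι₂ → K⟮t⟯) (hd : ∀ i, (d i : F) ∈ D.O) (hd' : ∀ j, (d' j : F) ∈ D.O)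
    (i0 : ι₁) (hi0 : d i0 = 1)
    (hsum : ∑ i, (d i : F) * x i + ∑ j, (d' j : F) * x' j = 0) : False := by
  have h1 := P2_key D t (fun c hc => P1_field ht htr c c.2 hc) x hx hli d hd i0 hi0
  apply h1
  have h2 : ∑ i, (d i : F) * x i = - ∑ j, (d' j : F) * x' j := eq_neg_of_add_eq_zero_left hsum
  rw [h2, RedData.rd_neg (RedData.sum_mem _ _ fun j _ => mul_mem (hd' j) (hx' j).1),
    RedData.rd_sum _ _ (fun j _ => mul_mem (hd' j) (hx' j).1), neg_eq_zero]
  refine Finset.sum_eq_zero fun j _ => ?_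
  rw [RedData.rd_mul (hd' j) (hx' j).1, (hx' j).2, mul_zero]

end

theorem stmt_Ortho2 : Stmt_Ortho2 := by
  intro K F k Fb _ _ _ _ _ _ D₁ D₂ t hA ht₁ ht₂ htr₁ htr₂ ι₁ ι₂ _ _ x x' hx hx' hli₁ hli₂
  rw [Fintype.linearIndependent_iff]
  intro g hg
  by_contra hne
  push Not at hne
  obtain ⟨j, hj⟩ := hne
  obtain ⟨i0, hj0, hmax⟩ := P2_exists_max D₁ (fun i => (g i : F)) j
  have hj' : (g j : F) ≠ 0 := fun h => hj (Subtype.ext h)
  have hi0 : g i0 ≠ 0 := by
    intro h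
    rw [h] at hj0
    simp only [ZeroMemClass.coe_zero, map_zero, le_zero_iff] at hj0
    exact hj' ((Valuation.zero_iff _).1 hj0)
  have hi0' : (g i0 : F) ≠ 0 := fun h => hi0 (Subtype.ext h)
  have hd₁ : ∀ i, ((g i / g i0 : K⟮t⟯) : F) ∈ D₁.O := fun i => by
    have := P2_div_mem D₁ hi0' (hmax i)
    simpa using this
  have hd₂ : ∀ i, ((g i / g i0 : K⟮t⟯) : F) ∈ D₂.O := fun i =>
    O2_mem D₁ D₂ hA ht₁ ht₂ htr₁ htr₂ _ (g i / g i0 : K⟮t⟯).2 (hd₁ i)
  have hsum : ∑ i, ((g i / g i0 : K⟮t⟯) : F) * Sum.elim x x' i = 0 := by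
    have h0 : ∑ i, (g i : F) * Sum.elim x x' i = 0 := by
      rw [← hg]
      exact Finset.sum_congr rfl fun i _ => rfl
    have h1 : ∑ i, ((g i / g i0 : K⟮t⟯) : F) * Sum.elim x x' i
        = (∑ i, (g i : F) * Sum.elim x x' i) * (g i0 : F)⁻¹ := by
      rw [Finset.sum_mul]
      refine Finset.sum_congr rfl fun i _ => ?_
      simp only [IntermediateField.coe_div]
      field_simp
    rw [h1, h0, zero_mul]
  rw [Fintype.sum_sum_type] at hsum
  simp only [Sum.elim_inl, Sum.elim_inr] at hsum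
  rcases i0 with i0 | i0
  · exact O2_half D₁ ht₁ htr₁ x x' (fun i => (hx i).1) (fun j => ⟨(hx' j).1, (hx' j).2.2⟩) hli₁
      (fun i => g (Sum.inl i) / g (Sum.inl i0)) (fun j => g (Sum.inr j) / g (Sum.inl i0))
      (fun i => hd₁ _) (fun j => hd₁ _) i0 (div_self hi0) hsum
  · exact O2_half D₂ ht₂ htr₂ x' x (fun j => (hx' j).2.1) (fun i => ⟨(hx i).2.1, (hx i).2.2⟩) hli₂
      (fun j => g (Sum.inr j) / g (Sum.inr i0)) (fun i => g (Sum.inl i) / g (Sum.inr i0))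
      (fun j => hd₂ _) (fun i => hd₂ _) i0 (div_self hi0) (by rw [add_comm]; exact hsum)

end Fermat.Agent.BR.Inst
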