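import Fermat.Agent.BR.Inst.Interface2
import Fermat.Agent.BR.F.ALField
import Fermat.Agent.INJ.Inst.Descent

/-!
# BR / Inst, package [T7] : level raising + norm descent: Theorem G at all levels
-/

set_option autoImplicit false
set_option synthInstance.maxHeartbeats 400000
set_option linter.style.haveILetI false

noncomputable section

namespace Fermat.Agent.BR.Inst

open AlgebraicCurve ModularCurve IntermediateField Polynomial
open Fermat.Agent Fermat.Agent.INJ Fermat.Agent.INJ.Inst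
open Fermat.Agent.S24 (Qbar FF funAlg jBar)
open Fermat.Agent.S24.QX (qExpHom qExpHom_injective)
open Fermat.Agent.ES.Mid (gal coe_gal GQ IsDiv CongOne)
attribute [local instance] Fermat.Agent.S24.algQbarComplex

/-- two ring homomorphisms from `F_N` to a field agreeing on the constants and on the `j_d` are
equal. -/
theorem T7_eq_of_gens (N : ℕ) [NeZero N] {L : Type*} [Field L] (φ ψ : FF N →+* L)
    (hc : ∀ c : Qbar, φ (algebraMap Qbar (FF N) c) = ψ (algebraMap Qbar (FF N) c))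
    (hj : ∀ (d : ℕ) [NeZero d] (hd : d ∣ N), φ (jBar N d hd) = ψ (jBar N d hd))
    (u : FF N) : φ u = ψ u := by
  obtain ⟨a, b, hb, hab⟩ := ES.Mid.HG.exists_quot N u
  have hb' : qExpHom N b ≠ 0 := fun h => hb (qExpHom_injective N (by rw [h, map_zero]))
  have h1 : φ u * φ (qExpHom N b) = φ (qExpHom N a) := by rw [← map_mul, hab]
  have h2 : ψ u * ψ (qExpHom N b) = ψ (qExpHom N a) := by rw [← map_mul, hab]
  rw [F.W3.eq_on_funAlg N φ ψ hc hj a, F.W3.eq_on_funAlg N φ ψ hc hj b, ← h2] at h1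
  exact mul_right_cancel₀ ((_root_.map_ne_zero ψ).2 hb') h1

section Incl

variable {N N' : ℕ} [NeZero N] [NeZero N']

/-- the inclusion `F_N ⊆ F_{N'}`. -/
def T7_incl (h : N ∣ N') : FF N →ₐ[Qbar] FF N' := IntermediateField.inclusion (Descent.bar_le h)

theorem T7_coe_incl (h : N ∣ N') (u : FF N) :
    ((T7_incl h u : FF N') : LaurentSeries Qbar) = (u : LaurentSeries Qbar) :=
  IntermediateField.coe_inclusion (Descent.bar_le h) u

theorem T7_incl_jBar (h : N ∣ N') (d : ℕ) [NeZero d] (hd : d ∣ N) :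
    T7_incl h (jBar N d hd) = jBar N' d (hd.trans h) :=
  Subtype.ext (T7_coe_incl h _)

theorem T7_incl_gal (h : N ∣ N') (σ : GQ) (u : FF N) :
    gal N' σ (T7_incl h u) = T7_incl h (gal N σ u) := by
  apply Subtype.ext
  rw [coe_gal, T7_coe_incl, T7_coe_incl, coe_gal]

theorem T7_congOne (h : N ∣ N') (A : ValuationSubring Qbar) {u : FF N} (hu : CongOne N A u) :
    CongOne N' A (T7_incl h u) := by
  obtain ⟨y₁, y₂, h1, h2, h3, h4, h5⟩ := hu
  exact ⟨y₁, y₂, Descent.bar_le h h1, Descent.bar_le h h2, h3, h4, h5⟩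

theorem T7_isDiv (h : N ∣ N') (m : ℕ) {u : FF N} (hu : IsDiv N m u) :
    IsDiv N' m (T7_incl h u) := by
  letI : Algebra (modularFunctionFieldBar N) (modularFunctionFieldBar N') :=
    (IntermediateField.inclusion (Descent.bar_le h)).toRingHom.toAlgebra
  haveI : IsScalarTower Qbar (modularFunctionFieldBar N) (modularFunctionFieldBar N') :=
    IsScalarTower.of_algebraMap_eq (fun x => rfl)
  refine ⟨(_root_.map_ne_zero (T7_incl h)).2 hu.1, fun P' => ?_⟩
  exact Descent.places_dvd (K := Qbar) (F' := modularFunctionFieldBar N') (m : ℤ) u hu.2 P'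

/-- the Atkin-Lehner involutions at the levels `N ∣ N'` are compatible. -/
theorem T7_incl_al (h : N ∣ N') {r : ℕ} (hr : r.Prime) (hrN : r ∣ N)
    (w : FF N ≃ₐ[Qbar] FF N) (hw : F.IsAL N r w) (w' : FF N' ≃ₐ[Qbar] FF N')
    (hw' : F.IsAL N' r w') (u : FF N) : w' (T7_incl h u) = T7_incl h (w u) := by
  refine T7_eq_of_gens N ((w' : FF N' →+* FF N').comp (T7_incl h : FF N →+* FF N'))
    ((T7_incl h : FF N →+* FF N').comp (w : FF N →+* FF N)) (fun c => ?_) (fun d _ hd => ?_) u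
  · show w' (T7_incl h (algebraMap Qbar (FF N) c)) = T7_incl h (w (algebraMap Qbar (FF N) c))
    rw [w.commutes, (T7_incl h).commutes, w'.commutes]
  · show w' (T7_incl h (jBar N d hd)) = T7_incl h (w (jBar N d hd))
    rw [T7_incl_jBar]
    by_cases hrd : r ∣ d
    · obtain ⟨d', rfl⟩ := hrd
      have hd'0 : NeZero d' := ⟨by
        rintro rfl
        exact NeZero.ne (r * 0) (mul_zero r)⟩
      have hd' : d' ∣ N := (Dvd.intro_left r rfl).trans hd
      rw [(hw d' (r * d') hd' hd (mul_comm r d')).2,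
        (hw' d' (r * d') (hd'.trans h) (hd.trans h) (mul_comm r d')).2, T7_incl_jBar]
    · have hcop : Nat.Coprime d r := ((Nat.Prime.coprime_iff_not_dvd hr).2 hrd).symm
      have hd' : d * r ∣ N := Nat.Coprime.mul_dvd_of_dvd_of_dvd hcop hd hrN
      have hd'0 : NeZero (d * r) := ⟨mul_ne_zero (NeZero.ne d) hr.ne_zero⟩
      rw [(hw d (d * r) hd hd' rfl).1, (hw' d (d * r) (hd.trans h) (hd'.trans h) rfl).1,
        T7_incl_jBar]

theorem T7_relfinrank_pos (h : N ∣ N') :
    0 < relfinrank (modularFunctionFieldBar N) (modularFunctionFieldBar N') := by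
  have h1 := Descent.psi_mul_relfinrank h
  have h2 := Descent.psi_pos N'
  rw [← h1] at h2
  exact Nat.pos_of_mul_pos_left h2

/-- norm descent. -/
theorem T7_descent (h : N ∣ N') (m : ℕ) (x : FF N) (g : FF N') (hg : g ^ m = T7_incl h x) :
    ∃ g' : FF N, g' ^ m =
      x ^ relfinrank (modularFunctionFieldBar N) (modularFunctionFieldBar N') :=
  Descent.exists_pow_eq_pow_relfinrank (Descent.bar_le h) m x g (by
    have := congrArg Subtype.val hg
    rw [T7_coe_incl] at this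
    simpa using this)

end Incl

/-- Theorem G at level `N ∣ M * r`. -/
theorem T7_step (hGM : Stmt_GM) (hAP : Stmt_ALPrime) (a N M r : ℕ) [NeZero N] [NeZero M]
    [NeZero (M * r)] (h : N ∣ M * r) (hr : r.Prime) (hrN : r ∣ N) (hrM : ¬ r ∣ M)
    (ha : a = 2 ∨ a = 3) (haM : a ∣ M) (w : FF N ≃ₐ[Qbar] FF N) (hw : F.IsAL N r w)
    (A : ValuationSubring Qbar) (hA : A.LiesOverPrime r) (m : ℕ) (hm : ¬ r ∣ m) (u : FF N)
    (hu1 : IsDiv N m u) (hu2 : CongOne N A u) (hu3 : F.ClassCong N m A (w u)) :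
    (∀ τ ∈ A.inertiaSubgroupIn ℚ, ∃ g : FF N, g ^ m = (gal N τ u * u⁻¹) ^
      relfinrank (modularFunctionFieldBar N) (modularFunctionFieldBar (M * r))) ∧
    (∀ σ : GQ, A.IsFrobeniusAt σ r → ∃ g : FF N,
      g ^ m = (gal N σ (gal N σ u) * (u ^ (r ^ 2))⁻¹) ^
        relfinrank (modularFunctionFieldBar N) (modularFunctionFieldBar (M * r))) := by
  obtain ⟨⟨W', hW'⟩, hiff⟩ := hAP M r hr hrM
  have hW'F : F.IsAL (M * r) r W' := (hiff W').2 hW'
  have hcomp := T7_incl_al h hr hrN w hw W' hW'F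
  have hcc : F.ClassCong (M * r) m A (W' (T7_incl h u)) := by
    obtain ⟨f, hf0, hf⟩ := hu3
    refine ⟨T7_incl h f, (_root_.map_ne_zero (T7_incl h)).2 hf0, ?_⟩
    rw [hcomp, ← map_pow, ← map_mul]
    exact T7_congOne h A hf
  obtain ⟨h1, h2⟩ := hGM a M r A ⟨ha, haM, hr, hrM, hA⟩ W' hW' m hm (T7_incl h u)
    (T7_isDiv h m hu1) (T7_congOne h A hu2) hcc
  constructor
  · intro τ hτ
    obtain ⟨g, hg⟩ := h1 τ hτ
    refine T7_descent h m _ g ?_
    rw [hg, T7_incl_gal, map_mul, map_inv₀]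
  · intro σ hσ
    obtain ⟨g, hg⟩ := h2 σ hσ
    refine T7_descent h m _ g ?_
    rw [hg, T7_incl_gal, T7_incl_gal, map_mul, map_inv₀, map_pow]

/-- **[T7]** Theorem G at all levels. -/
theorem stmt_G_of_GM (hGM : Stmt_GM) (hAP : Stmt_ALPrime) : F.Stmt_G := by
  intro N _ r hr hrN hr2
  obtain ⟨a, ha, har⟩ : ∃ a : ℕ, (a = 2 ∨ a = 3) ∧ a ≠ r := by
    by_cases h2 : r = 2
    · exact ⟨3, Or.inr rfl, by omega⟩
    · exact ⟨2, Or.inl rfl, fun h => h2 h.symm⟩
  have haP : a.Prime := by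
    rcases ha with rfl | rfl
    · exact Nat.prime_two
    · exact Nat.prime_three
  have hcop : Nat.Coprime a r := (Nat.coprime_primes haP hr).2 har
  have hrN' : r ∣ N.lcm a := hrN.trans (Nat.dvd_lcm_left N a)
  obtain ⟨M, hM⟩ : ∃ M, N.lcm a = M * r := by
    obtain ⟨M, hM⟩ := hrN'
    exact ⟨M, by rw [hM, mul_comm]⟩
  have hN'0 : M * r ≠ 0 := by
    rw [← hM]
    exact Nat.lcm_ne_zero (NeZero.ne N) haP.ne_zero
  have : NeZero (M * r) := ⟨hN'0⟩
  have : NeZero M := ⟨fun h0 => hN'0 (by rw [h0, zero_mul])⟩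
  have hNM : N ∣ M * r := hM ▸ Nat.dvd_lcm_left N a
  have haM : a ∣ M := by
    have h1 : a ∣ M * r := hM ▸ Nat.dvd_lcm_right N a
    exact hcop.dvd_of_dvd_mul_right h1
  have hrM : ¬ r ∣ M := by
    intro hd
    apply hr2
    have h1 : r ^ 2 ∣ M * r := by
      rw [sq]
      exact Nat.mul_dvd_mul_right hd r
    have h2 : M * r ∣ N * a := hM ▸ Nat.lcm_dvd_mul N a
    have h3 : Nat.Coprime (r ^ 2) a := (Nat.Coprime.pow_left 2 hcop.symm)
    exact h3.dvd_of_dvd_mul_right (h1.trans h2)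
  refine ⟨relfinrank (modularFunctionFieldBar N) (modularFunctionFieldBar (M * r)),
    T7_relfinrank_pos hNM, ?_⟩
  intro w hw A hA m hm u hu1 hu2 hu3
  exact T7_step hGM hAP a N M r hNM hr hrN hrM ha haM w hw A hA m hm u hu1 hu2 hu3

end Fermat.Agent.BR.Inst

end
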