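/-
BR / Inst, package [RS] (task 825): the residue field of the `q`-Gauss valuation at level `M r`
is the residue field at level `M`.
-/
import Fermat.Agent.BR.Inst.Interface
import Fermat.Agent.INJ.All
import Fermat.Agent.INJ.P17
import Fermat.Agent.INJ.Inst.DegLemma

set_option autoImplicit false
set_option synthInstance.maxHeartbeats 400000

noncomputable section

namespace Fermat.Agent.BR.Inst

open AlgebraicCurve ModularCurve IntermediateField Polynomial
open Fermat.Agent Fermat.Agent.INJ Fermat.Agent.INJ.Inst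

/-- `1, t, …, t^(r-1)` are independent over `k(t^r)`. -/
theorem RS_powIndep {k L : Type} [Field k] [Field L] [Algebra k L] (t : L) (r : ℕ) (hr : 0 < r)
    (ht : Transcendental k t) :
    LinearIndependent k⟮t ^ r⟯ (fun a : Fin r => t ^ (a : ℕ)) := by
  have h := stmt_DegLemma k L (t ^ r) t (X ^ r) 1 ht isCoprime_one_right
    (by rw [natDegree_one, natDegree_X_pow]; exact hr) (by simp)
  have key : ∀ n, n = r → LinearIndependent k⟮t ^ r⟯ (fun i : Fin n => t ^ (i : ℕ)) →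
      LinearIndependent k⟮t ^ r⟯ (fun i : Fin r => t ^ (i : ℕ)) := by
    rintro n rfl h; exact h
  exact key _ (natDegree_X_pow r) h

/-- the product family `y_i t^a` is independent over `k(t^r)`. -/
theorem RS_prodIndep {k L : Type} [Field k] [Field L] [Algebra k L] (t : L) (r : ℕ) (hr : 0 < r)
    (ht : Transcendental k t) {ι : Type} [Fintype ι] (y : ι → L)
    (hy : LinearIndependent k⟮t⟯ y) :
    LinearIndependent k⟮t ^ r⟯ (fun p : ι × Fin r => y p.1 * t ^ (p.2 : ℕ)) := by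
  have hle : k⟮t ^ r⟯ ≤ k⟮t⟯ :=
    adjoin_simple_le_iff.2 (pow_mem (mem_adjoin_simple_self k t) r)
  rw [Fintype.linearIndependent_iff]
  intro c hc
  let d : ι → k⟮t⟯ := fun i => ∑ a : Fin r,
    (⟨(c (i, a) : L), hle (c (i, a)).2⟩ : k⟮t⟯) * (⟨t, mem_adjoin_simple_self k t⟩ : k⟮t⟯) ^ (a : ℕ)
  have hd : ∀ i, ((d i : k⟮t⟯) : L) = ∑ a : Fin r, (c (i, a) : L) * t ^ (a : ℕ) := by
    intro i
    simp [d]
  have h1 : ∑ i, d i • y i = 0 := by
    rw [← hc, Fintype.sum_prod_type]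
    refine Finset.sum_congr rfl fun i _ => ?_
    rw [Algebra.smul_def, IntermediateField.algebraMap_apply, hd, Finset.sum_mul]
    refine Finset.sum_congr rfl fun a _ => ?_
    rw [Algebra.smul_def, IntermediateField.algebraMap_apply]
    ring
  have h2 := Fintype.linearIndependent_iff.1 hy d h1
  have h3 := Fintype.linearIndependent_iff.1 (RS_powIndep t r hr ht)
  rintro ⟨i, a⟩
  refine h3 (fun a => c (i, a)) ?_ a
  have h4 := hd i
  rw [h2 i] at h4
  rw [← ZeroMemClass.coe_zero k⟮t⟯, h4]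
  refine Finset.sum_congr rfl fun a _ => ?_
  rw [Algebra.smul_def, IntermediateField.algebraMap_apply]


/-- the fundamental inequality for the two valuations `v_∞`, `v_0 = v_∞ ∘ W`:
`(r + 1) [Fb : k(sbar)] ≤ [F : K(s)]`. -/
theorem RS_core (hO : Stmt_Ortho2) (hAp : Stmt_Approx)
    {K F k Fb : Type} [Field K] [Field F] [Algebra K F] [Field k] [Field Fb] [Algebra k Fb]
    (D : RedData K F k Fb) (W : F ≃ₐ[K] F) (s sr : F) (r : ℕ) (hr : 0 < r)
    (hWs : W s = sr) (hs : s ∈ D.O) (hsr : sr ∈ D.O) (hrd : D.rd sr = D.rd s ^ r)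
    (htr : Transcendental k (D.rd s)) (hε : ∃ ε : F, InO2 D W ε ∧ rd2 D W ε = (1, 0))
    (hArch : Arch D) (hfin : FiniteDimensional K⟮s⟯ F) :
    FiniteDimensional k⟮D.rd s⟯ Fb ∧
      (r + 1) * Module.finrank k⟮D.rd s⟯ Fb ≤ Module.finrank K⟮s⟯ F := by
  have hfb : FiniteDimensional k⟮D.rd s⟯ Fb := stmt_ResFinite K F k Fb D s hs htr hfin
  refine ⟨hfb, ?_⟩
  obtain ⟨ε, ⟨hε1, hε2⟩, hε3⟩ := hε
  have hε4 : D.rd ε = 1 := congrArg Prod.fst hε3
  have hε5 : D.rd (W ε) = 0 := congrArg Prod.snd hε3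
  let b := Module.finBasis k⟮D.rd s⟯ Fb
  have ap1 := hAp K F k Fb D (twist D W) rfl hArch
    ⟨ε, hε1, (mem_twist_O D W ε).2 hε2, hε4, by rw [twist_rd]; exact hε5⟩
  have hW1 : W (1 - ε) = 1 - W ε := by rw [map_sub, map_one]
  have ap2 := hAp K F k Fb (twist D W) D rfl hArch
    ⟨1 - ε, (mem_twist_O D W _).2 (by rw [hW1]; exact sub_mem D.O.one_mem hε2),
      sub_mem D.O.one_mem hε1,
      by rw [twist_rd, hW1, RedData.rd_sub D.O.one_mem hε2, hε5, RedData.rd_one, sub_zero],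
      by rw [RedData.rd_sub D.O.one_mem hε1, hε4, RedData.rd_one, sub_self]⟩
  choose x hx using fun i => ap1 (b i)
  choose x' hx' using fun p : Fin (Module.finrank k⟮D.rd s⟯ Fb) × Fin r =>
    ap2 (b p.1 * D.rd s ^ (p.2 : ℕ))
  have e2 : (twist D W).rd s = D.rd s ^ r := by rw [twist_rd, hWs, hrd]
  have hli := hO K F k Fb D (twist D W) s rfl hs ((mem_twist_O D W s).2 (by rw [hWs]; exact hsr))
    htr (by rw [e2]; exact htr.pow hr) _ _ x x'
    (fun i => ⟨(hx i).1, (hx i).2.1, (hx i).2.2.2⟩)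
    (fun j => ⟨(hx' j).2.1, (hx' j).1, (hx' j).2.2.2⟩)
    (by
      have : (fun i => D.rd (x i)) = b := funext fun i => (hx i).2.2.1
      rw [this]; exact b.linearIndependent)
    (by
      have : (fun j => (twist D W).rd (x' j)) =
          fun p : Fin (Module.finrank k⟮D.rd s⟯ Fb) × Fin r => b p.1 * D.rd s ^ (p.2 : ℕ) :=
        funext fun j => (hx' j).2.2.1
      rw [this, e2]
      exact RS_prodIndep (D.rd s) r hr htr b b.linearIndependent)
  have hcard := hli.fintype_card_le_finrank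
  simp only [Fintype.card_sum, Fintype.card_prod, Fintype.card_fin] at hcard
  calc (r + 1) * Module.finrank k⟮D.rd s⟯ Fb
      = Module.finrank k⟮D.rd s⟯ Fb + Module.finrank k⟮D.rd s⟯ Fb * r := by ring
    _ ≤ _ := hcard

/-- an embedding of fields over `k(t)` which does not increase the degree is onto. -/
theorem RS_surj {k L' L : Type} [Field k] [Field L'] [Field L] [Algebra k L'] [Algebra k L]
    (ι : L' →ₐ[k] L) (t' : L') (t : L) (ht : ι t' = t) (h1 : FiniteDimensional k⟮t'⟯ L')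
    (h2 : FiniteDimensional k⟮t⟯ L)
    (h : Module.finrank k⟮t⟯ L ≤ Module.finrank k⟮t'⟯ L') : Function.Surjective ι := by
  subst ht
  have hlift : ∀ c : k⟮ι t'⟯, ∃ c' : k⟮t'⟯, ι (c' : L') = (c : L) := by
    intro c
    have hc : (c : L) ∈ (k⟮t'⟯).map ι := by
      rw [IntermediateField.adjoin_map, Set.image_singleton]
      exact c.2
    obtain ⟨c', hc', hcc⟩ := hc
    exact ⟨⟨c', hc'⟩, hcc⟩
  let b := Module.finBasis k⟮t'⟯ L'
  have hli : LinearIndependent k⟮ι t'⟯ (fun i => ι (b i)) := by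
    rw [Fintype.linearIndependent_iff]
    intro c hc
    choose c' hc' using hlift
    have h3 : ι (∑ i, c' (c i) • b i) = 0 := by
      rw [← hc, map_sum]
      refine Finset.sum_congr rfl fun i _ => ?_
      rw [Algebra.smul_def, Algebra.smul_def, map_mul, IntermediateField.algebraMap_apply,
        IntermediateField.algebraMap_apply, hc']
    have h4 : ∑ i, c' (c i) • b i = 0 := (map_eq_zero ι).1 h3
    have h5 := Fintype.linearIndependent_iff.1 b.linearIndependent _ h4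
    intro i
    apply Subtype.ext
    rw [← hc', h5 i]
    simp
  have hcard : Fintype.card (Fin (Module.finrank k⟮t'⟯ L')) = Module.finrank k⟮ι t'⟯ L :=
    le_antisymm hli.fintype_card_le_finrank (by rw [Fintype.card_fin]; exact h)
  have hspan := hli.span_eq_top_of_card_eq_finrank' hcard
  intro y
  have hy : y ∈ Submodule.span k⟮ι t'⟯ (Set.range fun i => ι (b i)) := by
    rw [hspan]; exact Submodule.mem_top
  obtain ⟨c, hc⟩ := (Submodule.mem_span_range_iff_exists_fun _).1 hy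
  choose c' hc' using hlift
  refine ⟨∑ i, c' (c i) • b i, ?_⟩
  rw [← hc, map_sum]
  refine Finset.sum_congr rfl fun i _ => ?_
  rw [Algebra.smul_def, Algebra.smul_def, map_mul, IntermediateField.algebraMap_apply,
    IntermediateField.algebraMap_apply, hc']


set_option maxHeartbeats 2000000 in
/-- [RS] the residue field of `v_∞` at level `M r` is the residue field at level `M`. -/
theorem stmt_Res (hB : Stmt_BasicS) (hO : Stmt_Ortho2) (hAp : Stmt_Approx) (hDS : Stmt_DegS)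
    (hDW : Stmt_DegW) (hNS : Stmt_NormS) (hRL : Stmt_RedLevel) (hLK : Stmt_LKf)
    (hLv : Stmt_Levels) (hAr : INJ.Inst.Stmt_ArchD) (_hALP : Stmt_ALProps) : Stmt_Res := by
  intro a M r _ A L D W s sr hG
  obtain ⟨hWs, hWsr, hs, hsr, -, hrdsr, htr, -, -, hε⟩ := hB a M r A L D W s sr hG
  have hM0 : M ≠ 0 := fun h => NeZero.ne (M * r) (by rw [h, zero_mul])
  have : NeZero M := ⟨hM0⟩
  have : Fact r.Prime := ⟨hG.ctx.hr⟩
  obtain ⟨L', D', hG'⟩ := exists_gaussS M A
  -- the coordinate at level `M`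
  have hs0mem : sS M (cJ a) Qb ∈ modularFunctionFieldBar M :=
    sub_mem (jd_mem_bar hM0 dvd_rfl) (_root_.natCast_mem _ _)
  obtain ⟨s0, hs0⟩ : ∃ s0 : FL M, (s0 : LaurentSeries Qb) = sS M (cJ a) Qb := ⟨⟨_, hs0mem⟩, rfl⟩
  have hChart : Chart D' s0 := by
    rcases hG.ctx.ha with h2 | h3
    · exact (hNS.1 M r (h2 ▸ hG.ctx.haM) hG.ctx.hrM A hG.ctx.hA L' D' hG'.gauss s0
        (by rw [hs0, h2])).1
    · exact (hNS.2 M r (h3 ▸ hG.ctx.haM) hG.ctx.hrM A hG.ctx.hA L' D' hG'.gauss s0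
        (by rw [hs0, h3])).1
  have hdeg' := (all_Trace Qb (FL M) (kA A) L' D' s0 hChart).1
  have hfin' : FiniteDimensional (kA A)⟮D'.rd s0⟯ L' :=
    stmt_ResFinite Qb (FL M) (kA A) L' D' s0 hChart.t_mem hChart.trans hChart.fin
  have hL' : L' = S28.Kf (kA A) M := hLK M r hG.ctx.hrM A hG.ctx.hA L' D' hG'.gauss
  -- lifting from level `M` to level `M r`
  have hlift : ∀ x' : FL M, ∃ x : FL (M * r), (x : LaurentSeries Qb) = (x' : LaurentSeries Qb) :=
    fun x' => ⟨⟨_, (hLv M r _ x'.2).1⟩, rfl⟩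
  have hkey : ∀ y' : L', ∃ x : FL (M * r), (x : LaurentSeries Qb) ∈ modularFunctionFieldBar M ∧
      x ∈ D.O ∧ ((D.rd x : L) : LaurentSeries (kA A)) = (y' : LaurentSeries (kA A)) := by
    intro y'
    obtain ⟨x', hx', hxy⟩ := RedData.exists_rd_eq (D := D') y'
    obtain ⟨x, hx⟩ := hlift x'
    obtain ⟨h1, h2⟩ := hRL (M * r) M A L L' D D' hG.gauss hG' x x' hx
    exact ⟨x, hx ▸ x'.2, h1.2 hx', by rw [h2, hxy]⟩
  have hle : L' ≤ L := by
    intro y hy
    obtain ⟨x, -, -, hx⟩ := hkey ⟨y, hy⟩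
    have : ((D.rd x : L) : LaurentSeries (kA A)) = y := hx
    rw [← this]
    exact (D.rd x).2
  -- degrees
  obtain ⟨hf1, hd1⟩ := hDS M r (cJ a) hG.ctx.hr hG.ctx.hrM s0 sr hs0 hG.hsr
  obtain ⟨hf2, hd2⟩ := hDW Qb (FL (M * r)) W sr hf1
  rw [hWsr] at hf2 hd2
  have hArch : Arch D := hAr (M * r) r A hG.ctx.hA L D hG.gauss.gauss
  obtain ⟨hf3, hd3⟩ := RS_core hO hAp D W s sr r hG.ctx.hr.pos hWs hs hsr hrdsr htr hε hArch hf2
  have hn : Module.finrank (kA A)⟮D.rd s⟯ L ≤ Module.finrank (kA A)⟮D'.rd s0⟯ L' := by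
    rw [hdeg']
    refine Nat.le_of_mul_le_mul_left ?_ (Nat.succ_pos r)
    calc (r + 1) * Module.finrank (kA A)⟮D.rd s⟯ L ≤ Module.finrank Qb⟮s⟯ (FL (M * r)) := hd3
      _ = Module.finrank Qb⟮sr⟯ (FL (M * r)) := hd2
      _ ≤ _ := hd1
  have hι : IntermediateField.inclusion hle (D'.rd s0) = D.rd s := by
    apply Subtype.ext
    have := (hRL (M * r) M A L L' D D' hG.gauss hG' s s0 (by rw [hG.hs, hs0])).2
    rw [this]
    rfl
  have hsurj := RS_surj (IntermediateField.inclusion hle) (D'.rd s0) (D.rd s) hι hfin' hf3 hn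
  have hLL' : L = L' := by
    refine le_antisymm ?_ hle
    intro y hy
    obtain ⟨y', hy'⟩ := hsurj ⟨y, hy⟩
    have : (y' : LaurentSeries (kA A)) = y := congrArg Subtype.val hy'
    rw [← this]
    exact y'.2
  refine ⟨hLL'.trans hL', fun y => ?_⟩
  obtain ⟨x, h1, h2, h3⟩ := hkey ⟨(y : LaurentSeries (kA A)), hLL' ▸ y.2⟩
  exact ⟨x, h1, h2, Subtype.ext h3⟩

end Fermat.Agent.BR.Inst

end
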