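import Fermat.Agent.BR.Inst.Interface
import Fermat.Agent.S18.Glue28
import Fermat.Agent.ES.Mid.HF3

/-!
# BR / Inst, package [SJ] : `J = I × I ⊆ rd2 (BB_t)`
-/

set_option autoImplicit false
set_option synthInstance.maxHeartbeats 400000

noncomputable section

namespace Fermat.Agent.BR.Inst

open AlgebraicCurve ModularCurve IntermediateField Polynomial
open Fermat.Agent Fermat.Agent.INJ Fermat.Agent.INJ.Inst
open Fermat.Agent.BR.Inv (IsIntE)

/-! ### the abstract argument -/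

section Abs

variable {K F k Fb : Type*} [Field K] [Field F] [Algebra K F] [Field k] [Field Fb] [Algebra k Fb]

theorem SJ_isInt_pow (t : F) (n : ℕ) : IsInt K t (t ^ n) := by
  unfold IsInt
  have h : IsIntegral (Algebra.adjoin K {t}) t :=
    isIntegral_algebraMap (R := Algebra.adjoin K {t})
      (x := (⟨t, Algebra.subset_adjoin (Set.mem_singleton t)⟩ : Algebra.adjoin K {t}))
  exact h.pow n

theorem SJ_abs (D : RedData K F k Fb) (W : F ≃ₐ[K] F) (hWW : ∀ x, W (W x) = x) (t : F)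
    (Φ : Fb → Fb)
    (hSN : ∀ y : Fb, IsInt k (D.rd t) y → ∃ x : F, InO2 D W x ∧ IsInt K t x ∧ IsInt K t (W x) ∧
      D.rd x = y ∧ D.rd (W x) = Φ y)
    (hΦ : ∀ y : Fb, IsInt k (D.rd t) y → IsInt k (D.rd t) (Φ y))
    (y c : Fb) (hy : IsInt k (D.rd t) y) (hc : IsInt k (D.rd t) c) :
    (∃ x : F, InO2 D W x ∧ IsInt K t x ∧ rd2 D W x = ((y - Φ (Φ y)) * c, 0)) ∧
    (∃ x : F, InO2 D W x ∧ IsInt K t x ∧ rd2 D W x = (0, (y - Φ (Φ y)) * c)) := by
  obtain ⟨xy, ⟨hy1, hy2⟩, hy3, hy4, hy5, hy6⟩ := hSN y hy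
  obtain ⟨x1, ⟨h11, h12⟩, h13, h14, h15, h16⟩ := hSN (Φ y) (hΦ y hy)
  obtain ⟨xc, ⟨hc1, hc2⟩, hc3, hc4, hc5, hc6⟩ := hSN c hc
  have hWz : W ((xy - W x1) * xc) = (W xy - x1) * W xc := by
    rw [map_mul, map_sub, hWW]
  have hzO : (xy - W x1) * xc ∈ D.O := mul_mem (sub_mem hy1 h12) hc1
  have hWzO : (W xy - x1) * W xc ∈ D.O := mul_mem (sub_mem hy2 h11) hc2
  have hzI : IsInt K t ((xy - W x1) * xc) := IsIntegral.mul (IsIntegral.sub hy3 h14) hc3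
  have hWzI : IsInt K t ((W xy - x1) * W xc) := IsIntegral.mul (IsIntegral.sub hy4 h13) hc4
  have hrz : D.rd ((xy - W x1) * xc) = (y - Φ (Φ y)) * c := by
    rw [RedData.rd_mul (sub_mem hy1 h12) hc1, RedData.rd_sub hy1 h12, hy5, h16, hc5]
  have hrWz : D.rd ((W xy - x1) * W xc) = 0 := by
    rw [RedData.rd_mul (sub_mem hy2 h11) hc2, RedData.rd_sub hy2 h11, hy6, h15, sub_self, zero_mul]
  constructor
  · refine ⟨(xy - W x1) * xc, ⟨hzO, ?_⟩, hzI, ?_⟩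
    · rw [hWz]; exact hWzO
    · rw [rd2, hWz, hrz, hrWz]
  · refine ⟨(W xy - x1) * W xc, ⟨hWzO, ?_⟩, hWzI, ?_⟩
    · rw [← hWz, hWW]; exact hzO
    · rw [rd2, ← hWz, hWW, hWz, hrz, hrWz]

/-- a `k`-algebra endomorphism with `Φ t = t ^ r` preserves integrality over `k[t]`. -/
theorem SJ_isInt_endo (Φ : Fb →ₐ[k] Fb) (t : Fb) (r : ℕ) (h : Φ t = t ^ r) (y : Fb)
    (hy : IsInt k t y) : IsInt k t (Φ y) := by
  have h1 := isInt_map Φ hy
  rw [h] at h1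
  exact isInt_trans (SJ_isInt_pow t r) h1

end Abs

/-! ### `V_r` on the residue field -/

theorem SJ_coeffMap_sS {R S : Type} [CommRing R] [CommRing S] (f : R →+* S) (d c : ℕ) :
    coeffMap f (sS d c R) = sS d c S := by
  rw [sS, map_sub, coeffMap_jd, map_natCast, sS]

theorem SJ_Vq_sS (R : Type) [CommRing R] {r d : ℕ} (hr : r ≠ 0) (hd : d ≠ 0) (c : ℕ) :
    S28.Vq R r (sS d c R) = sS (r * d) c R := by
  rw [sS, map_sub, map_natCast, S28.jd, S28.tower_Vq_Vq R hr hd, sS, S28.jd]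

/-- `V_r` as an endomorphism of `L`. -/
def SJ_Phi (k : Type) [Field k] (L : IntermediateField k (LaurentSeries k)) (r : ℕ) [NeZero r]
    (h : ∀ y ∈ L, S28.Vq k r y ∈ L) : L →ₐ[k] L :=
  ((qExpandAlgHomC k r).comp L.val).codRestrict L.toSubalgebra (fun y => by
    have := h y.1 y.2
    rw [S28.Vq_eq] at this
    exact this)

theorem SJ_Phi_coe (k : Type) [Field k] (L : IntermediateField k (LaurentSeries k)) (r : ℕ)
    [NeZero r] (h : ∀ y ∈ L, S28.Vq k r y ∈ L) (y : L) :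
    ((SJ_Phi k L r h y : L) : LaurentSeries k) = S28.Vq k r (y : LaurentSeries k) := by
  rw [S28.Vq_eq]
  rfl

/-- **[SJ]**. -/
theorem stmt_SJ (hSN : Stmt_SN) (hALP : Stmt_ALProps) (hR : Stmt_Res) (hF : Stmt_FrobKf)
    (hDT : Stmt_DegT) (hB : Stmt_BasicS) : Stmt_SJ := by
  intro a M r _ A L D W s sr hG t ht y y2 c hy hc hy2
  have hrP : r.Prime := hG.ctx.hr
  have : Fact r.Prime := ⟨hrP⟩
  have : NeZero r := ⟨hrP.ne_zero⟩
  have hM0 : M ≠ 0 := fun h => NeZero.ne (M * r) (by rw [h, zero_mul])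
  have hAC : IsAlgClosed (kA A) := S18G.isAlgClosed_kA A
  have hCh : CharP (kA A) r := ES.Mid.HF3.charP_residue A r hG.ctx.hA
  obtain ⟨hF1, hF2, hF3⟩ := hF (kA A) r M
  obtain ⟨hL, -⟩ := hR a M r A L D W s sr hG
  obtain ⟨hWW, -, -⟩ := hALP M r W hG.al
  obtain ⟨-, -, hsO, hsrO, hsb, hsrb, hstr, -, -, -⟩ := hB a M r A L D W s sr hG
  obtain ⟨⟨htO, -⟩, -, -, -, -⟩ := hDT a M r A L D W s sr hG t ht
  have hV : ∀ y ∈ L, S28.Vq (kA A) r y ∈ L := by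
    intro y hy
    rw [hL] at hy ⊢
    obtain ⟨g, hg, hgr⟩ := hF2 y hy
    rw [← hgr]
    exact pow_mem hg r
  -- `Φ sb = sb ^ r`
  have hΦs : SJ_Phi (kA A) L r hV (D.rd s) = D.rd s ^ r := by
    apply Subtype.ext
    rw [SJ_Phi_coe, hsb]
    have h1 := hF3 (frobenius (kA A) r) (fun c => frobenius_def r c) (sS M (cJ a) (kA A))
    rw [SJ_Vq_sS _ hrP.ne_zero hM0, SJ_coeffMap_sS] at h1
    rw [SJ_Vq_sS _ hrP.ne_zero hM0, ← h1, ← hsb]
    rfl
  have hsb0 : D.rd s ≠ 0 := by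
    intro h
    rw [h] at hstr
    exact hstr isAlgebraic_zero
  have hprod : D.rd (s * sr) = D.rd s ^ (r + 1) := by
    rw [RedData.rd_mul hsO hsrO, hsrb, pow_succ']
  have hΦt : SJ_Phi (kA A) L r hV (D.rd t) = D.rd t ^ r := by
    rcases ht with rfl | rfl
    · rw [hprod, map_pow, hΦs, ← pow_mul, ← pow_mul, mul_comm r (r + 1)]
    · have h0 : D.rd (s * sr) ≠ 0 := by
        rw [hprod]; exact pow_ne_zero _ hsb0
      rw [RedData.rd_inv h0, hprod, map_inv₀, map_pow, hΦs, inv_pow, ← pow_mul, ← pow_mul,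
        mul_comm r (r + 1)]
  have hy2' : y2 = SJ_Phi (kA A) L r hV (SJ_Phi (kA A) L r hV y) := by
    apply Subtype.ext
    rw [SJ_Phi_coe, SJ_Phi_coe, S28.tower_Vq_Vq _ hrP.ne_zero hrP.ne_zero, hy2, sq]
  rw [hy2']
  refine SJ_abs D W hWW t (SJ_Phi (kA A) L r hV) ?_
    (fun y hy => SJ_isInt_endo _ _ r hΦt y hy) y c hy hc
  intro y hy
  obtain ⟨x, h1, h2, h3, h4, h5⟩ := hSN a M r A L D W s sr hG t ht y hy
  refine ⟨x, h1, h2, h3, h4, ?_⟩
  apply Subtype.ext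
  rw [h5, SJ_Phi_coe]

end Fermat.Agent.BR.Inst

end
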