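import Fermat.Agent.BR.Inst.Interface

/-!
# BR / Inst : [SN] lifts `(a, a(q^r))` from level `M`, integral over `K[T^(±1)]`
-/

set_option autoImplicit false
set_option synthInstance.maxHeartbeats 400000
set_option maxHeartbeats 2000000
set_option linter.style.haveILetI false

noncomputable section

namespace Fermat.Agent.BR.Inst

open AlgebraicCurve ModularCurve IntermediateField Polynomial
open Fermat.Agent Fermat.Agent.INJ Fermat.Agent.INJ.Inst

/-- elements of `K[t]` are integral over `K[t]`. -/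
theorem SN_isInt_of_mem {K F : Type*} [Field K] [Field F] [Algebra K F] {t x : F}
    (h : x ∈ Algebra.adjoin K {t}) : IsInt K t x :=
  isIntegral_algebraMap (R := Algebra.adjoin K {t}) (x := (⟨x, h⟩ : Algebra.adjoin K {t}))

/-- an integral equation over `K[y]` lifts to a polynomial in two variables, monic in `X`. -/
theorem SN_exists_poly {K F : Type*} [Field K] [Field F] [Algebra K F] {x y : F}
    (h : IsInt K y x) :
    ∃ Φ : K[X][X], Φ.Monic ∧ (Φ.map (aeval y : K[X] →ₐ[K] F).toRingHom).eval x = 0 := by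
  obtain ⟨p, hp, hpx⟩ := h
  have hmem : ∀ P : K[X], aeval y P ∈ Algebra.adjoin K {y} := fun P => by
    rw [Algebra.adjoin_singleton_eq_range_aeval]
    exact ⟨P, rfl⟩
  let φ : K[X] →+* Algebra.adjoin K {y} :=
    { toFun := fun P => ⟨aeval y P, hmem P⟩
      map_one' := Subtype.ext (map_one _)
      map_mul' := fun a b => Subtype.ext (map_mul _ a b)
      map_zero' := Subtype.ext (map_zero _)
      map_add' := fun a b => Subtype.ext (map_add _ a b) }
  have hφ : Function.Surjective φ := by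
    rintro ⟨z, hz⟩
    have hz' := hz
    rw [Algebra.adjoin_singleton_eq_range_aeval] at hz'
    obtain ⟨P, hP⟩ := hz'
    exact ⟨P, Subtype.ext hP⟩
  have hl : p ∈ Polynomial.lifts φ := by
    rw [Polynomial.mem_lifts]
    exact Polynomial.map_surjective φ hφ p
  obtain ⟨Φ, hΦ, -, hΦm⟩ := Polynomial.lifts_and_natDegree_eq_and_monic hl hp
  refine ⟨Φ, hΦm, ?_⟩
  have h2 : (aeval y : K[X] →ₐ[K] F).toRingHom =
      (algebraMap (Algebra.adjoin K {y}) F).comp φ := RingHom.ext fun _ => rfl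
  rw [h2, ← Polynomial.map_map, hΦ, Polynomial.eval_map]
  exact hpx

/-- the common part of the two cases `t = T`, `t = T⁻¹`. -/
theorem SN_core (hR : Stmt_Res) (hRL : Stmt_RedLevel) (hRV : Stmt_RedV) (hLv : Stmt_Levels)
    (hALP : Stmt_ALProps) (a M r : ℕ) [NeZero (M * r)] (A : ValuationSubring Qb)
    (L : IntermediateField (kA A) (LaurentSeries (kA A)))
    (D : RedData Qb (FL (M * r)) (kA A) L) (W : FL (M * r) ≃ₐ[Qb] FL (M * r))
    (s sr : FL (M * r)) (hG : Geo a M r A L D W s sr)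
    (L' : IntermediateField (kA A) (LaurentSeries (kA A)))
    (D' : RedData Qb (FL M) (kA A) L') (hD' : IsGaussS M A L' D')
    (t u : FL (M * r)) (u0 : FL M) (hu : (u : LaurentSeries Qb) = (u0 : LaurentSeries Qb))
    (h1 : IsInt Qb t u) (h2 : IsInt Qb t (W u)) (h3 : IsInt (kA A) (D.rd u) (D.rd t))
    (hN : ∀ yb : L', IsInt (kA A) (D'.rd u0) yb → ∃ y ∈ D'.O, IsInt Qb u0 y ∧ D'.rd y = yb)
    (y : L) (hy : IsInt (kA A) (D.rd t) y) :
    ∃ x : FL (M * r), InO2 D W x ∧ IsInt Qb t x ∧ IsInt Qb t (W x) ∧ D.rd x = y ∧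
      ((D.rd (W x) : L) : LaurentSeries (kA A)) = S28.Vq (kA A) r (y : LaurentSeries (kA A)) := by
  have hLL' : L ≤ L' := by
    intro z hz
    obtain ⟨x, hxM, hxO, hrd⟩ := (hR a M r A L D W s sr hG).2 ⟨z, hz⟩
    have h := (hRL (M * r) M A L L' D D' hG.gauss hD' x ⟨x, hxM⟩ rfl).2
    rw [hrd] at h
    have h' : z = ((D'.rd ⟨x, hxM⟩ : L') : LaurentSeries (kA A)) := h
    rw [h']
    exact (D'.rd ⟨x, hxM⟩ : L').2
  obtain ⟨incl, hincl⟩ : ∃ f : L →ₐ[kA A] L', ∀ z : L,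
      ((f z : L') : LaurentSeries (kA A)) = (z : LaurentSeries (kA A)) :=
    ⟨IntermediateField.inclusion hLL', IntermediateField.coe_inclusion hLL'⟩
  have hy1 : IsInt (kA A) (D.rd u) y := isInt_trans h3 hy
  have hy2 : IsInt (kA A) (incl (D.rd u)) (incl y) := isInt_map incl hy1
  have hu1 : incl (D.rd u) = D'.rd u0 :=
    Subtype.ext ((hincl _).trans (hRL (M * r) M A L L' D D' hG.gauss hD' u u0 hu).2)
  rw [hu1] at hy2
  obtain ⟨x0, hx0O, hx0int, hx0rd⟩ := hN (incl y) hy2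
  have hMle : modularFunctionFieldBar M ≤ modularFunctionFieldBar (M * r) :=
    fun z hz => (hLv M r z hz).1
  obtain ⟨inclF, hinclF⟩ : ∃ f : FL M →ₐ[Qb] FL (M * r), ∀ z : FL M,
      ((f z : FL (M * r)) : LaurentSeries Qb) = (z : LaurentSeries Qb) :=
    ⟨IntermediateField.inclusion hMle, IntermediateField.coe_inclusion hMle⟩
  have hx1 : IsInt Qb (inclF u0) (inclF x0) := isInt_map inclF hx0int
  have hu2 : inclF u0 = u := Subtype.ext ((hinclF u0).trans hu.symm)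
  rw [hu2] at hx1
  obtain ⟨xV, hxV⟩ : ∃ xV : FL (M * r), (xV : LaurentSeries Qb) =
      S28.Vq Qb r ((inclF x0 : FL (M * r)) : LaurentSeries Qb) :=
    ⟨⟨S28.Vq Qb r (x0 : LaurentSeries Qb), (hLv M r x0 x0.2).2⟩, by rw [hinclF]⟩
  have hWx : W (inclF x0) = xV :=
    (hALP M r W hG.al).2.2 (inclF x0) xV (by rw [hinclF]; exact x0.2) hxV
  have hx2 : IsInt Qb (W u) (W (inclF x0)) := isInt_map W.toAlgHom hx1
  have hRLx := hRL (M * r) M A L L' D D' hG.gauss hD' (inclF x0) x0 (hinclF x0)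
  have hxO : inclF x0 ∈ D.O := hRLx.1.2 hx0O
  have hrdx : D.rd (inclF x0) = y := by
    apply Subtype.ext
    rw [hRLx.2, hx0rd, hincl]
  have hV := hRV (M * r) A L D hG.gauss r (inclF x0) xV hxV hxO
  refine ⟨inclF x0, ⟨hxO, ?_⟩, isInt_trans h1 hx1, isInt_trans h2 hx2, hrdx, ?_⟩
  · rw [hWx]; exact hV.1
  · rw [hWx, hV.2, hrdx]

theorem stmt_SN (hB : Stmt_BasicS) (hR : Stmt_Res) (hNS : Stmt_NormS) (hRL : Stmt_RedLevel)
    (hRV : Stmt_RedV) (hLv : Stmt_Levels) (hALP : Stmt_ALProps) (hIT : Stmt_IntT) : Stmt_SN := by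
  intro a M r _ A L D W s sr hG t ht y hy
  obtain ⟨hWs, hWsr, hsO, hsrO, hrds, hrdsr, htr, hint1, hint2, -⟩ := hB a M r A L D W s sr hG
  have hM0 : M ≠ 0 := by
    rintro rfl
    exact NeZero.ne (0 * r) (zero_mul r)
  haveI : NeZero M := ⟨hM0⟩
  haveI : Fact r.Prime := ⟨hG.ctx.hr⟩
  obtain ⟨L', D', hD'⟩ := exists_gaussS M A
  have hs0mem : sS M (cJ a) Qb ∈ modularFunctionFieldBar M :=
    sub_mem (jd_mem_bar hM0 (dvd_refl M)) (IntermediateField.natCast_mem _ _)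
  have hNSa : Stmt_NormSat a := by
    rcases hG.ctx.ha with rfl | rfl
    · exact hNS.1
    · exact hNS.2
  obtain ⟨-, -, hn1, hn2⟩ := hNSa M r hG.ctx.haM hG.ctx.hrM A hG.ctx.hA L' D' hD'.gauss
    ⟨sS M (cJ a) Qb, hs0mem⟩ rfl
  have hsb0 : D.rd s ≠ 0 := by
    intro h
    rw [h] at htr
    exact htr (isAlgebraic_zero)
  have hs0 : s ≠ 0 := by
    rintro rfl
    exact hsb0 RedData.rd_zero
  have hsrb0 : D.rd sr ≠ 0 := by
    rw [hrdsr]; exact pow_ne_zero r hsb0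
  have hsr0 : sr ≠ 0 := by
    rintro rfl
    exact hsrb0 RedData.rd_zero
  obtain ⟨Φ1, hΦ1, hΦ1e⟩ := SN_exists_poly hint2
  obtain ⟨Φ2, hΦ2, hΦ2e⟩ := SN_exists_poly hint1
  obtain ⟨hi1, hi2⟩ := hIT Qb (FL (M * r)) Φ1 s sr hΦ1 hs0 hsr0 hΦ1e
  obtain ⟨hi3, hi4⟩ := hIT Qb (FL (M * r)) Φ2 sr s hΦ2 hsr0 hs0 hΦ2e
  rw [mul_comm sr s] at hi3 hi4
  have hrdT : D.rd (s * sr) = D.rd s * D.rd s ^ r := by
    rw [RedData.rd_mul hsO hsrO, hrdsr]
  rcases ht with rfl | rfl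
  · refine SN_core hR hRL hRV hLv hALP a M r A L D W s sr hG L' D' hD' (s * sr) s
      ⟨sS M (cJ a) Qb, hs0mem⟩ hG.hs hi1 (by rw [hWs]; exact hi3) ?_ hn1 y hy
    rw [hrdT]
    have hm : D.rd s ∈ Algebra.adjoin (kA A) {D.rd s} := Algebra.self_mem_adjoin_singleton _ _
    exact SN_isInt_of_mem (mul_mem hm (pow_mem hm r))
  · refine SN_core hR hRL hRV hLv hALP a M r A L D W s sr hG L' D' hD' (s * sr)⁻¹ s⁻¹
      (⟨sS M (cJ a) Qb, hs0mem⟩ : FL M)⁻¹ ?_ hi4 (by rw [map_inv₀, hWs]; exact hi2) ?_ hn2 y hy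
    · rw [IntermediateField.coe_inv, IntermediateField.coe_inv, hG.hs]
    · have hT0 : D.rd (s * sr) ≠ 0 := by
        rw [hrdT]; exact mul_ne_zero hsb0 (pow_ne_zero r hsb0)
      rw [RedData.rd_inv hT0, hrdT, RedData.rd_inv hsb0, mul_inv, ← inv_pow]
      have hm : (D.rd s)⁻¹ ∈ Algebra.adjoin (kA A) {(D.rd s)⁻¹} :=
        Algebra.self_mem_adjoin_singleton _ _
      exact SN_isInt_of_mem (mul_mem hm (pow_mem hm r))

end Fermat.Agent.BR.Inst

end
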