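import Fermat.Agent.BR.Inst.Interface
import Fermat.Agent.INJ.P16
import Fermat.Agent.INJ.P17
import Fermat.Agent.S18.Glue28

/-!
# BR / Inst, package [SNa] (helper2): `rd2 (BB_t)` contains the radical of `d(τ) Ot`,
`d = X - X^(r^2)`.
-/

set_option autoImplicit false
set_option linter.style.haveILetI false
set_option synthInstance.maxHeartbeats 400000

noncomputable section

namespace Fermat.Agent.BR.Inst

open AlgebraicCurve ModularCurve IntermediateField Polynomial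
open Fermat.Agent Fermat.Agent.INJ Fermat.Agent.INJ.Inst
open Fermat.Agent.BR.Inv (IsIntE)

/-! ### abstract part -/

/-- transport of integrality by a homomorphism of commutative algebras. -/
theorem SNa_isIntE_map {k E E' : Type*} [Field k] [CommRing E] [Algebra k E] [CommRing E']
    [Algebra k E'] (W : E →ₐ[k] E') {t x : E} (h : IsIntE k t x) : IsIntE k (W t) (W x) := by
  unfold IsIntE at *
  have hmem : ∀ y ∈ Algebra.adjoin k {t}, W y ∈ Algebra.adjoin k {W t} := by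
    intro y hy
    have : (Algebra.adjoin k {t}).map W = Algebra.adjoin k {W t} := by
      rw [AlgHom.map_adjoin, Set.image_singleton]
    rw [← this]
    exact ⟨y, hy, rfl⟩
  obtain ⟨p, hp, hpx⟩ := h
  let φ : Algebra.adjoin k {t} →+* Algebra.adjoin k {W t} :=
    { toFun := fun y => ⟨W y.1, hmem y.1 y.2⟩
      map_one' := Subtype.ext (map_one W)
      map_mul' := fun a b => Subtype.ext (map_mul W a.1 b.1)
      map_zero' := Subtype.ext (map_zero W)
      map_add' := fun a b => Subtype.ext (map_add W a.1 b.1) }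
  refine ⟨p.map φ, hp.map φ, ?_⟩
  rw [Polynomial.eval₂_map]
  have h2 : (algebraMap (Algebra.adjoin k {W t}) E').comp φ =
      (W : E →+* E').comp (algebraMap (Algebra.adjoin k {t}) E) := RingHom.ext fun _ => rfl
  rw [h2]
  have h3 := Polynomial.hom_eval₂ p (algebraMap (Algebra.adjoin k {t}) E) (W : E →+* E') x
  rw [hpx, map_zero] at h3
  exact h3.symm

section Abstract

variable {K F k L : Type} [Field K] [Field F] [Algebra K F] [Field k] [Field L] [Algebra k L]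

/-- `g ∈ rd2 (BB_t)`. -/
def SNa_Lift (D : RedData K F k L) (W : F ≃ₐ[K] F) (t : F) (g : L × L) : Prop :=
  ∃ x : F, InO2 D W x ∧ IsInt K t x ∧ rd2 D W x = g

theorem SNa_Lift_zero (D : RedData K F k L) (W : F ≃ₐ[K] F) (t : F) : SNa_Lift D W t 0 := by
  refine ⟨0, ⟨D.O.zero_mem, by rw [map_zero]; exact D.O.zero_mem⟩, isIntegral_zero, ?_⟩
  rw [rd2, map_zero, RedData.rd_zero]
  rfl

theorem SNa_Lift_add {D : RedData K F k L} {W : F ≃ₐ[K] F} {t : F} {g g' : L × L}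
    (h : SNa_Lift D W t g) (h' : SNa_Lift D W t g') : SNa_Lift D W t (g + g') := by
  obtain ⟨x, hx, hxi, rfl⟩ := h
  obtain ⟨x', hx', hxi', rfl⟩ := h'
  refine ⟨x + x', ⟨add_mem hx.1 hx'.1, by rw [map_add]; exact add_mem hx.2 hx'.2⟩,
    IsIntegral.add hxi hxi', ?_⟩
  rw [rd2, map_add, RedData.rd_add hx.1 hx'.1, RedData.rd_add hx.2 hx'.2]
  rfl

theorem SNa_Lift_sum {D : RedData K F k L} {W : F ≃ₐ[K] F} {t : F} {ι : Type} (S : Finset ι)
    (g : ι → L × L) (h : ∀ i ∈ S, SNa_Lift D W t (g i)) : SNa_Lift D W t (∑ i ∈ S, g i) := by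
  classical
  induction S using Finset.induction_on with
  | empty => rw [Finset.sum_empty]; exact SNa_Lift_zero D W t
  | insert a S ha ih =>
    rw [Finset.sum_insert ha]
    exact SNa_Lift_add (h a (Finset.mem_insert_self a S))
      (ih fun i hi => h i (Finset.mem_insert_of_mem hi))

theorem SNa_fst_snd {tb : L} {f : L × L} (h : IsIntE k ((tb, tb) : L × L) f) :
    IsInt k tb f.1 ∧ IsInt k tb f.2 := by
  have h1 := SNa_isIntE_map (AlgHom.fst k L L) h
  have h2 := SNa_isIntE_map (AlgHom.snd k L L) h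
  rw [AlgHom.fst_apply, AlgHom.fst_apply] at h1
  rw [AlgHom.snd_apply, AlgHom.snd_apply] at h2
  exact ⟨h1, h2⟩

theorem SNa_eqs {tb : L} {f h : L × L} {n : ℕ} (P : k[X])
    (hfh : f ^ n = aeval ((tb, tb) : L × L) P * h) :
    f.1 ^ n = aeval tb P * h.1 ∧ f.2 ^ n = aeval tb P * h.2 := by
  constructor
  · have h1 := congrArg (AlgHom.fst k L L) hfh
    rw [map_pow, map_mul, ← Polynomial.aeval_algHom_apply] at h1
    exact h1
  · have h1 := congrArg (AlgHom.snd k L L) hfh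
    rw [map_pow, map_mul, ← Polynomial.aeval_algHom_apply] at h1
    exact h1

theorem SNa_isInt_self (tb : L) : IsInt k tb tb :=
  isIntegral_algebraMap (R := Algebra.adjoin k {tb})
    (x := ⟨tb, Algebra.self_mem_adjoin_singleton k tb⟩)

theorem SNa_core (hSA : Stmt_SNalg) (D : RedData K F k L) (W : F ≃ₐ[K] F) (t : F) (r : ℕ)
    (hr : 2 ≤ r) (Φ : L →ₐ[k] L) (hWt : W t = t) (htr : Transcendental k (D.rd t))
    (hfin : FiniteDimensional k⟮D.rd t⟯ L) (hsep : Algebra.IsSeparable k⟮D.rd t⟯ L)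
    (hpow : ∀ y, ∃ g, Φ y = g ^ r) (hΦt : Φ (D.rd t) = D.rd t ^ r)
    (hSJ : ∀ y c : L, IsInt k (D.rd t) y → IsInt k (D.rd t) c →
      SNa_Lift D W t ((y - Φ (Φ y)) * c, 0) ∧ SNa_Lift D W t (0, (y - Φ (Φ y)) * c))
    (f h : L × L) (n : ℕ) (hf : IsIntE k (rd2 D W t) f) (hh : IsIntE k (rd2 D W t) h)
    (hfh : f ^ n = aeval (rd2 D W t) (X - X ^ (r ^ 2) : k[X]) * h) : SNa_Lift D W t f := by
  have hτ : rd2 D W t = (D.rd t, D.rd t) := by rw [rd2, hWt]
  rw [hτ] at hf hh hfh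
  obtain ⟨hf1, hf2⟩ := SNa_fst_snd hf
  obtain ⟨hh1, hh2⟩ := SNa_fst_snd hh
  have hΦΦ : Φ (Φ (D.rd t)) = D.rd t ^ (r ^ 2) := by
    rw [hΦt, map_pow, hΦt, ← pow_mul, sq]
  have hd : aeval (D.rd t) (X - X ^ (r ^ 2) : k[X]) = D.rd t - Φ (Φ (D.rd t)) := by
    rw [hΦΦ, map_sub, map_pow, aeval_X]
  obtain ⟨e1, e2⟩ := SNa_eqs _ hfh
  rw [hd] at e1 e2
  have htt : IsInt k (D.rd t) (D.rd t) := SNa_isInt_self _
  have hΦint : ∀ y, IsInt k (D.rd t) y → IsInt k (D.rd t) (Φ y) := by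
    intro y hy
    have h1 : IsInt k (Φ (D.rd t)) (Φ y) := isInt_map Φ hy
    rw [hΦt] at h1
    exact isInt_trans (IsIntegral.pow htt r) h1
  obtain ⟨m, y, c, hyc, hsum⟩ :=
    hSA k L (D.rd t) r Φ hr htr hfin hsep hpow hΦint (D.rd t) f.1 h.1 n htt hf1 hh1 e1
  obtain ⟨m', y', c', hyc', hsum'⟩ :=
    hSA k L (D.rd t) r Φ hr htr hfin hsep hpow hΦint (D.rd t) f.2 h.2 n htt hf2 hh2 e2
  have h1 : SNa_Lift D W t (∑ i, ((y i - Φ (Φ (y i))) * c i, (0 : L))) :=
    SNa_Lift_sum _ _ fun i _ => (hSJ (y i) (c i) (hyc i).1 (hyc i).2).1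
  have h2 : SNa_Lift D W t (∑ i, ((0 : L), (y' i - Φ (Φ (y' i))) * c' i)) :=
    SNa_Lift_sum _ _ fun i _ => (hSJ (y' i) (c' i) (hyc' i).1 (hyc' i).2).2
  have h3 := SNa_Lift_add h1 h2
  have h4 : (∑ i, ((y i - Φ (Φ (y i))) * c i, (0 : L))) +
      ∑ i, ((0 : L), (y' i - Φ (Φ (y' i))) * c' i) = f := by
    refine Prod.ext ?_ ?_
    · rw [Prod.fst_add, Prod.fst_sum, Prod.fst_sum, hsum]
      simp
    · rw [Prod.snd_add, Prod.snd_sum, Prod.snd_sum, hsum']
      simp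
  rwa [h4] at h3

end Abstract

/-! ### series -/

section Series

variable (k : Type) [Field k]

theorem SNa_coeff_natCast (c : ℕ) {n : ℤ} (hn : n ≠ 0) : ((c : LaurentSeries k)).coeff n = 0 := by
  rw [← map_natCast (HahnSeries.C : k →+* LaurentSeries k) c, HahnSeries.C_apply,
    HahnSeries.coeff_single_of_ne hn]

theorem SNa_coeff_sS {M : ℕ} (hM : M ≠ 0) (c : ℕ) : (sS M c k).coeff (-(M : ℤ)) = 1 := by
  rw [sS, HahnSeries.coeff_sub, coeff_jd k hM, SNa_coeff_natCast k c (by omega), sub_zero]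

theorem SNa_sS_ne_zero {M : ℕ} (hM : M ≠ 0) (c : ℕ) : sS M c k ≠ 0 := by
  intro h
  have h1 := SNa_coeff_sS k hM c
  rw [h, HahnSeries.coeff_zero] at h1
  exact zero_ne_one h1

theorem SNa_order_sS {M : ℕ} (hM : M ≠ 0) (c : ℕ) : (sS M c k).order = -(M : ℤ) := by
  apply le_antisymm
  · apply HahnSeries.order_le_of_coeff_ne_zero
    rw [SNa_coeff_sS k hM c]; exact one_ne_zero
  · rw [HahnSeries.le_order_iff_forall (SNa_sS_ne_zero k hM c)]
    intro n hn
    rw [sS, HahnSeries.coeff_sub, SNa_coeff_natCast k c (by omega), sub_zero]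
    apply HahnSeries.coeff_eq_zero_of_lt_order
    rw [S28.L1.order_jd k M hM]
    exact hn

theorem SNa_order_inv {x : LaurentSeries k} (hx : x ≠ 0) : x⁻¹.order = - x.order := by
  have h := HahnSeries.order_mul hx (inv_ne_zero hx)
  rw [mul_inv_cancel₀ hx, HahnSeries.order_one] at h
  omega

/-- `θ tb ≠ 0`. -/
theorem SNa_theta (r : ℕ) [Fact r.Prime] [CharP k r] {M : ℕ} (hM : ¬ r ∣ M) (c : ℕ)
    (y : LaurentSeries k)
    (hy : y = sS M c k * sS M c k ^ r ∨ y = (sS M c k * sS M c k ^ r)⁻¹) :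
    ∃ n : ℤ, (n : k) ≠ 0 ∧ y.coeff n ≠ 0 := by
  have hM0 : M ≠ 0 := by rintro rfl; exact hM (dvd_zero r)
  have hs := SNa_sS_ne_zero k hM0 c
  have hMk : (M : k) ≠ 0 := by rwa [Ne, CharP.cast_eq_zero_iff k r]
  have hrk : (r : k) = 0 := CharP.cast_eq_zero k r
  have hp : sS M c k * sS M c k ^ r ≠ 0 := mul_ne_zero hs (pow_ne_zero r hs)
  have ho : (sS M c k * sS M c k ^ r).order = -((M : ℤ) * (r + 1)) := by
    rw [HahnSeries.order_mul hs (pow_ne_zero r hs), HahnSeries.order_pow, SNa_order_sS k hM0 c,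
      nsmul_eq_mul]
    ring
  have hy0 : y ≠ 0 := by
    rcases hy with rfl | rfl
    · exact hp
    · exact inv_ne_zero hp
  refine ⟨y.order, ?_, fun h => hy0 (HahnSeries.coeff_order_eq_zero.1 h)⟩
  rcases hy with rfl | rfl
  · rw [ho]
    push_cast
    rw [hrk, zero_add, mul_one]
    exact neg_ne_zero.2 hMk
  · rw [SNa_order_inv k hp, ho]
    push_cast
    rw [hrk, zero_add, mul_one, neg_neg]
    exact hMk

/-- series with coefficients in the prime field: `y(q^r) = y^r`. -/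
theorem SNa_Vq_eq_pow (r : ℕ) [Fact r.Prime] [CharP k r]
    (hF : ∀ (τ : k →+* k), (∀ c, τ c = c ^ r) → ∀ y : LaurentSeries k,
      y ^ r = coeffMap τ (S28.Vq k r y)) (M c : ℕ) (y : LaurentSeries k)
    (hy : y = sS M c k * sS M c k ^ r ∨ y = (sS M c k * sS M c k ^ r)⁻¹) :
    S28.Vq k r y = y ^ r := by
  have h1 := hF (frobenius k r) (fun c => rfl) y
  have hs : coeffMap (frobenius k r) (sS M c k) = sS M c k := by
    rw [sS, map_sub, S28.tower_coeffMap_jd, map_natCast]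
  have h2 : coeffMap (frobenius k r) y = y := by
    rcases hy with rfl | rfl
    · rw [map_mul, map_pow, hs]
    · rw [map_inv₀, map_mul, map_pow, hs]
  rw [h1, S28.tower_coeffMap_Vq, h2]

end Series

/-! ### the endomorphism `q ↦ q^r` -/

/-- the restriction of `q ↦ q^r` to a stable subfield. -/
def SNa_Phi (k : Type) [Field k] (r : ℕ) [NeZero r] (L : IntermediateField k (LaurentSeries k))
    (h : ∀ y ∈ L, S28.Vq k r y ∈ L) : L →ₐ[k] L where
  toFun y := ⟨S28.Vq k r y, h y y.2⟩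
  map_one' := Subtype.ext (map_one _)
  map_mul' _ _ := Subtype.ext (map_mul _ _ _)
  map_zero' := Subtype.ext (map_zero _)
  map_add' _ _ := Subtype.ext (map_add _ _ _)
  commutes' c := Subtype.ext (by
    show S28.Vq k r (algebraMap k (LaurentSeries k) c) = algebraMap k (LaurentSeries k) c
    rw [S28.Vq_eq]
    exact (qExpandAlgHomC k r).commutes c)

theorem SNa_Phi_coe (k : Type) [Field k] (r : ℕ) [NeZero r]
    (L : IntermediateField k (LaurentSeries k)) (h : ∀ y ∈ L, S28.Vq k r y ∈ L) (y : L) :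
    ((SNa_Phi k r L h y : L) : LaurentSeries k) = S28.Vq k r (y : LaurentSeries k) := rfl

theorem SNa_charP (A : ValuationSubring Qb) (r : ℕ) (hr : r.Prime) (hA : A.LiesOverPrime r) :
    CharP (kA A) r := by
  have hl : (r : kA A) = 0 := by
    obtain ⟨ha, hm⟩ := ValuationSubring.mem_nonunits_iff_exists_mem_maximalIdeal.1 hA
    have h1 : IsLocalRing.residue A ⟨(r : Qb), ha⟩ = 0 := (IsLocalRing.residue_eq_zero_iff _).2 hm
    have h2 : (⟨(r : Qb), ha⟩ : A) = (r : A) := Subtype.ext (by simp)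
    rw [h2, map_natCast] at h1
    exact h1
  exact (CharP.charP_iff_prime_eq_zero hr).mpr hl

/-! ### the statement -/

set_option maxHeartbeats 1000000 in
theorem stmt_SNa (hSJ : Stmt_SJ) (hSA : Stmt_SNalg) (hR : Stmt_Res) (hF : Stmt_FrobKf)
    (hDT : Stmt_DegT) (hB : Stmt_BasicS) : Stmt_SNa := by
  intro a M r _ A L D W s sr G t ht f h n hf hh hfh
  haveI : Fact r.Prime := ⟨G.ctx.hr⟩
  haveI : NeZero r := ⟨G.ctx.hr.ne_zero⟩
  haveI hAC : IsAlgClosed (kA A) := S18G.isAlgClosed_kA A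
  haveI hchar : CharP (kA A) r := SNa_charP A r G.ctx.hr G.ctx.hA
  obtain ⟨hL, -⟩ := hR a M r A L D W s sr G
  obtain ⟨-, hF2, hF3⟩ := hF (kA A) r M
  obtain ⟨htO, hWt, htr, hfinK, -⟩ := hDT a M r A L D W s sr G t ht
  obtain ⟨-, -, hsO, hsrO, hsb, hsrb, hstr, -, -, -⟩ := hB a M r A L D W s sr G
  have hsb0 : D.rd s ≠ 0 := by
    intro h0
    rw [h0] at hstr
    exact hstr isAlgebraic_zero
  -- the series of `tb`
  have hprod : ((D.rd (s * sr) : L) : LaurentSeries (kA A)) =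
      sS M (cJ a) (kA A) * sS M (cJ a) (kA A) ^ r := by
    rw [RedData.rd_mul hsO hsrO, hsrb, ← hsb]
    rfl
  have htb : ((D.rd t : L) : LaurentSeries (kA A)) =
        sS M (cJ a) (kA A) * sS M (cJ a) (kA A) ^ r ∨
      ((D.rd t : L) : LaurentSeries (kA A)) =
        (sS M (cJ a) (kA A) * sS M (cJ a) (kA A) ^ r)⁻¹ := by
    rcases ht with rfl | rfl
    · exact Or.inl hprod
    · right
      have h0 : D.rd (s * sr) ≠ 0 := by
        rw [RedData.rd_mul hsO hsrO, hsrb]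
        exact mul_ne_zero hsb0 (pow_ne_zero r hsb0)
      rw [RedData.rd_inv h0, ← hprod]
      rfl
  -- the endomorphism
  have hstab : ∀ y ∈ L, S28.Vq (kA A) r y ∈ L := by
    intro y hy
    obtain ⟨g, hg, hgy⟩ := hF2 y (hL ▸ hy)
    rw [← hgy]
    exact pow_mem (hL.symm ▸ hg) r
  have hfin : FiniteDimensional (kA A)⟮D.rd t⟯ L :=
    stmt_ResFinite Qb (FL (M * r)) (kA A) L D t htO.1 htr hfinK
  have hsep : Algebra.IsSeparable (kA A)⟮D.rd t⟯ L :=
    stmt_SepL (kA A) r L (D.rd t) (SNa_theta (kA A) r G.ctx.hrM (cJ a) _ htb)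
      (Algebra.IsAlgebraic.of_finite _ _)
  refine SNa_core hSA D W t r G.ctx.hr.two_le (SNa_Phi (kA A) r L hstab) hWt htr hfin hsep ?_ ?_ ?_
    f h n hf hh hfh
  · intro y
    obtain ⟨g, hg, hgy⟩ := hF2 y (hL ▸ y.2)
    exact ⟨⟨g, hL.symm ▸ hg⟩, Subtype.ext hgy.symm⟩
  · exact Subtype.ext (SNa_Vq_eq_pow (kA A) r hF3 M (cJ a) _ htb)
  · intro y c hy hc
    refine hSJ a M r A L D W s sr G t ht y _ c hy hc ?_
    rw [SNa_Phi_coe, SNa_Phi_coe, S28.tower_Vq_Vq _ G.ctx.hr.ne_zero G.ctx.hr.ne_zero, sq]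

end Fermat.Agent.BR.Inst

end
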