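import Fermat.Agent.BR.Inst.Interface

/-!
# BR / Inst [SA] : the ideal generated by the `a - Φ² a` is radical (`Stmt_SNalg`)
-/

set_option autoImplicit false

namespace Fermat.Agent.BR.Inst

open IntermediateField Polynomial Fermat.Agent.INJ
open scoped IntermediateField.algebraAdjoinAdjoin

/-- an ideal of a Dedekind domain which is contained in no square of a prime is radical. -/
theorem SA_mem_of_pow_mem {O : Type*} [CommRing O] [IsDedekindDomain O] (I : Ideal O)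
    (hI : ∀ P : Ideal O, P.IsPrime → P ≠ ⊥ → I ≤ P → ¬ I ≤ P ^ 2) (f : O) (n : ℕ)
    (hf : f ^ n ∈ I) : f ∈ I := by
  by_cases h0 : I = ⊥
  · subst h0
    rw [Ideal.mem_bot] at hf ⊢
    exact eq_zero_of_pow_eq_zero hf
  · have hsq : Squarefree I := by
      refine (squarefree_iff_irreducible_sq_not_dvd_of_ne_zero h0).2 fun P hP hdvd => ?_
      have hPp : Prime P := UniqueFactorizationMonoid.irreducible_iff_prime.1 hP
      have h1 : I ≤ P ^ 2 := by
        rw [sq]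
        exact Ideal.le_of_dvd hdvd
      exact hI P (Ideal.isPrime_of_prime hPp) hPp.ne_zero
        (h1.trans (Ideal.pow_le_self two_ne_zero)) h1
    have h2 := hsq.isRadical n (Ideal.span {f}) (by
      rw [Ideal.span_singleton_pow, Ideal.dvd_iff_le, Ideal.span_singleton_le_iff_mem]
      exact hf)
    rwa [Ideal.dvd_iff_le, Ideal.span_singleton_le_iff_mem] at h2

theorem SA_isDedekindDomain {k L : Type*} [Field k] [Field L] [Algebra k L] {t : L}
    (ht : Transcendental k t) [FiniteDimensional k⟮t⟯ L] [Algebra.IsSeparable k⟮t⟯ L] :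
    IsDedekindDomain (integralClosure (Algebra.adjoin k {t}) L) := by
  have : IsPrincipalIdealRing (Algebra.adjoin k {t}) :=
    IsPrincipalIdealRing.of_surjective
      (Polynomial.algEquivOfTranscendental k t ht).toRingEquiv.toRingHom
      (Polynomial.algEquivOfTranscendental k t ht).surjective
  exact integralClosure.isDedekindDomain (Algebra.adjoin k {t}) k⟮t⟯ L

theorem stmt_SNalg : Stmt_SNalg := by
  intro k L _ _ _ t r Φ hr ht hfin hsep hpow hΦ d f h n hd hf hh hfn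
  have hDed := SA_isDedekindDomain ht
  let OO := integralClosure (Algebra.adjoin k {t}) L
  have hΦΦ : ∀ y : OO, Φ (Φ (y : L)) ∈ OO := fun y => hΦ _ (hΦ _ y.2)
  let S : Set OO := {x | ∃ y : OO, (x : L) = (y : L) - Φ (Φ (y : L))}
  let I : Ideal OO := Ideal.span S
  have hI : ∀ P : Ideal OO, P.IsPrime → P ≠ ⊥ → I ≤ P → ¬ I ≤ P ^ 2 := by
    intro P hP hP0 hIP hIP2
    obtain ⟨ϖ, hϖ1, hϖ2⟩ := SetLike.exists_of_lt (Ideal.pow_lt_self P hP0 hP.ne_top 2 le_rfl)
    let ψ : OO := ⟨Φ (Φ (ϖ : L)), hΦΦ ϖ⟩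
    have hx : ϖ - ψ ∈ I := Ideal.subset_span ⟨ϖ, rfl⟩
    have hψ : ψ ∈ P := by
      have := P.sub_mem hϖ1 (hIP hx)
      rwa [sub_sub_cancel] at this
    obtain ⟨g, hg⟩ := hpow (Φ (ϖ : L))
    have hgI : g ∈ OO := IsIntegral.of_pow (by omega : 0 < r) (by rw [← hg]; exact hΦΦ ϖ)
    have hgψ : (⟨g, hgI⟩ : OO) ^ r = ψ := Subtype.ext hg.symm
    have hgP : (⟨g, hgI⟩ : OO) ∈ P := hP.mem_of_pow_mem r (by rw [hgψ]; exact hψ)
    have hψ2 : ψ ∈ P ^ 2 := by
      rw [← hgψ]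
      exact Ideal.pow_le_pow_right hr (Ideal.pow_mem_pow hgP r)
    apply hϖ2
    have := (P ^ 2).add_mem (hIP2 hx) hψ2
    rwa [sub_add_cancel] at this
  have hfI : (⟨f, hf⟩ : OO) ∈ I := by
    refine SA_mem_of_pow_mem I hI _ n ?_
    have h1 : (⟨f, hf⟩ : OO) ^ n = (⟨d, hd⟩ - ⟨Φ (Φ d), hΦΦ ⟨d, hd⟩⟩ : OO) * ⟨h, hh⟩ :=
      Subtype.ext hfn
    rw [h1]
    exact I.mul_mem_right _ (Ideal.subset_span ⟨⟨d, hd⟩, rfl⟩)
  obtain ⟨m, c, g, hsum⟩ := Submodule.mem_span_set'.1 hfI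
  choose y hy using fun i => (g i).2
  refine ⟨m, fun i => (y i : L), fun i => (c i : L), fun i => ⟨(y i).2, (c i).2⟩, ?_⟩
  have h2 := congrArg (fun z : OO => (z : L)) hsum
  simp only [smul_eq_mul] at h2
  rw [← h2]
  push_cast
  refine Finset.sum_congr rfl fun i _ => ?_
  rw [hy i, mul_comm]

end Fermat.Agent.BR.Inst
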