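import Fermat.Agent.BR.Inst.Interface
import Fermat.Agent.S28.BaseChange
import Fermat.Agent.S18.Glue28

/-!
# BR / Inst : `Stmt_SNb` and `Stmt_Gal2`
-/

set_option autoImplicit false
set_option synthInstance.maxHeartbeats 400000

noncomputable section

namespace Fermat.Agent.BR.Inst

open AlgebraicCurve ModularCurve IntermediateField Polynomial
open Fermat.Agent Fermat.Agent.INJ Fermat.Agent.INJ.Inst
open Fermat.Agent.BR.Inv (IsIntE)

/-- semilinear transport of integrality. -/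
theorem SNb_isIntegral_semilinear {k k' E E' : Type*} [Field k] [Field k'] [CommRing E]
    [CommRing E'] [Algebra k E] [Algebra k' E'] (τ : k →+* k') (φ : E →+* E')
    (hφ : ∀ c, φ (algebraMap k E c) = algebraMap k' E' (τ c)) {t x : E}
    (h : IsIntegral (Algebra.adjoin k {t}) x) : IsIntegral (Algebra.adjoin k' {φ t}) (φ x) := by
  have hmem : ∀ y ∈ Algebra.adjoin k {t}, φ y ∈ Algebra.adjoin k' {φ t} := by
    intro y hy
    induction hy using Algebra.adjoin_induction with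
    | mem y hy => rw [Set.mem_singleton_iff] at hy; subst hy; exact Algebra.subset_adjoin rfl
    | algebraMap a => rw [hφ]; exact Subalgebra.algebraMap_mem _ _
    | add y z _ _ hy hz => rw [map_add]; exact add_mem hy hz
    | mul y z _ _ hy hz => rw [map_mul]; exact mul_mem hy hz
  obtain ⟨p, hp, hpx⟩ := h
  let ψ : Algebra.adjoin k {t} →+* Algebra.adjoin k' {φ t} :=
    { toFun := fun y => ⟨φ y.1, hmem y.1 y.2⟩
      map_one' := Subtype.ext (map_one φ)
      map_mul' := fun a b => Subtype.ext (map_mul φ a.1 b.1)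
      map_zero' := Subtype.ext (map_zero φ)
      map_add' := fun a b => Subtype.ext (map_add φ a.1 b.1) }
  refine ⟨p.map ψ, hp.map ψ, ?_⟩
  rw [Polynomial.eval₂_map]
  have h2 : (algebraMap (Algebra.adjoin k' {φ t}) E').comp ψ =
      φ.comp (algebraMap (Algebra.adjoin k {t}) E) := RingHom.ext fun _ => rfl
  rw [h2]
  have h3 := Polynomial.hom_eval₂ p (algebraMap (Algebra.adjoin k {t}) E) φ x
  rw [hpx, map_zero] at h3
  exact h3.symm

theorem SNb_fst {k L : Type*} [Field k] [Field L] [Algebra k L] {t : L} {f : L × L}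
    (h : IsIntE k ((t, t) : L × L) f) : IsInt k t f.1 := by
  unfold IsIntE at h
  unfold IsInt
  have h1 := SNb_isIntegral_semilinear (RingHom.id k) (RingHom.fst L L)
    (fun c => by rw [Prod.algebraMap_apply]; rfl) h
  rw [RingHom.coe_fst] at h1
  exact h1

theorem SNb_snd {k L : Type*} [Field k] [Field L] [Algebra k L] {t : L} {f : L × L}
    (h : IsIntE k ((t, t) : L × L) f) : IsInt k t f.2 := by
  unfold IsIntE at h
  unfold IsInt
  have h1 := SNb_isIntegral_semilinear (RingHom.id k) (RingHom.snd L L)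
    (fun c => by rw [Prod.algebraMap_apply]; rfl) h
  rw [RingHom.coe_snd] at h1
  exact h1

theorem SNb_charP (A : ValuationSubring Qb) (r : ℕ) (hr : r.Prime) (hA : A.LiesOverPrime r) :
    CharP (kA A) r := by
  rw [CharP.charP_iff_prime_eq_zero hr]
  have hmem : (r : Qb) ∈ A.nonunits := hA
  rw [ValuationSubring.mem_nonunits_iff_exists_mem_maximalIdeal] at hmem
  obtain ⟨h1, h2⟩ := hmem
  rw [← IsLocalRing.residue_eq_zero_iff] at h2
  rw [← h2, ← map_natCast (IsLocalRing.residue ↥A)]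
  congr 1

theorem SNb_coeffMap_sS {R S : Type} [CommRing R] [CommRing S] (τ : R →+* S) (d c : ℕ) :
    coeffMap τ (sS d c R) = sS d c S := by
  rw [sS, map_sub, S28.BC.coeffMap_jd, map_natCast, sS]

theorem SNb_coeffMap_algebraMap {k : Type} [Field k] (τ : k →+* k) (c : k) :
    coeffMap τ (algebraMap k (LaurentSeries k) c) = algebraMap k (LaurentSeries k) (τ c) := by
  have h : ∀ c : k, algebraMap k (LaurentSeries k) c = HahnSeries.C c := fun c => by
    simp [HahnSeries.algebraMap_apply']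
  rw [h, h]
  exact S28.BC.coeffMap_C τ c

/-- `f ^ (r ^ 2) = (f^(τ))(q^(r^2))`. -/
theorem SNb_pow_sq (hF : Stmt_FrobKf) (k : Type) [Field k] [IsAlgClosed k] (r : ℕ) [Fact r.Prime]
    [CharP k r] (τ : k →+* k) (hτ : ∀ c, τ c = c ^ (r ^ 2)) (f : LaurentSeries k) :
    f ^ (r ^ 2) = S28.Vq k (r ^ 2) (coeffMap τ f) := by
  have h3 := (hF k r 1).2.2 (frobenius k r) (fun c => frobenius_def r c)
  have hr0 : r ≠ 0 := (Fact.out : r.Prime).ne_zero
  have hcomp : (frobenius k r).comp (frobenius k r) = τ := by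
    ext c
    rw [RingHom.comp_apply, frobenius_def, frobenius_def, hτ, ← pow_mul, sq]
  rw [sq, pow_mul, h3 f, h3, ← S28.BC.coeffMap_Vq, S28.BC.Vq_Vq r r hr0 hr0, coeffMap_coeffMap,
    hcomp, S28.BC.coeffMap_Vq]

set_option maxHeartbeats 1000000 in
theorem stmt_SNb (hSJ : Stmt_SJ) (hF : Stmt_FrobKf) (hDT : Stmt_DegT) (hB : Stmt_BasicS)
    (hR : Stmt_Res) : Stmt_SNb := by
  intro a M r _ A L D W s sr G t ht τ hτ f g h hf hh hg1 hg2
  have hAC : IsAlgClosed (kA A) := S18G.isAlgClosed_kA A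
  have hrP : Fact r.Prime := ⟨G.ctx.hr⟩
  have hCh : CharP (kA A) r := SNb_charP A r G.ctx.hr G.ctx.hA
  obtain ⟨hWs, hWsr, hsO, hsrO, hrds, hrdsr, htrs, -, -, -⟩ := hB a M r A L D W s sr G
  obtain ⟨hL, -⟩ := hR a M r A L D W s sr G
  obtain ⟨htO, hWt, htr, -, -⟩ := hDT a M r A L D W s sr G t ht
  have hrd2 : rd2 D W t = (D.rd t, D.rd t) := by rw [rd2, hWt]
  rw [hrd2] at hf hh
  -- the semilinear endomorphism of `L`
  have hmem : ∀ y : L, coeffMap τ (y : LaurentSeries (kA A)) ∈ L := by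
    intro y
    have h1 : (y : LaurentSeries (kA A)) ∈ S28.Kf (kA A) M := hL ▸ y.2
    have h2 := (hF (kA A) r M).1 τ y.1 h1
    exact hL.symm ▸ h2
  let φ : L →+* L :=
    { toFun := fun y => ⟨coeffMap τ (y : LaurentSeries (kA A)), hmem y⟩
      map_one' := Subtype.ext (map_one (coeffMap τ))
      map_mul' := fun x y => Subtype.ext (map_mul (coeffMap τ) x.1 y.1)
      map_zero' := Subtype.ext (map_zero (coeffMap τ))
      map_add' := fun x y => Subtype.ext (map_add (coeffMap τ) x.1 y.1) }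
  have hφ : ∀ c, φ (algebraMap (kA A) L c) = algebraMap (kA A) L (τ c) := by
    intro c
    apply Subtype.ext
    show coeffMap τ (algebraMap (kA A) (LaurentSeries (kA A)) c) =
      algebraMap (kA A) (LaurentSeries (kA A)) (τ c)
    exact SNb_coeffMap_algebraMap τ c
  have hφs : φ (D.rd s) = D.rd s := by
    apply Subtype.ext
    show coeffMap τ ((D.rd s : L) : LaurentSeries (kA A)) = _
    rw [hrds, SNb_coeffMap_sS]
  have hs0 : D.rd s ≠ 0 := by
    intro h0
    rw [h0] at htrs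
    exact htrs isAlgebraic_zero
  have hu : D.rd (s * sr) = D.rd s * D.rd s ^ r := by
    rw [RedData.rd_mul hsO hsrO, hrdsr]
  have hφu : φ (D.rd (s * sr)) = D.rd (s * sr) := by
    rw [hu, map_mul, map_pow, hφs]
  have hφt : φ (D.rd t) = D.rd t := by
    rcases ht with rfl | rfl
    · exact hφu
    · have hne : D.rd (s * sr) ≠ 0 := by
        rw [hu]
        exact mul_ne_zero hs0 (pow_ne_zero _ hs0)
      rw [RedData.rd_inv hne, map_inv₀, hφu]
  have hint : ∀ y : L, IsInt (kA A) (D.rd t) y → IsInt (kA A) (D.rd t) (φ y) := by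
    intro y hy
    have h1 := SNb_isIntegral_semilinear τ φ hφ hy
    rw [hφt] at h1
    exact h1
  have hg1' : g.1 = φ f.1 := Subtype.ext hg1
  have hg2' : g.2 = φ f.2 := Subtype.ext hg2
  have hp1 : ((f.1 ^ (r ^ 2) : L) : LaurentSeries (kA A)) =
      S28.Vq (kA A) (r ^ 2) (g.1 : LaurentSeries (kA A)) := by
    rw [hg1, ← SNb_pow_sq hF (kA A) r τ hτ]
    rfl
  have hp2 : ((f.2 ^ (r ^ 2) : L) : LaurentSeries (kA A)) =
      S28.Vq (kA A) (r ^ 2) (g.2 : LaurentSeries (kA A)) := by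
    rw [hg2, ← SNb_pow_sq hF (kA A) r τ hτ]
    rfl
  obtain ⟨⟨x1, hx1O, hx1I, hx1⟩, -⟩ := hSJ a M r A L D W s sr G t ht g.1 (f.1 ^ (r ^ 2)) h.1
    (hg1' ▸ hint _ (SNb_fst hf)) (SNb_fst hh) hp1
  obtain ⟨-, ⟨x2, hx2O, hx2I, hx2⟩⟩ := hSJ a M r A L D W s sr G t ht g.2 (f.2 ^ (r ^ 2)) h.2
    (hg2' ▸ hint _ (SNb_snd hf)) (SNb_snd hh) hp2
  refine ⟨x1 + x2, ⟨add_mem hx1O.1 hx2O.1, ?_⟩, IsIntegral.add hx1I hx2I, ?_⟩
  · rw [map_add]
    exact add_mem hx1O.2 hx2O.2
  · have h1 : rd2 D W (x1 + x2) = rd2 D W x1 + rd2 D W x2 := by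
      unfold rd2
      rw [map_add, RedData.rd_add hx1O.1 hx2O.1, RedData.rd_add hx1O.2 hx2O.2]
      rfl
    rw [h1, hx1, hx2]
    ext <;> simp

theorem stmt_Gal2 (hRG : Stmt_RedGal) (hALP : Stmt_ALProps) : Stmt_Gal2 := by
  intro a M r _ A L D W s sr G σ τ hσ
  obtain ⟨-, hcomm, -⟩ := hALP M r W G.al
  refine ⟨?_, ?_⟩
  · apply Subtype.ext
    rw [ES.Mid.coe_gal]
    show coeffMap _ ((s : LaurentSeries Qb) * (sr : LaurentSeries Qb)) =
      (s : LaurentSeries Qb) * (sr : LaurentSeries Qb)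
    rw [map_mul, G.hs, G.hsr, SNb_coeffMap_sS, SNb_coeffMap_sS]
  · intro x hx
    obtain ⟨h1, h2⟩ := hRG (M * r) A L D G.gauss σ τ hσ x hx.1
    obtain ⟨h3, h4⟩ := hRG (M * r) A L D G.gauss σ τ hσ (W x) hx.2
    refine ⟨⟨h1, ?_⟩, h2, ?_⟩
    · rw [hcomm]
      exact h3
    · show (((D.rd (W (ES.Mid.gal (M * r) σ x))) : L) : LaurentSeries (kA A)) = _
      rw [hcomm]
      exact h4

end Fermat.Agent.BR.Inst

end
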