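import Fermat.Agent.BR.Inst.Interface2

/-!
# BR / Inst / [T4], [T6] : the endomorphism of the residue field induced by the decomposition group,
and `CongOne ⇒ rd = 1`
-/

set_option autoImplicit false
set_option synthInstance.maxHeartbeats 400000

noncomputable section

namespace Fermat.Agent.BR.Inst

open AlgebraicCurve ModularCurve IntermediateField Polynomial
open Fermat.Agent Fermat.Agent.INJ Fermat.Agent.INJ.Inst

/-- **[T4]**. -/
theorem stmt_SigmaL (hRG : Stmt_RedGal) : Stmt_SigmaL := by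
  intro N A L D hD σ τ hστ
  have hmem : ∀ y : L, coeffMap τ (y : LaurentSeries (kA A)) ∈ L := by
    intro y
    obtain ⟨z, hz, rfl⟩ := RedData.exists_rd_eq (D := D) y
    rw [← (hRG N A L D hD σ τ hστ z hz).2]
    exact (D.rd (ES.Mid.gal N σ z)).2
  let σ₁ : L →+* L :=
    { toFun := fun y => ⟨coeffMap τ (y : LaurentSeries (kA A)), hmem y⟩
      map_one' := Subtype.ext (map_one (coeffMap τ))
      map_mul' := fun a b => Subtype.ext (map_mul (coeffMap τ) _ _)
      map_zero' := Subtype.ext (map_zero (coeffMap τ))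
      map_add' := fun a b => Subtype.ext (map_add (coeffMap τ) _ _) }
  refine ⟨σ₁, fun y => rfl, fun z hz => ?_⟩
  obtain ⟨h1, h2⟩ := hRG N A L D hD σ τ hστ z hz
  exact ⟨h1, Subtype.ext h2⟩

/-- **[T6]**. -/
theorem stmt_CongRd : Stmt_CongRd := by
  intro N A L D hD u hu
  obtain ⟨y₁, y₂, -, -, h1, h2, h3⟩ := hu
  obtain ⟨-, h4⟩ := hD.ratio u y₁ y₂ h3 h1
  apply Subtype.ext
  rw [h4, h2, div_self h3]
  rfl

end Fermat.Agent.BR.Inst

end
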